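import Mathlib
import Fermat.Agent.S41.Spec.HK
import Fermat.Agent.S41.H761.CosetSystem
import Fermat.Agent.S41.H761.HKSystems

/-!
# Row S59, cell TW, leaf TW-CTRL (helper105): the operator `U_q` on `Hom(Γ₀(M), A)`, `q ∣ M`

`U_q` is the transfer of the coset system `[[1, j], [0, q]]`, `j ∈ ℤ/q` (the Prelude's
`heckeMatrix q j`, i.e. the representatives of `ModularForm.heckeU`), from `Γ₀(M)` to `Γ₀(M)`.

* `uqSystem hq : IsCosetSystem (ιN M) (ιN M) (fun j : ZMod q => heckeRep q j)`;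
* `Uq hq φ` : the operator;
* `uqSystem_transitive` : `Γ₀(M)` permutes the `q` cosets transitively.
-/

set_option autoImplicit false

namespace Fermat.Agent.S59.H105

open CongruenceSubgroup Matrix.SpecialLinearGroup ModularForm
open Fermat.Agent.S29.H642 Fermat.Agent.S41.Spec Fermat.Agent.S41.H761
open P2MW.S_ModularForm_heckeT_slash_eq_self_of_mem_Gamma0.ModularForm.HeckeSlashInvariance
open scoped MatrixGroups

variable {M q : ℕ} [Fact q.Prime]

/-- The representatives `[[1, j], [0, q]]` of `U_q`. -/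
noncomputable def uqRep (q : ℕ) (j : ZMod q) : GL (Fin 2) ℝ := heckeRep q (j : OnePoint (ZMod q))

theorem coe_uqRep (j : ZMod q) :
    ((uqRep q j : GL (Fin 2) ℝ) : Matrix (Fin 2) (Fin 2) ℝ) = !![(1 : ℝ), (j.val : ℝ); 0, (q : ℝ)] :=
  coe_heckeRep_coe j

/-- The `U_q` coset system at a level `M` divisible by `q`. -/
theorem uqSystem (hq : q ∣ M) : IsCosetSystem (ιN M) (ιN M) (uqRep q) where
  inj := ιN_injective M
  exists_mul := by
    intro j γ
    have hM : (M : ℤ) ∣ (γ : SL(2, ℤ)) 1 0 := dvd_of_mem_Gamma0 γ.2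
    have hc : (q : ℤ) ∣ (γ : SL(2, ℤ)) 1 0 := (Int.natCast_dvd_natCast.mpr hq).trans hM
    obtain ⟨g', hg', hmul⟩ := heckeMatrix_mul_of_dvd (γ : SL(2, ℤ)) hc j
    refine ⟨affinePerm (γ : SL(2, ℤ)) ((ZMod.intCast_zmod_eq_zero_iff_dvd _ _).mpr hc) j,
      ⟨g', mem_Gamma0_of_dvd (by rw [hg']; exact Dvd.dvd.mul_left hM _)⟩, ?_⟩
    rw [ιN_apply, ιN_apply]
    exact hmul
  eq_of_mul := by
    intro i j g e
    rw [ιN_apply] at e
    have h := heckeRep_eq_of_mul (x := (i : OnePoint (ZMod q))) (y := (j : OnePoint (ZMod q))) e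
    exact OnePoint.coe_injective h

variable {A : Type*} [AddCommGroup A]

/-- The operator `U_q` on `Hom(Γ₀(M), A)`, for `q ∣ M`. -/
noncomputable def Uq (hq : q ∣ M) (φ : Additive (Gamma0 M) →+ A) : Additive (Gamma0 M) →+ A :=
  (uqSystem hq).transfer φ

theorem Uq_apply (hq : q ∣ M) (φ : Additive (Gamma0 M) →+ A) (γ : Gamma0 M) :
    Uq hq φ (Additive.ofMul γ) = ∑ j : ZMod q, φ (Additive.ofMul ((uqSystem hq).coc j γ)) := rfl

theorem Uq_add (hq : q ∣ M) (φ ψ : Additive (Gamma0 M) →+ A) :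
    Uq hq (φ + ψ) = Uq hq φ + Uq hq ψ :=
  (uqSystem hq).transfer_add φ ψ

theorem Uq_comp {B : Type*} [AddCommGroup B] (hq : q ∣ M) (π : A →+ B)
    (φ : Additive (Gamma0 M) →+ A) : Uq hq (π.comp φ) = π.comp (Uq hq φ) :=
  (uqSystem hq).transfer_comp_left π φ

/-- The upper unipotent element `[[1, k], [0, 1]]` of `Γ₀(M)`. -/
def upperUnip (M : ℕ) (k : ℤ) : Gamma0 M := mkGamma0 M 1 k 0 1 (by ring) (dvd_zero _)

theorem upperUnip_entries (M : ℕ) (k : ℤ) :
    ((upperUnip M k : Gamma0 M) : SL(2, ℤ)) 0 0 = 1 ∧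
    ((upperUnip M k : Gamma0 M) : SL(2, ℤ)) 0 1 = k ∧
    ((upperUnip M k : Gamma0 M) : SL(2, ℤ)) 1 0 = 0 ∧
    ((upperUnip M k : Gamma0 M) : SL(2, ℤ)) 1 1 = 1 :=
  mkGamma0_apply M 1 k 0 1 (by ring) (dvd_zero _)

/-- `ρ_j * [[1, j' - j], [0, 1]] = ρ_{j'}`. -/
theorem uqRep_mul_upperUnip (j j' : ZMod q) :
    uqRep q j * ιN M (upperUnip M ((j'.val : ℤ) - (j.val : ℤ))) = ιN M 1 * uqRep q j' := by
  obtain ⟨u00, u01, u10, u11⟩ := upperUnip_entries M ((j'.val : ℤ) - (j.val : ℤ))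
  rw [map_one, one_mul]
  apply gl_ext <;>
    simp only [coe_mul_apply, coe_ιN_apply, coe_uqRep, Matrix.of_apply,
      Matrix.cons_val', Matrix.cons_val_zero, Matrix.cons_val_one, Matrix.cons_val_fin_one,
      u00, u01, u10, u11] <;>
    push_cast <;> ring

/-- `Γ₀(M)` acts transitively on the cosets of `U_q`. -/
theorem uqSystem_transitive (hq : q ∣ M) (j j' : ZMod q) :
    ∃ γ : Gamma0 M, (uqSystem hq).act j γ = j' :=
  ⟨upperUnip M ((j'.val : ℤ) - (j.val : ℤ)),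
    (uqSystem hq).act_eq (g := 1) (uqRep_mul_upperUnip j j')⟩

end Fermat.Agent.S59.H105
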