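import Mathlib
import Fermat.Agent.S41.Spec.HK
import Fermat.Agent.S41.H761.TRH
import Fermat.Agent.S59.H105.UqSystem

/-!
# Row S59, cell TW, leaf TW-CTRL (helper105): the old-form relations of `U_q`

Level `N`, prime `q ∤ N`; `r₁, r₂ : X_N → X_{Nq}` the degeneracy maps of S41 (`Spec/HK.lean`),
`T_q = heckeTransfer` on `X_N`, `U_q = Uq` on `X_{Nq}`.

* `Uq_r₂`  : `U_q (r₂ φ) = q • r₁ φ`;
* `r₁_heckeTransfer` : `r₁ (T_q φ) = U_q (r₁ φ) + r₂ φ`, i.e. `U_q r₁ = r₁ T_q - r₂`.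
-/

set_option autoImplicit false

namespace Fermat.Agent.S59.H105

open CongruenceSubgroup Matrix.SpecialLinearGroup ModularForm
open Fermat.Agent.S29.H642 Fermat.Agent.S41.Spec Fermat.Agent.S41.H761
open P2MW.S_ModularForm_heckeT_slash_eq_self_of_mem_Gamma0.ModularForm.HeckeSlashInvariance
open scoped MatrixGroups

variable {N q : ℕ} [Fact q.Prime]

theorem dvd_mul_self_left (N q : ℕ) : q ∣ N * q := Dvd.intro_left N rfl

theorem sum_onePoint {X : Type*} [Fintype X] {B : Type*} [AddCommMonoid B]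
    (f : OnePoint X → B) : ∑ x : OnePoint X, f x = f OnePoint.infty + ∑ j : X, f (j : OnePoint X) :=
  Fintype.sum_option f

omit [Fact (Nat.Prime q)] in
theorem ιN_incl (γ : Gamma0 (N * q)) : ιN N (incl N q γ) = ιN (N * q) γ := rfl

/-- The spec of the `U_q` system at level `N q`, read at level `N`. -/
theorem uq_spec_incl (j : ZMod q) (γ : Gamma0 (N * q)) :
    heckeRep q (j : OnePoint (ZMod q)) * ιN N (incl N q γ) =
      ιN N (incl N q ((uqSystem (dvd_mul_self_left N q)).coc j γ)) *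
        heckeRep q (((uqSystem (dvd_mul_self_left N q)).act j γ : ZMod q) : OnePoint (ZMod q)) :=
  (uqSystem (dvd_mul_self_left N q)).spec j γ

theorem hElt_incl_infty (hqN : ¬ q ∣ N) (γ : Gamma0 (N * q)) :
    hElt hqN (incl N q γ) OnePoint.infty = conjDelta N q γ := by
  rw [← heckeSystem_coc hqN]
  exact (heckeSystem hqN).coc_eq (j := OnePoint.infty) (r2_rel γ)

theorem hElt_incl_coe (hqN : ¬ q ∣ N) (γ : Gamma0 (N * q)) (j : ZMod q) :
    hElt hqN (incl N q γ) (j : OnePoint (ZMod q)) =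
      incl N q ((uqSystem (dvd_mul_self_left N q)).coc j γ) := by
  rw [← heckeSystem_coc hqN]
  exact (heckeSystem hqN).coc_eq (uq_spec_incl j γ)

variable {A : Type*} [AddCommGroup A]

/-- `r₁ T_q = U_q r₁ + r₂`. -/
theorem r₁_heckeTransfer (hqN : ¬ q ∣ N) (φ : Additive (Gamma0 N) →+ A) :
    r₁ N q (heckeTransfer hqN φ) = Uq (dvd_mul_self_left N q) (r₁ N q φ) + r₂ N q φ := by
  refine AddMonoidHom.ext fun g' => ?_
  obtain ⟨γ, rfl⟩ : ∃ g : Gamma0 (N * q), Additive.ofMul g = g' := ⟨Additive.toMul g', rfl⟩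
  rw [AddMonoidHom.add_apply, Uq_apply]
  show heckeTransfer hqN φ (Additive.ofMul (incl N q γ)) = _
  rw [heckeTransfer_apply, sum_onePoint, hElt_incl_infty, add_comm]
  congr 1
  exact Finset.sum_congr rfl fun j _ => by rw [hElt_incl_coe]; rfl

/-- `U_q r₁ = r₁ T_q - r₂`. -/
theorem Uq_r₁ (hqN : ¬ q ∣ N) (φ : Additive (Gamma0 N) →+ A) :
    Uq (dvd_mul_self_left N q) (r₁ N q φ) = r₁ N q (heckeTransfer hqN φ) - r₂ N q φ := by
  rw [r₁_heckeTransfer, add_sub_cancel_right]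

/-- `c_δ(g_j) * u_{j'} = u_j * γ` for the cocycle `g_j` of the `U_q` system. -/
theorem conjDelta_coc_mul (γ : Gamma0 (N * q)) (j : ZMod q) :
    conjDelta N q ((uqSystem (dvd_mul_self_left N q)).coc j γ) *
        upperUnip N (((uqSystem (dvd_mul_self_left N q)).act j γ).val : ℤ) =
      upperUnip N (j.val : ℤ) * incl N q γ := by
  set g := (uqSystem (dvd_mul_self_left N q)).coc j γ with hg
  set j' := (uqSystem (dvd_mul_self_left N q)).act j γ with hj'
  have hq0 : (q : ℝ) ≠ 0 := by exact_mod_cast (Fact.out : q.Prime).ne_zero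
  have e := (uqSystem (dvd_mul_self_left N q)).spec j γ
  rw [← hg, ← hj'] at e
  have e00 := congrArg (fun M : GL (Fin 2) ℝ => (M : Matrix (Fin 2) (Fin 2) ℝ) 0 0) e
  have e01 := congrArg (fun M : GL (Fin 2) ℝ => (M : Matrix (Fin 2) (Fin 2) ℝ) 0 1) e
  have e10 := congrArg (fun M : GL (Fin 2) ℝ => (M : Matrix (Fin 2) (Fin 2) ℝ) 1 0) e
  have e11 := congrArg (fun M : GL (Fin 2) ℝ => (M : Matrix (Fin 2) (Fin 2) ℝ) 1 1) e
  simp only [coe_mul_apply, coe_ιN_apply, coe_uqRep, Matrix.of_apply, Matrix.cons_val',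
    Matrix.cons_val_zero, Matrix.cons_val_one, Matrix.cons_val_fin_one] at e00 e01 e10 e11
  obtain ⟨c00, c01, c10, c11⟩ := conjDelta_apply_entries g
  have c10' : ((((conjDelta N q g : Gamma0 N) : SL(2, ℤ)) 1 0 : ℤ) : ℝ) * (q : ℝ) =
      (((g : SL(2, ℤ)) 1 0 : ℤ) : ℝ) := by exact_mod_cast c10
  obtain ⟨u00, u01, u10, u11⟩ := upperUnip_entries N (j.val : ℤ)
  obtain ⟨v00, v01, v10, v11⟩ := upperUnip_entries N (j'.val : ℤ)
  apply ιN_injective N
  rw [map_mul, map_mul]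
  have hi : ∀ a b, ((ιN N (incl N q γ) : GL (Fin 2) ℝ) : Matrix (Fin 2) (Fin 2) ℝ) a b
      = (((γ : SL(2, ℤ)) a b : ℤ) : ℝ) := fun a b => coe_mapGL_apply _ a b
  have k10 : ((((conjDelta N q g : Gamma0 N) : SL(2, ℤ)) 1 0 : ℤ) : ℝ) =
      (((γ : SL(2, ℤ)) 1 0 : ℤ) : ℝ) := by
    apply mul_right_cancel₀ hq0
    rw [c10']
    linear_combination (-1 : ℝ) * e10
  apply gl_ext <;>
    simp only [coe_mul_apply, coe_ιN_apply, hi, c00, c01, c11, u00, u01, u10, u11, v00, v01,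
      v10, v11, k10] <;>
    push_cast
  · linear_combination (-1 : ℝ) * e00
  · linear_combination (-1 : ℝ) * e01
  · ring
  · apply mul_left_cancel₀ hq0
    linear_combination (-1 : ℝ) * e11 + (j'.val : ℝ) * e10
  
/-- `U_q r₂ = q r₁`. -/
theorem Uq_r₂ (φ : Additive (Gamma0 N) →+ A) :
    Uq (dvd_mul_self_left N q) (r₂ N q φ) = q • r₁ N q φ := by
  classical
  refine AddMonoidHom.ext fun g' => ?_
  obtain ⟨γ, rfl⟩ : ∃ g : Gamma0 (N * q), Additive.ofMul g = g' := ⟨Additive.toMul g', rfl⟩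
  rw [Uq_apply]
  have h1 : ∀ j : ZMod q,
      r₂ N q φ (Additive.ofMul ((uqSystem (dvd_mul_self_left N q)).coc j γ)) =
        φ (Additive.ofMul (upperUnip N (j.val : ℤ))) + φ (Additive.ofMul (incl N q γ)) -
          φ (Additive.ofMul
            (upperUnip N (((uqSystem (dvd_mul_self_left N q)).act j γ).val : ℤ))) := by
    intro j
    show φ (Additive.ofMul (conjDelta N q ((uqSystem (dvd_mul_self_left N q)).coc j γ))) = _
    have h := conjDelta_coc_mul γ j
    have h2 : conjDelta N q ((uqSystem (dvd_mul_self_left N q)).coc j γ) =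
        upperUnip N (j.val : ℤ) * incl N q γ *
          (upperUnip N (((uqSystem (dvd_mul_self_left N q)).act j γ).val : ℤ))⁻¹ := by
      rw [← h, mul_inv_cancel_right]
    rw [h2]
    simp only [ofMul_mul, ofMul_inv, map_add, map_neg]
    abel
  simp only [h1, Finset.sum_sub_distrib, Finset.sum_add_distrib, Finset.sum_const,
    Finset.card_univ, ZMod.card]
  have h3 : ∑ j : ZMod q, φ (Additive.ofMul
      (upperUnip N (((uqSystem (dvd_mul_self_left N q)).act j γ).val : ℤ))) =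
      ∑ j : ZMod q, φ (Additive.ofMul (upperUnip N (j.val : ℤ))) :=
    Equiv.sum_comp ((uqSystem (dvd_mul_self_left N q)).actEquiv γ)
      (fun j : ZMod q => φ (Additive.ofMul (upperUnip N (j.val : ℤ))))
  rw [h3]
  simp only [AddMonoidHom.coe_smul, Pi.smul_apply]
  show _ = q • φ (Additive.ofMul (incl N q γ))
  abel

end Fermat.Agent.S59.H105
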