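import Mathlib
import Fermat.Agent.S41.Spec.HK
import Fermat.Agent.S41.H761.TRH
import Fermat.Agent.S41.H761.CosetSystem2
import Fermat.Agent.S59.H105.UqRel

/-!
# Row S59, cell TW, leaf TW-CTRL (helper105): the Atkin–Lehner coset and `U_q² = 1` on new classes

Level `N`, prime `q ∤ N`, `x q - b N = 1`, `g₀ = [[x, b], [N, q]] ∈ Γ₀(N)`,
`w = g₀ · diag(q, 1) = [[x q, b], [N q, q]]` (an Atkin–Lehner element of level `N q`).

* `alSystem` : the representatives `[[1, j], [0, q]]` (`j ∈ ℤ/q`) and `w` form a coset system from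
  `Γ₀(N q)` to `Γ₀(N)`; its transfer is `t₂` (`t₂_eq_transfer`);
* `r₁_t₂_apply` : `(r₁ t₂ ψ)(γ) = ψ(c_w γ) + (U_q ψ)(γ)`;
* `r₁_t₁_apply` : `(r₁ t₁ ψ)(γ) = ψ(γ) + ∑_j ψ(c_w (γ_j))`;
* `Uq_Uq` : `U_q (U_q ψ) = ψ + U_q (r₁ (t₂ ψ)) - r₁ (t₁ ψ)`;
* `Uq_Uq_of_new` : `t₁ ψ = 0`, `t₂ ψ = 0` imply `U_q (U_q ψ) = ψ`.
-/

set_option autoImplicit false

namespace Fermat.Agent.S59.H105

open CongruenceSubgroup Matrix.SpecialLinearGroup ModularForm
open Fermat.Agent.S29.H642 Fermat.Agent.S41 Fermat.Agent.S41.Spec Fermat.Agent.S41.H761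
open P2MW.S_ModularForm_heckeT_slash_eq_self_of_mem_Gamma0.ModularForm.HeckeSlashInvariance
open scoped MatrixGroups

variable {N q : ℕ} [Fact q.Prime]

theorem exists_bezout_al (hqN : ¬ q ∣ N) : ∃ x b : ℤ, x * q - b * N = 1 := by
  have hcop : IsCoprime (N : ℤ) (q : ℤ) := by
    rw [Int.isCoprime_iff_gcd_eq_one, Int.gcd_natCast_natCast]
    exact (Nat.Coprime.symm ((Fact.out : q.Prime).coprime_iff_not_dvd.mpr hqN))
  obtain ⟨u, v, huv⟩ := hcop
  exact ⟨v, -u, by linear_combination huv⟩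

/-- `g₀ = [[x, b], [N, q]]`. -/
def alElt (N q : ℕ) (x b : ℤ) (hxb : x * q - b * N = 1) : Gamma0 N :=
  mkGamma0 N x b N q hxb (dvd_refl _)

/-- The modification of the representatives: `1` at the finite points, `g₀` at `∞`. -/
def alBeta (g₀ : Gamma0 N) (y : OnePoint (ZMod q)) : Gamma0 N :=
  Option.elim y g₀ (fun _ => 1)

omit [Fact (Nat.Prime q)] in
theorem alBeta_infty (g₀ : Gamma0 N) : alBeta (q := q) g₀ OnePoint.infty = g₀ := rfl

omit [Fact (Nat.Prime q)] in
theorem alBeta_coe (g₀ : Gamma0 N) (j : ZMod q) : alBeta g₀ (j : OnePoint (ZMod q)) = 1 := rfl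

/-- The representatives `[[1, j], [0, q]]` and `w = g₀ diag(q, 1)`. -/
noncomputable def alRep (g₀ : Gamma0 N) (y : OnePoint (ZMod q)) : GL (Fin 2) ℝ :=
  ιN N (alBeta g₀ y) * heckeRep q y

omit [Fact (Nat.Prime q)] in
theorem alRep_infty (g₀ : Gamma0 N) :
    alRep g₀ (OnePoint.infty : OnePoint (ZMod q)) = ιN N g₀ * heckeRep q OnePoint.infty := rfl

omit [Fact (Nat.Prime q)] in
theorem alRep_coe (g₀ : Gamma0 N) (j : ZMod q) :
    alRep g₀ (j : OnePoint (ZMod q)) = heckeRep q (j : OnePoint (ZMod q)) := by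
  rw [alRep, alBeta_coe, map_one, one_mul]

omit [Fact (Nat.Prime q)] in
theorem alElt_entries (x b : ℤ) (hxb : x * q - b * N = 1) :
    ((alElt N q x b hxb : Gamma0 N) : SL(2, ℤ)) 0 0 = x ∧
    ((alElt N q x b hxb : Gamma0 N) : SL(2, ℤ)) 0 1 = b ∧
    ((alElt N q x b hxb : Gamma0 N) : SL(2, ℤ)) 1 0 = N ∧
    ((alElt N q x b hxb : Gamma0 N) : SL(2, ℤ)) 1 1 = q :=
  mkGamma0_apply N x b N q hxb (dvd_refl _)

/-- The lower row of `alRep` is divisible by `q`. -/
theorem alRep_low (x b : ℤ) (hxb : x * q - b * N = 1) (y : OnePoint (ZMod q)) (i : Fin 2) :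
    ∃ m : ℤ,
      ((alRep (alElt N q x b hxb) y : GL (Fin 2) ℝ) : Matrix (Fin 2) (Fin 2) ℝ) 1 i =
        (q : ℝ) * m := by
  obtain ⟨g00, g01, g10, g11⟩ := alElt_entries (N := N) (q := q) x b hxb
  induction y using OnePoint.rec with
  | infty =>
    fin_cases i
    · refine ⟨N, ?_⟩
      simp only [alRep_infty, coe_mul_apply, coe_ιN_apply, coe_heckeRep_infty, Matrix.of_apply,
        Matrix.cons_val', Matrix.cons_val_zero, Matrix.cons_val_one, Matrix.cons_val_fin_one,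
        g10, g11, Fin.zero_eta, Fin.isValue]
      push_cast
      ring
    · refine ⟨1, ?_⟩
      simp only [alRep_infty, coe_mul_apply, coe_ιN_apply, coe_heckeRep_infty, Matrix.of_apply,
        Matrix.cons_val', Matrix.cons_val_zero, Matrix.cons_val_one, Matrix.cons_val_fin_one,
        g10, g11, Fin.mk_one, Fin.isValue]
      push_cast
      ring
  | coe j =>
    fin_cases i
    · refine ⟨0, ?_⟩
      simp only [alRep_coe, coe_heckeRep_coe, Matrix.of_apply, Matrix.cons_val',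
        Matrix.cons_val_zero, Matrix.cons_val_one, Matrix.cons_val_fin_one, Fin.zero_eta,
        Fin.isValue]
      push_cast
      ring
    · refine ⟨1, ?_⟩
      simp only [alRep_coe, coe_heckeRep_coe, Matrix.of_apply, Matrix.cons_val',
        Matrix.cons_val_zero, Matrix.cons_val_one, Matrix.cons_val_fin_one, Fin.mk_one,
        Fin.isValue]
      push_cast
      ring

/-- An entry of the upper row of `alRep` is an integer prime to `q`. -/
theorem alRep_top (x b : ℤ) (hxb : x * q - b * N = 1) (y : OnePoint (ZMod q)) :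
    ∃ (i : Fin 2) (t : ℤ),
      ((alRep (alElt N q x b hxb) y : GL (Fin 2) ℝ) : Matrix (Fin 2) (Fin 2) ℝ) 0 i = (t : ℝ) ∧
      IsCoprime (q : ℤ) t := by
  obtain ⟨g00, g01, g10, g11⟩ := alElt_entries (N := N) (q := q) x b hxb
  induction y using OnePoint.rec with
  | infty =>
    refine ⟨1, b, ?_, ⟨x, -N, by linear_combination hxb⟩⟩
    simp only [alRep_infty, coe_mul_apply, coe_ιN_apply, coe_heckeRep_infty, Matrix.of_apply,
      Matrix.cons_val', Matrix.cons_val_zero, Matrix.cons_val_one, Matrix.cons_val_fin_one,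
      g00, g01]
    push_cast
    ring
  | coe j =>
    refine ⟨0, 1, ?_, isCoprime_one_right⟩
    simp only [alRep_coe, coe_heckeRep_coe, Matrix.of_apply, Matrix.cons_val',
      Matrix.cons_val_zero, Matrix.cons_val_one, Matrix.cons_val_fin_one]
    push_cast
    ring

/-- If `τ_y g = h τ_{y'}` with `g, h ∈ Γ₀(N)`, then `q ∣ h₁₀`. -/
theorem dvd_of_alRep_mul (x b : ℤ) (hxb : x * q - b * N = 1) {y y' : OnePoint (ZMod q)}
    {g h : Gamma0 N}
    (e : alRep (alElt N q x b hxb) y * ιN N g = ιN N h * alRep (alElt N q x b hxb) y') :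
    (q : ℤ) ∣ (h : SL(2, ℤ)) 1 0 := by
  obtain ⟨i, t, ht, hcop⟩ := alRep_top x b hxb y'
  obtain ⟨m₀, hm₀⟩ := alRep_low x b hxb y 0
  obtain ⟨m₁, hm₁⟩ := alRep_low x b hxb y 1
  obtain ⟨m', hm'⟩ := alRep_low x b hxb y' i
  have e1 := congrArg (fun M : GL (Fin 2) ℝ => (M : Matrix (Fin 2) (Fin 2) ℝ) 1 i) e
  simp only [coe_mul_apply, coe_ιN_apply, hm₀, hm₁, hm', ht] at e1
  have e2 : (h : SL(2, ℤ)) 1 0 * t =
      q * (m₀ * (g : SL(2, ℤ)) 0 i + m₁ * (g : SL(2, ℤ)) 1 i - (h : SL(2, ℤ)) 1 1 * m') := by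
    have : (((h : SL(2, ℤ)) 1 0 * t : ℤ) : ℝ) =
        ((q * (m₀ * (g : SL(2, ℤ)) 0 i + m₁ * (g : SL(2, ℤ)) 1 i - (h : SL(2, ℤ)) 1 1 * m') : ℤ) :
          ℝ) := by
      push_cast
      linear_combination (-1 : ℝ) * e1
    exact_mod_cast this
  exact hcop.dvd_of_dvd_mul_right ⟨_, e2⟩

/-- The relation `τ_y g = (β_y g_y β_{y'}⁻¹) τ_{y'}` coming from the Hecke system. -/
theorem alRep_mul (hqN : ¬ q ∣ N) (g₀ : Gamma0 N) (y : OnePoint (ZMod q)) (g : Gamma0 N) :
    alRep g₀ y * ιN N g =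
      ιN N (alBeta g₀ y * hElt hqN g y * (alBeta g₀ (hPerm q (g : SL(2, ℤ)) y))⁻¹) *
        alRep g₀ (hPerm q (g : SL(2, ℤ)) y) := by
  rw [alRep, alRep, mul_assoc, heckeSystem_spec hqN y g]
  simp only [map_mul, map_inv, mul_assoc, inv_mul_cancel_left]

/-- **The Atkin–Lehner coset system** from `Γ₀(N q)` to `Γ₀(N)`. -/
theorem alSystem (hqN : ¬ q ∣ N) (x b : ℤ) (hxb : x * q - b * N = 1) :
    IsCosetSystem (ιN (N * q)) (ιN N) (alRep (q := q) (alElt N q x b hxb)) where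
  inj := ιN_injective (N * q)
  exists_mul := by
    intro y g
    have e := alRep_mul hqN (alElt N q x b hxb) y g
    have hdvd := dvd_of_alRep_mul x b hxb e
    obtain ⟨h', hh'⟩ := (H105.mem_range_incl_iff (Fact.out : q.Prime) hqN _).mpr hdvd
    refine ⟨hPerm q (g : SL(2, ℤ)) y, h', ?_⟩
    rw [e, ← hh']
    rfl
  eq_of_mul := by
    intro y y' g e
    have e2 : heckeRep q y = ιN N ((alBeta (alElt N q x b hxb) y)⁻¹ * incl N q g *
        alBeta (alElt N q x b hxb) y') * heckeRep q y' := by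
      have e3 : ιN N (alBeta (alElt N q x b hxb) y) * heckeRep q y =
          ιN N (incl N q g) * (ιN N (alBeta (alElt N q x b hxb) y') * heckeRep q y') := e
      simp only [map_mul, map_inv, mul_assoc]
      rw [← e3, inv_mul_cancel_left]
    exact heckeRep_eq_of_mul e2

theorem alSystem_act (hqN : ¬ q ∣ N) (x b : ℤ) (hxb : x * q - b * N = 1)
    (y : OnePoint (ZMod q)) (g : Gamma0 N) :
    (alSystem hqN x b hxb).act y g = hPerm q (g : SL(2, ℤ)) y := by
  have e := alRep_mul hqN (alElt N q x b hxb) y g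
  have hdvd := dvd_of_alRep_mul x b hxb e
  obtain ⟨h', hh'⟩ := (H105.mem_range_incl_iff (Fact.out : q.Prime) hqN _).mpr hdvd
  apply (alSystem hqN x b hxb).act_eq (g := h')
  rw [e, ← hh']
  rfl

theorem alSystem_transitive (hqN : ¬ q ∣ N) (x b : ℤ) (hxb : x * q - b * N = 1)
    (y y' : OnePoint (ZMod q)) : ∃ g : Gamma0 N, (alSystem hqN x b hxb).act y g = y' := by
  obtain ⟨g, hg⟩ := heckeSystem_transitive hqN y y'
  exact ⟨g, by rw [alSystem_act hqN x b hxb, ← hg, heckeSystem_act hqN]⟩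

section Transfer

variable {A : Type*} [AddCommGroup A]

/-- `t₂` is the transfer of the Atkin–Lehner coset system. -/
theorem t₂_eq_transfer (hqN : ¬ q ∣ N) (x b : ℤ) (hxb : x * q - b * N = 1)
    (ψ : Additive (Gamma0 (N * q)) →+ A) :
    t₂ N q ψ = (alSystem hqN x b hxb).transfer ψ := by
  have hqp : q.Prime := Fact.out
  have hN : N ≠ 0 := by rintro rfl; exact hqN (dvd_zero q)
  have : (conjDelta N q).range.FiniteIndex :=
    ⟨by rw [H105.index_range_conjDelta hN hqp hqN]; omega⟩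
  let _ : Fintype (Gamma0 N ⧸ (conjDelta N q).range) :=
    (conjDelta N q).range.fintypeQuotientOfFiniteIndex
  have hinj := H105.conjDelta_injective N hqp.ne_zero
  have hs1 := IsCosetSystem.single (ι := ιN (N * q)) (ι' := (ιN N).comp (conjDelta N q))
    (ιN_injective (N * q)) (MonoidHom.id (Gamma0 (N * q)))
    (heckeRep q ((0 : ZMod q) : OnePoint (ZMod q))) (fun g' => r1_rel g')
  have hs2 := IsCosetSystem.ofTransfer (conjDelta N q) hinj (ιN N) (ιN_injective N)
  have hprod := hs1.prod hs2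
    (fun _ _ z z' g e => ⟨rfl, prod_S2_t2r1 z z' (incl N q g) e⟩)
  show transferAlong (conjDelta N q) ψ = _
  rw [transferAlong_eq (conjDelta N q) hinj (ιN N) (ιN_injective N)]
  have hr1 : ψ = hs1.transfer ψ := by
    rw [IsCosetSystem.single_transfer (ι := ιN (N * q)) (ι' := (ιN N).comp (conjDelta N q))
      (ιN_injective (N * q)) (MonoidHom.id (Gamma0 (N * q)))
      (heckeRep q ((0 : ZMod q) : OnePoint (ZMod q))) (fun g' => r1_rel g') ψ]
    rfl
  conv_lhs => rw [hr1]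
  rw [IsCosetSystem.transfer_comp hs1 hs2 hprod]
  have : Nonempty (Unit × (Gamma0 N ⧸ (conjDelta N q).range)) := ⟨((), ((1 : Gamma0 N) : _))⟩
  refine IsCosetSystem.transfer_eq_of_le hprod (alSystem hqN x b hxb) (fun z => ?_)
    (alSystem_transitive hqN x b hxb) ψ
  have := (alSystem hqN x b hxb).spec ((0 : ZMod q) : OnePoint (ZMod q)) (z.2.out)⁻¹
  rw [alRep_coe] at this
  exact ⟨_, _, this⟩

/-- The Atkin–Lehner conjugation `γ ↦ w γ w⁻¹` on `Γ₀(N q)`. -/
noncomputable def alConj (hqN : ¬ q ∣ N) (x b : ℤ) (hxb : x * q - b * N = 1)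
    (γ : Gamma0 (N * q)) : Gamma0 (N * q) :=
  (alSystem hqN x b hxb).coc OnePoint.infty (incl N q γ)

/-- At the finite points the Atkin–Lehner system restricts to the `U_q` system. -/
theorem alSystem_coe (hqN : ¬ q ∣ N) (x b : ℤ) (hxb : x * q - b * N = 1)
    (γ : Gamma0 (N * q)) (j : ZMod q) :
    (alSystem hqN x b hxb).act (j : OnePoint (ZMod q)) (incl N q γ) =
        (((uqSystem (dvd_mul_self_left N q)).act j γ : ZMod q) : OnePoint (ZMod q)) ∧
      (alSystem hqN x b hxb).coc (j : OnePoint (ZMod q)) (incl N q γ) =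
        (uqSystem (dvd_mul_self_left N q)).coc j γ := by
  apply (alSystem hqN x b hxb).unique
  rw [alRep_coe, alRep_coe]
  exact uq_spec_incl j γ

/-- `∞` is fixed by `Γ₀(N q)`, and `c_w(γ) g₀ = g₀ c_δ(γ)`. -/
theorem alSystem_infty (hqN : ¬ q ∣ N) (x b : ℤ) (hxb : x * q - b * N = 1)
    (γ : Gamma0 (N * q)) :
    (alSystem hqN x b hxb).act OnePoint.infty (incl N q γ) = OnePoint.infty ∧
      incl N q (alConj hqN x b hxb γ) * alElt N q x b hxb =
        alElt N q x b hxb * conjDelta N q γ := by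
  have e' : alRep (alElt N q x b hxb) (OnePoint.infty : OnePoint (ZMod q)) * ιN N (incl N q γ) =
      ιN N (alElt N q x b hxb * conjDelta N q γ * (alElt N q x b hxb)⁻¹) *
        alRep (alElt N q x b hxb) (OnePoint.infty : OnePoint (ZMod q)) := by
    rw [alRep_infty, mul_assoc]
    have := r2_rel (N := N) (q := q) γ
    rw [MonoidHom.comp_apply] at this
    rw [this]
    simp only [map_mul, map_inv, mul_assoc, inv_mul_cancel_left]
  have hdvd := dvd_of_alRep_mul x b hxb e'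
  obtain ⟨h', hh'⟩ := (H105.mem_range_incl_iff (Fact.out : q.Prime) hqN _).mpr hdvd
  have e'' : alRep (alElt N q x b hxb) (OnePoint.infty : OnePoint (ZMod q)) *
      ιN N (incl N q γ) =
      ιN (N * q) h' * alRep (alElt N q x b hxb) (OnePoint.infty : OnePoint (ZMod q)) := by
    rw [e', ← hh']
    rfl
  obtain ⟨h1, h2⟩ := (alSystem hqN x b hxb).unique e''
  refine ⟨h1, ?_⟩
  rw [alConj, h2, hh', inv_mul_cancel_right]

/-- `(r₁ t₂ ψ)(γ) = ψ(c_w γ) + (U_q ψ)(γ)`. -/
theorem r₁_t₂_apply (hqN : ¬ q ∣ N) (x b : ℤ) (hxb : x * q - b * N = 1)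
    (ψ : Additive (Gamma0 (N * q)) →+ A) (γ : Gamma0 (N * q)) :
    r₁ N q (t₂ N q ψ) (Additive.ofMul γ) =
      ψ (Additive.ofMul (alConj hqN x b hxb γ)) +
        Uq (dvd_mul_self_left N q) ψ (Additive.ofMul γ) := by
  rw [t₂_eq_transfer hqN x b hxb]
  show (alSystem hqN x b hxb).transfer ψ (Additive.ofMul (incl N q γ)) = _
  rw [IsCosetSystem.transfer_apply, sum_onePoint, Uq_apply]
  congr 1
  exact Finset.sum_congr rfl fun j _ => by rw [(alSystem_coe hqN x b hxb γ j).2]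

end Transfer

/-! ## The coset system of a transversal -/

section Transversal

variable {G H' 𝒢 I : Type*} [Group G] [Group H'] [Group 𝒢]

/-- A family of `[G : f(H')]` elements of `G` in pairwise distinct right cosets of `f(H')` is a
coset system from `H'` to `G`. -/
theorem isCosetSystem_of_transversal [Finite I] (f : H' →* G) (hf : Function.Injective f)
    (ι : G →* 𝒢) (hι : Function.Injective ι) (g : I → G)
    (hd : ∀ i j, g i * (g j)⁻¹ ∈ f.range → i = j) (hc : Nat.card I = f.range.index)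
    (h0 : f.range.index ≠ 0) : IsCosetSystem (ι.comp f) ι (fun i => ι (g i)) where
  inj := hι.comp hf
  exists_mul := by
    intro i g'
    haveI : f.range.FiniteIndex := ⟨h0⟩
    haveI : Finite (G ⧸ f.range) := Subgroup.finite_quotient_of_finiteIndex
    let e : I → G ⧸ f.range := fun i => (((g i)⁻¹ : G) : G ⧸ f.range)
    have einj : Function.Injective e := by
      intro i j hij
      have := QuotientGroup.eq.mp hij
      rw [inv_inv] at this
      exact hd i j this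
    have ebij : Function.Bijective e :=
      einj.bijective_of_nat_card_le (by rw [hc]; exact le_of_eq rfl)
    obtain ⟨j, hj⟩ := ebij.2 ((((g i * g')⁻¹ : G)) : G ⧸ f.range)
    have h1 := QuotientGroup.eq.mp hj
    rw [inv_inv] at h1
    have h2 : g i * g' * (g j)⁻¹ ∈ f.range := by
      have := f.range.inv_mem h1
      rwa [mul_inv_rev, inv_inv] at this
    obtain ⟨h, hh⟩ := h2
    refine ⟨j, h, ?_⟩
    rw [MonoidHom.comp_apply, hh, ← map_mul, ← map_mul, inv_mul_cancel_right]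
  eq_of_mul := by
    intro i j h e
    rw [MonoidHom.comp_apply, ← map_mul] at e
    have e2 := hι e
    exact hd i j ⟨h, by rw [e2, mul_inv_cancel_right]⟩

/-- The transfer of the coset system of a transversal is the transfer along `f`. -/
theorem transferAlong_eq_of_transversal [Fintype I] {A : Type*} [AddCommGroup A] (f : H' →* G)
    (hf : Function.Injective f) (ι : G →* 𝒢) (hι : Function.Injective ι) (g : I → G)
    (hd : ∀ i j, g i * (g j)⁻¹ ∈ f.range → i = j) (hc : Nat.card I = f.range.index)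
    (h0 : f.range.index ≠ 0) (ψ : Additive H' →+ A) :
    transferAlong f ψ = (isCosetSystem_of_transversal f hf ι hι g hd hc h0).transfer ψ := by
  haveI : f.range.FiniteIndex := ⟨h0⟩
  letI : Fintype (G ⧸ f.range) := f.range.fintypeQuotientOfFiniteIndex
  rw [transferAlong_eq f hf ι hι]
  symm
  refine IsCosetSystem.transfer_eq_of_le_of_card _ _ ?_ (fun i => ?_) ψ
  · rw [← Nat.card_eq_fintype_card, hc, ← Nat.card_eq_fintype_card]
    rfl
  · obtain ⟨h, e⟩ := QuotientGroup.mk_out_eq_mul f.range ((g i)⁻¹)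
    obtain ⟨h', hh'⟩ := h.2
    refine ⟨(((g i)⁻¹ : G) : G ⧸ f.range), h', ?_⟩
    rw [MonoidHom.comp_apply, ← map_mul, e, mul_inv_rev, inv_inv, hh', mul_inv_cancel_left]

end Transversal

/-! ## The transversal `1, g₀ [[1, j], [0, 1]]` of `Γ₀(N q)` in `Γ₀(N)` -/

omit [Fact (Nat.Prime q)] in
theorem mul_inv_apply_one_zero (g g' : Gamma0 N) :
    ((g * g'⁻¹ : Gamma0 N) : SL(2, ℤ)) 1 0 =
      (g : SL(2, ℤ)) 1 0 * (g' : SL(2, ℤ)) 1 1 - (g : SL(2, ℤ)) 1 1 * (g' : SL(2, ℤ)) 1 0 := by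
  rw [Subgroup.coe_mul, Subgroup.coe_inv, Matrix.SpecialLinearGroup.coe_mul,
    Matrix.SpecialLinearGroup.SL2_inv_expl, Matrix.mul_apply, Fin.sum_univ_two]
  simp
  ring

omit [Fact (Nat.Prime q)] in
theorem mul_apply_one (g g' : Gamma0 N) :
    ((g * g' : Gamma0 N) : SL(2, ℤ)) 1 0 =
      (g : SL(2, ℤ)) 1 0 * (g' : SL(2, ℤ)) 0 0 + (g : SL(2, ℤ)) 1 1 * (g' : SL(2, ℤ)) 1 0 ∧
    ((g * g' : Gamma0 N) : SL(2, ℤ)) 1 1 =
      (g : SL(2, ℤ)) 1 0 * (g' : SL(2, ℤ)) 0 1 + (g : SL(2, ℤ)) 1 1 * (g' : SL(2, ℤ)) 1 1 := by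
  rw [Subgroup.coe_mul, Matrix.SpecialLinearGroup.coe_mul, Matrix.mul_apply, Matrix.mul_apply,
    Fin.sum_univ_two, Fin.sum_univ_two]
  exact ⟨rfl, rfl⟩

/-- The representatives `1` (at `∞`) and `g₀ [[1, j], [0, 1]]` of `Γ₀(N q) \ Γ₀(N)`. -/
def alTrans (g₀ : Gamma0 N) (y : OnePoint (ZMod q)) : Gamma0 N :=
  Option.elim y 1 (fun j => g₀ * upperUnip N (j.val : ℤ))

omit [Fact (Nat.Prime q)] in
theorem alTrans_infty (g₀ : Gamma0 N) : alTrans (q := q) g₀ OnePoint.infty = 1 := rfl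

omit [Fact (Nat.Prime q)] in
theorem alTrans_coe (g₀ : Gamma0 N) (j : ZMod q) :
    alTrans g₀ (j : OnePoint (ZMod q)) = g₀ * upperUnip N (j.val : ℤ) := rfl

omit [Fact (Nat.Prime q)] in
/-- The lower row of `alTrans`. -/
theorem alTrans_low (x b : ℤ) (hxb : x * q - b * N = 1) (y : OnePoint (ZMod q)) :
    (y = OnePoint.infty ∧ ((alTrans (alElt N q x b hxb) y : Gamma0 N) : SL(2, ℤ)) 1 0 = 0 ∧
      ((alTrans (alElt N q x b hxb) y : Gamma0 N) : SL(2, ℤ)) 1 1 = 1) ∨
    (∃ j : ZMod q, y = (j : OnePoint (ZMod q)) ∧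
      ((alTrans (alElt N q x b hxb) y : Gamma0 N) : SL(2, ℤ)) 1 0 = N ∧
      ((alTrans (alElt N q x b hxb) y : Gamma0 N) : SL(2, ℤ)) 1 1 = N * (j.val : ℤ) + q) := by
  induction y using OnePoint.rec with
  | infty =>
    left
    refine ⟨rfl, ?_, ?_⟩ <;> simp [alTrans_infty]
  | coe j =>
    right
    obtain ⟨g00, g01, g10, g11⟩ := alElt_entries (N := N) (q := q) x b hxb
    obtain ⟨u00, u01, u10, u11⟩ := upperUnip_entries N (j.val : ℤ)
    obtain ⟨m10, m11⟩ := mul_apply_one (alElt N q x b hxb) (upperUnip N (j.val : ℤ))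
    refine ⟨j, rfl, ?_, ?_⟩
    · rw [alTrans_coe, m10, g10, g11, u00, u10]
      ring
    · rw [alTrans_coe, m11, g10, g11, u01, u11]
      ring

/-- The representatives `alTrans` lie in distinct cosets of `Γ₀(N q)`. -/
theorem alTrans_distinct (hqN : ¬ q ∣ N) (x b : ℤ) (hxb : x * q - b * N = 1)
    (y y' : OnePoint (ZMod q))
    (h : alTrans (alElt N q x b hxb) y * (alTrans (alElt N q x b hxb) y')⁻¹ ∈ (incl N q).range) :
    y = y' := by
  have hqp : q.Prime := Fact.out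
  rw [H105.mem_range_incl_iff hqp hqN, mul_inv_apply_one_zero] at h
  have hcop : IsCoprime (q : ℤ) (N : ℤ) := by
    rw [Int.isCoprime_iff_gcd_eq_one, Int.gcd_natCast_natCast]
    exact hqp.coprime_iff_not_dvd.mpr hqN
  have hN : ¬ (q : ℤ) ∣ (N : ℤ) := fun hh => hqN (Int.natCast_dvd_natCast.mp hh)
  rcases alTrans_low x b hxb y with ⟨rfl, e10, e11⟩ | ⟨j, rfl, e10, e11⟩ <;>
    rcases alTrans_low x b hxb y' with ⟨rfl, e10', e11'⟩ | ⟨k, rfl, e10', e11'⟩
  · rfl
  · exfalso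
    rw [e10, e11, e10'] at h
    apply hN
    have : (q : ℤ) ∣ -(N : ℤ) := by
      convert h using 1
      ring
    exact (dvd_neg.mp this)
  · exfalso
    rw [e10, e11', e10'] at h
    apply hN
    convert h using 1
    ring
  · rw [e10, e11, e10', e11'] at h
    have h2 : (q : ℤ) ∣ (N : ℤ) * ((N : ℤ) * ((k.val : ℤ) - (j.val : ℤ))) := by
      convert h using 1
      ring
    have h3 := hcop.dvd_of_dvd_mul_left (hcop.dvd_of_dvd_mul_left h2)
    have h4 : (((k.val : ℤ) - (j.val : ℤ) : ℤ) : ZMod q) = 0 :=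
      (ZMod.intCast_zmod_eq_zero_iff_dvd _ _).mpr h3
    push_cast at h4
    rw [ZMod.natCast_zmod_val, ZMod.natCast_zmod_val, sub_eq_zero] at h4
    rw [h4]

theorem card_onePoint_zmod : Nat.card (OnePoint (ZMod q)) = q + 1 := by
  rw [Nat.card_eq_fintype_card]
  show Fintype.card (Option (ZMod q)) = q + 1
  rw [Fintype.card_option, ZMod.card]

/-- The coset system of the transversal `alTrans`. -/
theorem alTransSystem (hqN : ¬ q ∣ N) (x b : ℤ) (hxb : x * q - b * N = 1) :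
    IsCosetSystem ((ιN N).comp (incl N q)) (ιN N)
      (fun y : OnePoint (ZMod q) => ιN N (alTrans (alElt N q x b hxb) y)) := by
  have hqp : q.Prime := Fact.out
  have hN : N ≠ 0 := by rintro rfl; exact hqN (dvd_zero q)
  exact isCosetSystem_of_transversal (incl N q) (H105.incl_injective N q) (ιN N)
    (ιN_injective N) (alTrans (alElt N q x b hxb)) (alTrans_distinct hqN x b hxb)
    (by rw [card_onePoint_zmod, H105.index_range_incl hN hqp hqN])
    (by rw [H105.index_range_incl hN hqp hqN]; omega)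

section Transfer2

variable {A : Type*} [AddCommGroup A]

/-- `t₁` is the transfer of the coset system of `alTrans`. -/
theorem t₁_eq_transfer (hqN : ¬ q ∣ N) (x b : ℤ) (hxb : x * q - b * N = 1)
    (ψ : Additive (Gamma0 (N * q)) →+ A) :
    t₁ N q ψ = (alTransSystem hqN x b hxb).transfer ψ := by
  have hqp : q.Prime := Fact.out
  have hN : N ≠ 0 := by rintro rfl; exact hqN (dvd_zero q)
  exact transferAlong_eq_of_transversal (incl N q) (H105.incl_injective N q) (ιN N)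
    (ιN_injective N) (alTrans (alElt N q x b hxb)) (alTrans_distinct hqN x b hxb)
    (by rw [card_onePoint_zmod, H105.index_range_incl hN hqp hqN])
    (by rw [H105.index_range_incl hN hqp hqN]; omega) ψ

/-- The trivial coset is fixed by `Γ₀(N q)`, with cocycle the identity. -/
theorem alTransSystem_infty (hqN : ¬ q ∣ N) (x b : ℤ) (hxb : x * q - b * N = 1)
    (γ : Gamma0 (N * q)) :
    (alTransSystem hqN x b hxb).coc OnePoint.infty (incl N q γ) = γ := by
  apply (alTransSystem hqN x b hxb).coc_eq (j := OnePoint.infty)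
  rw [alTrans_infty, map_one, one_mul, mul_one]
  rfl

/-- On the other cosets the cocycle is `c_w` of the cocycle of `U_q`. -/
theorem alTransSystem_coe (hqN : ¬ q ∣ N) (x b : ℤ) (hxb : x * q - b * N = 1)
    (γ : Gamma0 (N * q)) (j : ZMod q) :
    (alTransSystem hqN x b hxb).coc (j : OnePoint (ZMod q)) (incl N q γ) =
      alConj hqN x b hxb ((uqSystem (dvd_mul_self_left N q)).coc j γ) := by
  apply (alTransSystem hqN x b hxb).coc_eq
    (j := (((uqSystem (dvd_mul_self_left N q)).act j γ : ZMod q) : OnePoint (ZMod q)))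
  rw [alTrans_coe, alTrans_coe, MonoidHom.comp_apply, ← map_mul, ← map_mul]
  congr 1
  rw [← mul_assoc, (alSystem_infty hqN x b hxb _).2, mul_assoc, mul_assoc,
    conjDelta_coc_mul γ j]

/-- `(r₁ t₁ ψ)(γ) = ψ(γ) + ∑_j ψ(c_w (γ_j))`. -/
theorem r₁_t₁_apply (hqN : ¬ q ∣ N) (x b : ℤ) (hxb : x * q - b * N = 1)
    (ψ : Additive (Gamma0 (N * q)) →+ A) (γ : Gamma0 (N * q)) :
    r₁ N q (t₁ N q ψ) (Additive.ofMul γ) =
      ψ (Additive.ofMul γ) + ∑ j : ZMod q, ψ (Additive.ofMul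
        (alConj hqN x b hxb ((uqSystem (dvd_mul_self_left N q)).coc j γ))) := by
  rw [t₁_eq_transfer hqN x b hxb]
  show (alTransSystem hqN x b hxb).transfer ψ (Additive.ofMul (incl N q γ)) = _
  rw [IsCosetSystem.transfer_apply, sum_onePoint, alTransSystem_infty hqN x b hxb]
  congr 1
  exact Finset.sum_congr rfl fun j _ => by rw [alTransSystem_coe hqN x b hxb]

/-- **`U_q² = 1 + U_q r₁ t₂ - r₁ t₁`** on `Hom(Γ₀(N q), A)`, `q ∤ N`. -/
theorem Uq_Uq (hqN : ¬ q ∣ N) (ψ : Additive (Gamma0 (N * q)) →+ A) :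
    Uq (dvd_mul_self_left N q) (Uq (dvd_mul_self_left N q) ψ) =
      ψ + Uq (dvd_mul_self_left N q) (r₁ N q (t₂ N q ψ)) - r₁ N q (t₁ N q ψ) := by
  obtain ⟨x, b, hxb⟩ := exists_bezout_al (N := N) (q := q) hqN
  refine AddMonoidHom.ext fun g' => ?_
  obtain ⟨γ, rfl⟩ : ∃ g : Gamma0 (N * q), Additive.ofMul g = g' := ⟨Additive.toMul g', rfl⟩
  have hW : ∀ γ' : Gamma0 (N * q), ψ (Additive.ofMul (alConj hqN x b hxb γ')) =
      r₁ N q (t₂ N q ψ) (Additive.ofMul γ') -
        Uq (dvd_mul_self_left N q) ψ (Additive.ofMul γ') := by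
    intro γ'
    rw [r₁_t₂_apply hqN x b hxb, add_sub_cancel_right]
  rw [AddMonoidHom.sub_apply, AddMonoidHom.add_apply, r₁_t₁_apply hqN x b hxb, Uq_apply,
    Uq_apply]
  simp only [hW, Finset.sum_sub_distrib]
  abel

/-- **`U_q² = 1` on the `q`-new classes.** -/
theorem Uq_Uq_of_new (hqN : ¬ q ∣ N) (ψ : Additive (Gamma0 (N * q)) →+ A)
    (h₁ : t₁ N q ψ = 0) (h₂ : t₂ N q ψ = 0) :
    Uq (dvd_mul_self_left N q) (Uq (dvd_mul_self_left N q) ψ) = ψ := by
  have hz : ∀ M : ℕ, r₁ M q (0 : Additive (Gamma0 M) →+ A) = 0 := fun M => rfl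
  have hU0 : Uq (dvd_mul_self_left N q) (0 : Additive (Gamma0 (N * q)) →+ A) = 0 := by
    have := Uq_add (dvd_mul_self_left N q) (0 : Additive (Gamma0 (N * q)) →+ A) 0
    rw [add_zero] at this
    exact left_eq_add.mp this
  rw [Uq_Uq hqN, h₁, h₂, hz, hU0, add_zero, sub_zero]

end Transfer2

end Fermat.Agent.S59.H105
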