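import Fermat.Agent.S59.H105.LocFam

/-!
# Row S59, cell TW, leaf CTRL (helper105): naturality of `Aut.IsLocPart` (NAT1, concrete form)

`nat_of_isLocPart` : a linear map `f : X_K(𝒪) → X_{K'}(𝒪)` intertwining the generators
`T_ℓ - c` (`(ℓ, c) ∈ Ts`), `U_q - α` (`(q, α) ∈ Us`) maps every localisation `V` of `X_K(𝒪)` at a
set of generators containing `Ts, Us` into the localisation `W` of `X_{K'}(𝒪)` at `Ts, Us`.
In particular (`f = id`) the localisation is unique and decreasing in the set of generators.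
-/

set_option autoImplicit false

namespace Fermat.Agent.S59.H105

open IsLocalRing CongruenceSubgroup
open Fermat.Agent.S59.TW.H653 Fermat.Agent.S59.TW.Aut
open scoped MatrixGroups

section

variable {𝒪 : Type} [CommRing 𝒪] [IsDomain 𝒪] [IsDiscreteValuationRing 𝒪]
  [IsAdicComplete (maximalIdeal 𝒪) 𝒪]

theorem nat_of_isLocPart {M M' : ℕ} (hM' : M' ≠ 0) {K K' : Subgroup SL(2, ℤ)}
    (hK : IsMid M K) (hK' : IsMid M' K')
    {Tset Uset : Set (ℕ × 𝒪)} {V : Submodule 𝒪 (Additive K →+ 𝒪)}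
    (hV : IsLocPart hK Tset Uset V)
    {Ts Us : Set (ℕ × 𝒪)} {W : Submodule 𝒪 (Additive K' →+ 𝒪)}
    (hW : IsLocPart hK' Ts Us W) (hTs : Ts ⊆ Tset) (hUs : Us ⊆ Uset)
    (hT : ∀ x ∈ Ts, x.1.Prime ∧ ¬ x.1 ∣ M) (hU : ∀ x ∈ Us, x.1.Prime ∧ x.1 ∣ M)
    (hT' : ∀ x ∈ Ts, x.1.Prime ∧ ¬ x.1 ∣ M') (hU' : ∀ x ∈ Us, x.1.Prime ∧ x.1 ∣ M')
    (f : (Additive K →+ 𝒪) →ₗ[𝒪] (Additive K' →+ 𝒪))
    (hf : ∀ (i : Idx Ts Us) (x : Additive K →+ 𝒪),
      f (fam hK hT hU i x) = fam hK' hT' hU' i (f x)) :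
    ∀ x ∈ V, f x ∈ W := by
  obtain ⟨ϖ, hϖ0, hϖ⟩ := exists_uniformizer 𝒪
  obtain ⟨e, _, e2, e3, e4, e5, _⟩ := isLocPart_data hK hV hϖ
  obtain ⟨e', e'1, e'2, e'3, e'4, e'5, e'6⟩ := isLocPart_proj hK' hW hϖ hT' hU'
  haveI := xk_isNoetherian_end (𝒪 := 𝒪) hM' hK'
  have key := nat_loc ϖ (fun x h => xk_torsionFree hϖ0 x h) (fun x h => xk_sep hϖ x h)
    (fam hK hT hU) (fam hK' hT' hU') (fam_comm hK' hT' hU') V
    (by
      intro i
      apply mem_of_proj_comm e _ e2 e3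
      intro x
      rcases i with i | i
      · haveI : Fact i.1.1.Prime := ⟨(hT i.1 i.2).1⟩
        exact comm_shiftE e _ _ (fun y => e4 i.1.1 (hT i.1 i.2).2 y) x
      · haveI : Fact i.1.1.Prime := ⟨(hU i.1 i.2).1⟩
        exact comm_shiftE e _ _ (fun y => e5 i.1.1 (hU i.1 i.2).2 y) x)
    (fam_nilp hK hV hϖ hT hU hTs hUs) e' e'1 (fam_proj_comm hK' hT' hU' e' e'4 e'5)
    (by
      intro x hx hall
      rw [mem_divSub]
      refine e'6 x hx ?_ ?_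
      · intro y hy
        exact mem_divSub.mp (hall (Sum.inl ⟨y, hy⟩))
      · intro y hy
        exact mem_divSub.mp (hall (Sum.inr ⟨y, hy⟩)))
    f hf
  intro x hx
  rw [← key x hx]
  exact e'2 _

/-- The localisation is decreasing in the set of generators. -/
theorem isLocPart_mono {M : ℕ} (hM : M ≠ 0) {K : Subgroup SL(2, ℤ)} (hK : IsMid M K)
    {Tset Uset : Set (ℕ × 𝒪)} {V : Submodule 𝒪 (Additive K →+ 𝒪)}
    (hV : IsLocPart hK Tset Uset V)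
    {Ts Us : Set (ℕ × 𝒪)} {W : Submodule 𝒪 (Additive K →+ 𝒪)}
    (hW : IsLocPart hK Ts Us W) (hTs : Ts ⊆ Tset) (hUs : Us ⊆ Uset)
    (hT : ∀ x ∈ Ts, x.1.Prime ∧ ¬ x.1 ∣ M) (hU : ∀ x ∈ Us, x.1.Prime ∧ x.1 ∣ M) : V ≤ W := by
  intro x hx
  exact nat_of_isLocPart hM hK hK hV hW hTs hUs hT hU hT hU LinearMap.id (fun _ _ => rfl) x hx

/-- The localisation is unique. -/
theorem isLocPart_unique {M : ℕ} (hM : M ≠ 0) {K : Subgroup SL(2, ℤ)} (hK : IsMid M K)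
    {Tset Uset : Set (ℕ × 𝒪)} {V W : Submodule 𝒪 (Additive K →+ 𝒪)}
    (hV : IsLocPart hK Tset Uset V) (hW : IsLocPart hK Tset Uset W)
    (hT : ∀ x ∈ Tset, x.1.Prime ∧ ¬ x.1 ∣ M) (hU : ∀ x ∈ Uset, x.1.Prime ∧ x.1 ∣ M) : V = W :=
  le_antisymm (isLocPart_mono hM hK hV hW subset_rfl subset_rfl hT hU)
    (isLocPart_mono hM hK hW hV subset_rfl subset_rfl hT hU)

end

end Fermat.Agent.S59.H105
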