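import Mathlib
import Fermat.Agent.S41.Spec.HK
import Fermat.Agent.S41.H761.TRH
import Fermat.Agent.S41.H761.HT
import Fermat.Agent.S41.H281.HeckeRestrict
import Fermat.Agent.S59.H105.UqRel

/-!
# Row S59, cell TW, leaf TW-CTRL (helper105): `U_q = t₂ r₁` at level `(M, q)`, `q ∣ M`

* `t₂_r₁_eq_Uq` : `t₂ M q (r₁ M q φ) = U_q φ` (degeneracy maps between the levels `M` and `M q`);
* `heckeTransfer_Uq` : `T_l` commutes with `U_q` (`l ∤ M q`);
* `isCuspidal_Uq` : `U_q` preserves cuspidal classes.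
-/

set_option autoImplicit false

namespace Fermat.Agent.S59.H105

open CongruenceSubgroup Matrix.SpecialLinearGroup ModularForm
open Fermat.Agent.S29.H642 Fermat.Agent.S41 Fermat.Agent.S41.Spec Fermat.Agent.S41.H761
open P2MW.S_ModularForm_heckeT_slash_eq_self_of_mem_Gamma0.ModularForm.HeckeSlashInvariance
open scoped MatrixGroups

universe u

variable {M q : ℕ} [Fact q.Prime] {A : Type u} [AddCommGroup A]

/-- `t₂ r₁ = U_q` at level `(M, q)` with `q ∣ M`. -/
theorem t₂_r₁_eq_Uq (hq : q ∣ M) (φ : Additive (Gamma0 M) →+ A) :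
    t₂ M q (r₁ M q φ) = Uq hq φ := by
  have hqp : q.Prime := Fact.out
  have hinj := H105.conjDelta_injective M hqp.ne_zero
  have hs1 := IsCosetSystem.single (ι' := (ιN M).comp (conjDelta M q)) (ιN_injective M)
    (incl M q) (heckeRep q ((0 : ZMod q) : OnePoint (ZMod q))) r1_rel
  have hs2 := IsCosetSystem.ofTransfer (conjDelta M q) hinj (ιN M) (ιN_injective M)
  have hprod := hs1.prod hs2 (fun _ _ x y g e => ⟨rfl, prod_S2_t2r1 x y g e⟩)
  have hle : ∀ z : Unit × (Gamma0 M ⧸ (conjDelta M q).range), ∃ (j : ZMod q) (g : Gamma0 M),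
      heckeRep q ((0 : ZMod q) : OnePoint (ZMod q)) * ιN M (z.2.out)⁻¹ = ιN M g * uqRep q j :=
    fun z => ⟨_, _, (uqSystem hq).spec 0 (z.2.out)⁻¹⟩
  have hfin : Finite (Unit × (Gamma0 M ⧸ (conjDelta M q).range)) :=
    hprod.finite_of_le (ρ' := uqRep q) hle
  have hfin2 : Finite (Gamma0 M ⧸ (conjDelta M q).range) :=
    Finite.of_injective (fun x => (((), x) : Unit × (Gamma0 M ⧸ (conjDelta M q).range)))
      (fun x y h => (Prod.mk.inj h).2)
  have : (conjDelta M q).range.FiniteIndex := Subgroup.finiteIndex_of_finite_quotient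
  let _ : Fintype (Gamma0 M ⧸ (conjDelta M q).range) :=
    (conjDelta M q).range.fintypeQuotientOfFiniteIndex
  show transferAlong (conjDelta M q) (r₁ M q φ) = _
  rw [transferAlong_eq (conjDelta M q) hinj (ιN M) (ιN_injective M)]
  have hr1 : r₁ M q φ = hs1.transfer φ :=
    (IsCosetSystem.single_transfer (ι' := (ιN M).comp (conjDelta M q)) (ιN_injective M)
      (incl M q) (heckeRep q ((0 : ZMod q) : OnePoint (ZMod q))) r1_rel φ).symm
  rw [hr1, IsCosetSystem.transfer_comp hs1 hs2 hprod]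
  have : Nonempty (Unit × (Gamma0 M ⧸ (conjDelta M q).range)) := ⟨((), ((1 : Gamma0 M) : _))⟩
  exact IsCosetSystem.transfer_eq_of_le hprod (uqSystem hq) hle (uqSystem_transitive hq) φ

/-- `T_l` commutes with `U_q`. -/
theorem heckeTransfer_Uq {l : ℕ} [Fact l.Prime] (hM : M ≠ 0) (hq : q ∣ M) (hl : ¬ l ∣ M)
    (φ : Additive (Gamma0 M) →+ A) :
    heckeTransfer hl (Uq hq φ) = Uq hq (heckeTransfer hl φ) := by
  have hqp : q.Prime := Fact.out
  have hlp : l.Prime := Fact.out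
  have hlq : ¬ l ∣ q := fun h => hl (dvd_trans h hq)
  have hl' : ¬ l ∣ M * q := fun h => (hlp.dvd_mul.mp h).elim hl hlq
  have hMq : M * q ≠ 0 := Nat.mul_ne_zero hM hqp.ne_zero
  rw [← t₂_r₁_eq_Uq hq, ← t₂_r₁_eq_Uq hq,
    (H761.heckeTransferComm.{u} M q l hl hl' hMq A (r₁ M q φ)).2,
    (H281.heckeRestrict.{u} M q l hl hl' A φ).1]

/-- `U_q` preserves cuspidal classes. -/
theorem isCuspidal_Uq (hq : q ∣ M) (φ : Additive (Gamma0 M) →+ A) (hφ : IsCuspidal φ) :
    IsCuspidal (Uq hq φ) := by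
  rw [← t₂_r₁_eq_Uq hq]
  exact (H581.transferCusp.{u} M q A _ (H581.restrictCusp.{u} M q A φ hφ).1).2

end Fermat.Agent.S59.H105
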