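import Mathlib

/-!
# Row S59, cell TW, leaf TW-CTRL (helper105): the abstract core (Mathlib only)

Level `N` module `HN`, level `N q` module `HQ` (`q ∤ N`), degeneracy maps `r₁, r₂ : HN → HQ`,
transfers `t₁, t₂ : HQ → HN`, `T = T_q` on `HN`, `U = U_q` on `HQ`, all linear over a
commutative ring `Λ`, satisfying the identities `DegRel`:

* `t₁ r₁ = t₂ r₂ = q + 1`, `t₁ r₂ = t₂ r₁ = T`;
* `U r₁ = r₁ T - r₂`, `U r₂ = q r₁`;
* `U² = 1 + U r₁ t₂ - r₁ t₁`  (so `U² = 1` on the new part `ker t₁ ∩ ker t₂`).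

`X ⊆ HN` a submodule on which `T = a + b`, `a b = q` (`HenselPair`).  Then `s_a x = r₂ x - r₁ (a x)`
satisfies `U s_a = s_a a`, `t₂ s_a = 1 - a²`, `t₁ s_a = b (1 - a²)`.

Main results (`ϖ ∈ Λ`, `α ∈ Λ`):

* `exists_eq_sOld_of_nilp` : if `P ⊆ HQ` is `U`-stable, `t₁ P, t₂ P ⊆ X`, `U² - 1` is onto on `P`,
  `U - α` is nilpotent modulo `ϖ` on `P`, and `a - b`, `1 - b²`, `b - α` are bijective on `X`,
  `X` `ϖ`-adically separated, then `P ⊆ s_a (X)`;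
* `sOld_mem_of_compl` : if `s_a (X) ⊆ P ⊕ P'` with `U - α` bijective on `P'` (and `a - α`
  nilpotent modulo `ϖ` on `X`), then `s_a (X) ⊆ P`;
* `ctrl_t₂` : under both sets of hypotheses `t₂ : P → X` is bijective;
* `new_UU` : `t₁ y = 0`, `t₂ y = 0` imply `U (U y) = y`.

No Galois representation is used: the new part dies in `P` because `U² = 1` there while
`U² - 1` is bijective on `P`.
-/

set_option autoImplicit false

namespace Fermat.Agent.S59.H105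

section Generic

variable {Λ : Type*} [CommRing Λ] {M : Type*} [AddCommGroup M] [Module Λ M]

/-- `f` maps the submodule `X` bijectively onto itself. -/
structure BijOnSub (f : M →ₗ[Λ] M) (X : Submodule Λ M) : Prop where
  mem : ∀ x ∈ X, f x ∈ X
  inj : ∀ x ∈ X, f x = 0 → x = 0
  surj : ∀ x ∈ X, ∃ x' ∈ X, f x' = x

/-- `X` is `ϖ`-adically separated. -/
def SepOn (X : Submodule Λ M) (ϖ : Λ) : Prop :=
  ∀ x ∈ X, (∀ n : ℕ, ∃ z ∈ X, x = ϖ ^ n • z) → x = 0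

/-- `f` preserves `X` and is nilpotent modulo `ϖ` on `X`. -/
def NilpOn (f : M →ₗ[Λ] M) (X : Submodule Λ M) (ϖ : Λ) : Prop :=
  (∀ x ∈ X, f x ∈ X) ∧ ∃ m : ℕ, ∀ x ∈ X, ∃ z ∈ X, f^[m] x = ϖ • z

/-- `f - α`. -/
def shiftBy (f : M →ₗ[Λ] M) (α : Λ) : M →ₗ[Λ] M := f - α • LinearMap.id

theorem shiftBy_apply (f : M →ₗ[Λ] M) (α : Λ) (x : M) : shiftBy f α x = f x - α • x := rfl

/-- `1 - f²`. -/
def oneSubSq (f : M →ₗ[Λ] M) : M →ₗ[Λ] M := LinearMap.id - f.comp f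

theorem oneSubSq_apply (f : M →ₗ[Λ] M) (x : M) : oneSubSq f x = x - f (f x) := rfl

theorem iterate_smul_apply (f : M →ₗ[Λ] M) (k : ℕ) (c : Λ) (x : M) :
    f^[k] (c • x) = c • f^[k] x := by
  induction k generalizing x with
  | zero => rfl
  | succ k ih => rw [Function.iterate_succ_apply, Function.iterate_succ_apply, map_smul, ih]

theorem iterate_add_apply' (f : M →ₗ[Λ] M) (k : ℕ) (x y : M) :
    f^[k] (x + y) = f^[k] x + f^[k] y := by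
  induction k generalizing x y with
  | zero => rfl
  | succ k ih => simp only [Function.iterate_succ_apply, map_add, ih]

theorem iterate_mem (f : M →ₗ[Λ] M) (X : Submodule Λ M) (hf : ∀ x ∈ X, f x ∈ X) (k : ℕ) :
    ∀ x ∈ X, f^[k] x ∈ X := by
  induction k with
  | zero => exact fun x hx => hx
  | succ k ih =>
    intro x hx
    rw [Function.iterate_succ_apply']
    exact hf _ (ih x hx)

theorem BijOnSub.pullback {f : M →ₗ[Λ] M} {X : Submodule Λ M} (hf : BijOnSub f X) (c : Λ)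
    {x z : M} (hx : x ∈ X) (hz : z ∈ X) (e : f x = c • z) : ∃ z' ∈ X, x = c • z' := by
  obtain ⟨z', hz', e'⟩ := hf.surj z hz
  refine ⟨z', hz', ?_⟩
  have h0 : f (x - c • z') = 0 := by rw [map_sub, map_smul, e', e, sub_self]
  exact sub_eq_zero.mp (hf.inj _ (X.sub_mem hx (X.smul_mem c hz')) h0)

theorem BijOnSub.pullback_iterate {f : M →ₗ[Λ] M} {X : Submodule Λ M} (hf : BijOnSub f X)
    (c : Λ) (k : ℕ) : ∀ {x z : M}, x ∈ X → z ∈ X → f^[k] x = c • z → ∃ z' ∈ X, x = c • z' := by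
  induction k with
  | zero => exact fun {x z} _ hz e => ⟨z, hz, e⟩
  | succ k ih =>
    intro x z hx hz e
    rw [Function.iterate_succ_apply] at e
    obtain ⟨z₁, hz₁, e₁⟩ := ih (hf.mem x hx) hz e
    exact hf.pullback c hx hz₁ e₁

theorem NilpOn.pow {f : M →ₗ[Λ] M} {X : Submodule Λ M} {ϖ : Λ} (hf : NilpOn f X ϖ) (n : ℕ) :
    ∃ k : ℕ, ∀ x ∈ X, ∃ z ∈ X, f^[k] x = ϖ ^ n • z := by
  obtain ⟨hmem, m, hm⟩ := hf
  induction n with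
  | zero => exact ⟨0, fun x hx => ⟨x, hx, by simp⟩⟩
  | succ n ih =>
    obtain ⟨k, hk⟩ := ih
    refine ⟨k + m, fun x hx => ?_⟩
    obtain ⟨z, hz, e⟩ := hm x hx
    obtain ⟨z', hz', e'⟩ := hk z hz
    refine ⟨z', hz', ?_⟩
    rw [Function.iterate_add_apply, e, iterate_smul_apply, e', smul_smul, pow_succ']

end Generic

section Core

variable {Λ : Type*} [CommRing Λ] {HN HQ : Type*} [AddCommGroup HN] [Module Λ HN]
  [AddCommGroup HQ] [Module Λ HQ]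

/-- The operator identities between level `N` (`HN`) and level `N q` (`HQ`). -/
structure DegRel (q : ℕ) (r₁ r₂ : HN →ₗ[Λ] HQ) (t₁ t₂ : HQ →ₗ[Λ] HN) (T : HN →ₗ[Λ] HN)
    (U : HQ →ₗ[Λ] HQ) : Prop where
  t₁r₁ : ∀ x, t₁ (r₁ x) = (q + 1) • x
  t₂r₂ : ∀ x, t₂ (r₂ x) = (q + 1) • x
  t₁r₂ : ∀ x, t₁ (r₂ x) = T x
  t₂r₁ : ∀ x, t₂ (r₁ x) = T x
  Ur₁ : ∀ x, U (r₁ x) = r₁ (T x) - r₂ x
  Ur₂ : ∀ x, U (r₂ x) = q • r₁ x
  UU : ∀ y, U (U y) = y + U (r₁ (t₂ y)) - r₁ (t₁ y)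

/-- On the submodule `X` the operator `T` splits: `T = a + b`, `a b = b a = q`. -/
structure HenselPair (X : Submodule Λ HN) (q : ℕ) (T a b : HN →ₗ[Λ] HN) : Prop where
  T_mem : ∀ x ∈ X, T x ∈ X
  a_mem : ∀ x ∈ X, a x ∈ X
  b_mem : ∀ x ∈ X, b x ∈ X
  add : ∀ x ∈ X, a x + b x = T x
  ab : ∀ x ∈ X, a (b x) = q • x
  ba : ∀ x ∈ X, b (a x) = q • x

theorem HenselPair.symm {X : Submodule Λ HN} {q : ℕ} {T a b : HN →ₗ[Λ] HN}
    (hp : HenselPair X q T a b) : HenselPair X q T b a where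
  T_mem := hp.T_mem
  a_mem := hp.b_mem
  b_mem := hp.a_mem
  add x hx := by rw [add_comm]; exact hp.add x hx
  ab := hp.ba
  ba := hp.ab

/-- `s_a x = r₂ x - r₁ (a x)`: the `U = a` eigen-embedding of the old space. -/
def sOld (r₁ r₂ : HN →ₗ[Λ] HQ) (a : HN →ₗ[Λ] HN) : HN →ₗ[Λ] HQ := r₂ - r₁.comp a

theorem sOld_apply (r₁ r₂ : HN →ₗ[Λ] HQ) (a : HN →ₗ[Λ] HN) (x : HN) :
    sOld r₁ r₂ a x = r₂ x - r₁ (a x) := rfl

variable {q : ℕ} {r₁ r₂ : HN →ₗ[Λ] HQ} {t₁ t₂ : HQ →ₗ[Λ] HN} {T : HN →ₗ[Λ] HN}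
  {U : HQ →ₗ[Λ] HQ} {X : Submodule Λ HN} {a b : HN →ₗ[Λ] HN}

/-- `U² = 1` on the new part. -/
theorem new_UU (h : DegRel q r₁ r₂ t₁ t₂ T U) {y : HQ} (h₁ : t₁ y = 0) (h₂ : t₂ y = 0) :
    U (U y) = y := by
  rw [h.UU, h₁, h₂]
  simp

/-- `(U² - 1) y` is old. -/
theorem UU_sub (h : DegRel q r₁ r₂ t₁ t₂ T U) (y : HQ) :
    U (U y) - y = r₁ (T (t₂ y) - t₁ y) + r₂ (-(t₂ y)) := by
  rw [h.UU, h.Ur₁, map_sub, map_neg]
  abel

/-- `U s_a = s_a a`. -/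
theorem U_sOld (h : DegRel q r₁ r₂ t₁ t₂ T U) (hp : HenselPair X q T a b) {x : HN}
    (hx : x ∈ X) : U (sOld r₁ r₂ a x) = sOld r₁ r₂ a (a x) := by
  have e1 : T (a x) = a (a x) + q • x := by
    rw [← hp.add (a x) (hp.a_mem x hx), hp.ba x hx]
  rw [sOld_apply, sOld_apply, map_sub, h.Ur₂, h.Ur₁, e1, map_add, map_nsmul]
  abel

/-- `t₂ s_a = 1 - a²`. -/
theorem t₂_sOld (h : DegRel q r₁ r₂ t₁ t₂ T U) (hp : HenselPair X q T a b) {x : HN}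
    (hx : x ∈ X) : t₂ (sOld r₁ r₂ a x) = x - a (a x) := by
  have e1 : T (a x) = a (a x) + q • x := by
    rw [← hp.add (a x) (hp.a_mem x hx), hp.ba x hx]
  rw [sOld_apply, map_sub, h.t₂r₂, h.t₂r₁, e1, add_smul, one_smul]
  abel

/-- `t₁ s_a = b (1 - a²)`. -/
theorem t₁_sOld (h : DegRel q r₁ r₂ t₁ t₂ T U) (hp : HenselPair X q T a b) {x : HN}
    (hx : x ∈ X) : t₁ (sOld r₁ r₂ a x) = b (x - a (a x)) := by
  have e1 : b (a (a x)) = q • a x := hp.ba (a x) (hp.a_mem x hx)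
  rw [sOld_apply, map_sub, h.t₁r₂, h.t₁r₁, map_sub, e1, ← hp.add x hx, add_smul, one_smul]
  abel

/-- `(t₁ - b t₂) s_a = 0`. -/
theorem ell_sOld_self (h : DegRel q r₁ r₂ t₁ t₂ T U) (hp : HenselPair X q T a b) {x : HN}
    (hx : x ∈ X) : t₁ (sOld r₁ r₂ a x) - b (t₂ (sOld r₁ r₂ a x)) = 0 := by
  rw [t₁_sOld h hp hx, t₂_sOld h hp hx, sub_self]

/-- `(t₁ - b t₂) s_b = (a - b) (1 - b²)`. -/
theorem ell_sOld_other (h : DegRel q r₁ r₂ t₁ t₂ T U) (hp : HenselPair X q T a b) {x : HN}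
    (hx : x ∈ X) : t₁ (sOld r₁ r₂ b x) - b (t₂ (sOld r₁ r₂ b x)) =
      (a - b) ((oneSubSq b) x) := by
  rw [t₁_sOld h hp.symm hx, t₂_sOld h hp.symm hx]
  simp only [LinearMap.sub_apply, oneSubSq_apply, map_sub]
  abel

/-- Every old class `r₁ x₁ + r₂ x₂` (`x₁, x₂ ∈ X`) is `s_a u + s_b v` (`a - b` onto on `X`). -/
theorem old_eq_sOld_add (hp : HenselPair X q T a b) (hab : BijOnSub (a - b) X) {x₁ x₂ : HN}
    (hx₁ : x₁ ∈ X) (hx₂ : x₂ ∈ X) :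
    ∃ u ∈ X, ∃ v ∈ X, r₁ x₁ + r₂ x₂ = sOld r₁ r₂ a u + sOld r₁ r₂ b v := by
  obtain ⟨v, hv, ev⟩ := hab.surj (x₁ + a x₂) (X.add_mem hx₁ (hp.a_mem _ hx₂))
  refine ⟨x₂ - v, X.sub_mem hx₂ hv, v, hv, ?_⟩
  have e1 : x₁ = a v - b v - a x₂ := by
    rw [LinearMap.sub_apply] at ev
    rw [ev]
    abel
  rw [sOld_apply, sOld_apply, e1]
  simp only [map_sub]
  abel

/-- `(U - α) s_a = s_a (a - α)`. -/
theorem sub_smul_sOld (h : DegRel q r₁ r₂ t₁ t₂ T U) (hp : HenselPair X q T a b) (α : Λ)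
    {x : HN} (hx : x ∈ X) :
    (shiftBy U α) (sOld r₁ r₂ a x) = sOld r₁ r₂ a ((shiftBy a α) x) := by
  rw [shiftBy_apply, shiftBy_apply, U_sOld h hp hx, map_sub, map_smul]

theorem sub_smul_mem (hp : HenselPair X q T a b) (α : Λ) {x : HN} (hx : x ∈ X) :
    (shiftBy a α) x ∈ X := by
  rw [shiftBy_apply]
  exact X.sub_mem (hp.a_mem x hx) (X.smul_mem α hx)

/-- `(U - α)^k s_a = s_a (a - α)^k`. -/
theorem iterate_sub_smul_sOld (h : DegRel q r₁ r₂ t₁ t₂ T U) (hp : HenselPair X q T a b)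
    (α : Λ) (k : ℕ) : ∀ {x : HN}, x ∈ X →
    (shiftBy U α)^[k] (sOld r₁ r₂ a x) =
      sOld r₁ r₂ a ((shiftBy a α)^[k] x) := by
  induction k with
  | zero => exact fun {x} _ => rfl
  | succ k ih =>
    intro x hx
    rw [Function.iterate_succ_apply, Function.iterate_succ_apply, sub_smul_sOld h hp α hx,
      ih (sub_smul_mem hp α hx)]

/-- **The `U ≡ α` part is old and lies in `s_a (X)`.** -/
theorem exists_eq_sOld_of_nilp (h : DegRel q r₁ r₂ t₁ t₂ T U) (hp : HenselPair X q T a b)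
    (α ϖ : Λ) (hab : BijOnSub (a - b) X) (hb2 : BijOnSub (oneSubSq b) X)
    (hbα : BijOnSub (shiftBy b α) X) (hsep : SepOn X ϖ)
    (P : Submodule Λ HQ) (ht₁ : ∀ y ∈ P, t₁ y ∈ X) (ht₂ : ∀ y ∈ P, t₂ y ∈ X)
    (hsurj : ∀ y ∈ P, ∃ y' ∈ P, U (U y') - y' = y)
    (hnil : NilpOn (shiftBy U α) P ϖ) :
    ∀ y ∈ P, ∃ u ∈ X, y = sOld r₁ r₂ a u := by
  intro y hy
  obtain ⟨y', hy', e⟩ := hsurj y hy
  have hx₁ : T (t₂ y') - t₁ y' ∈ X := X.sub_mem (hp.T_mem _ (ht₂ y' hy')) (ht₁ y' hy')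
  have hx₂ : -(t₂ y') ∈ X := X.neg_mem (ht₂ y' hy')
  obtain ⟨u, hu, v, hv, euv⟩ := old_eq_sOld_add (r₁ := r₁) (r₂ := r₂) hp hab hx₁ hx₂
  have ey : y = sOld r₁ r₂ a u + sOld r₁ r₂ b v := by rw [← e, UU_sub h, euv]
  -- `v = 0`
  have hv0 : v = 0 := by
    apply hsep v hv
    intro n
    obtain ⟨k, hk⟩ := hnil.pow n
    obtain ⟨z, hz, ez⟩ := hk y hy
    -- apply `t₁ - b t₂`
    have e1 : (shiftBy U α)^[k] y =
        sOld r₁ r₂ a ((shiftBy a α)^[k] u) +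
          sOld r₁ r₂ b ((shiftBy b α)^[k] v) := by
      rw [ey, ← iterate_sub_smul_sOld h hp α k hu, ← iterate_sub_smul_sOld h hp.symm α k hv,
        iterate_add_apply']
    have hu' : (shiftBy a α)^[k] u ∈ X :=
      iterate_mem _ X (fun x hx => sub_smul_mem hp α hx) k u hu
    have hv' : (shiftBy b α)^[k] v ∈ X :=
      iterate_mem _ X (fun x hx => sub_smul_mem hp.symm α hx) k v hv
    have e2 : (a - b) ((oneSubSq b) ((shiftBy b α)^[k] v)) =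
        ϖ ^ n • (t₁ z - b (t₂ z)) := by
      rw [← ell_sOld_other h hp hv']
      have e3 := ell_sOld_self h hp hu'
      have e4 : sOld r₁ r₂ b ((shiftBy b α)^[k] v) =
          ϖ ^ n • z - sOld r₁ r₂ a ((shiftBy a α)^[k] u) := by
        rw [← ez, e1]
        abel
      rw [e4]
      simp only [map_sub, map_smul]
      rw [sub_sub_sub_comm, e3, sub_zero, smul_sub]
    have hz' : t₁ z - b (t₂ z) ∈ X := X.sub_mem (ht₁ z hz) (hp.b_mem _ (ht₂ z hz))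
    obtain ⟨z₁, hz₁, e5⟩ := hab.pullback (ϖ ^ n) (hb2.mem _ hv') hz' e2
    obtain ⟨z₂, hz₂, e6⟩ := hb2.pullback (ϖ ^ n) hv' hz₁ e5
    exact hbα.pullback_iterate (ϖ ^ n) k hv hz₂ e6
  refine ⟨u, hu, ?_⟩
  rw [ey, hv0, map_zero, add_zero]

/-- **`s_a (X)` lies in the `U ≡ α` part.** -/
theorem sOld_mem_of_compl (h : DegRel q r₁ r₂ t₁ t₂ T U) (hp : HenselPair X q T a b)
    (α ϖ : Λ) (hnil : NilpOn (shiftBy a α) X ϖ)
    (P P' : Submodule Λ HQ) (hPU : ∀ y ∈ P, U y ∈ P) (hdisj : ∀ y ∈ P, y ∈ P' → y = 0)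
    (hbij : BijOnSub (shiftBy U α) P') (hsep : SepOn P' ϖ)
    (hsum : ∀ x ∈ X, ∃ y₁ ∈ P, ∃ y₂ ∈ P', sOld r₁ r₂ a x = y₁ + y₂) :
    ∀ x ∈ X, sOld r₁ r₂ a x ∈ P := by
  intro x hx
  obtain ⟨y₁, hy₁, y₂, hy₂, e⟩ := hsum x hx
  have hPN : ∀ y ∈ P, (shiftBy U α) y ∈ P := by
    intro y hy
    rw [shiftBy_apply]
    exact P.sub_mem (hPU y hy) (P.smul_mem α hy)
  have hy₂0 : y₂ = 0 := by
    apply hsep y₂ hy₂
    intro n
    obtain ⟨k, hk⟩ := hnil.pow n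
    obtain ⟨z, hz, ez⟩ := hk x hx
    obtain ⟨z₁, hz₁, z₂, hz₂, ez'⟩ := hsum z hz
    have e1 : (shiftBy U α)^[k] (sOld r₁ r₂ a x) = ϖ ^ n • z₁ + ϖ ^ n • z₂ := by
      rw [iterate_sub_smul_sOld h hp α k hx, ez, map_smul, ez', smul_add]
    have e2 : (shiftBy U α)^[k] (sOld r₁ r₂ a x) =
        (shiftBy U α)^[k] y₁ + (shiftBy U α)^[k] y₂ := by
      rw [e, iterate_add_apply']
    have m1 : (shiftBy U α)^[k] y₁ ∈ P := iterate_mem _ P hPN k y₁ hy₁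
    have m2 : (shiftBy U α)^[k] y₂ ∈ P' := iterate_mem _ P' hbij.mem k y₂ hy₂
    have e3 : (shiftBy U α)^[k] y₁ - ϖ ^ n • z₁ =
        ϖ ^ n • z₂ - (shiftBy U α)^[k] y₂ := by
      rw [sub_eq_sub_iff_add_eq_add, ← e2, e1, add_comm]
    have e4 : ϖ ^ n • z₂ - (shiftBy U α)^[k] y₂ = 0 := by
      apply hdisj
      · rw [← e3]
        exact P.sub_mem m1 (P.smul_mem _ hz₁)
      · exact P'.sub_mem (P'.smul_mem _ hz₂) m2
    exact hbij.pullback_iterate (ϖ ^ n) k hy₂ hz₂ (sub_eq_zero.mp e4).symm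
  rw [e, hy₂0, add_zero]
  exact hy₁

/-- **TW-CTRL, abstract form.**  `t₂` maps the `U ≡ α` part `P` of level `N q` bijectively onto
the part `X` of level `N`, and `P = s_a (X)`. -/
theorem ctrl_t₂ (h : DegRel q r₁ r₂ t₁ t₂ T U) (hp : HenselPair X q T a b)
    (α ϖ : Λ) (hab : BijOnSub (a - b) X) (ha2 : BijOnSub (oneSubSq a) X)
    (hb2 : BijOnSub (oneSubSq b) X)
    (hbα : BijOnSub (shiftBy b α) X) (hsep : SepOn X ϖ)
    (hnila : NilpOn (shiftBy a α) X ϖ)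
    (P P' : Submodule Λ HQ) (ht₁ : ∀ y ∈ P, t₁ y ∈ X) (ht₂ : ∀ y ∈ P, t₂ y ∈ X)
    (hsurj : ∀ y ∈ P, ∃ y' ∈ P, U (U y') - y' = y)
    (hnil : NilpOn (shiftBy U α) P ϖ)
    (hdisj : ∀ y ∈ P, y ∈ P' → y = 0)
    (hbij : BijOnSub (shiftBy U α) P') (hsep' : SepOn P' ϖ)
    (hsum : ∀ x ∈ X, ∃ y₁ ∈ P, ∃ y₂ ∈ P', sOld r₁ r₂ a x = y₁ + y₂) :
    (∀ y ∈ P, ∃ u ∈ X, y = sOld r₁ r₂ a u) ∧ (∀ x ∈ X, sOld r₁ r₂ a x ∈ P) ∧
    (∀ y ∈ P, t₂ y = 0 → y = 0) ∧ (∀ x ∈ X, ∃ y ∈ P, t₂ y = x) := by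
  have hC := exists_eq_sOld_of_nilp h hp α ϖ hab hb2 hbα hsep P ht₁ ht₂ hsurj hnil
  have hPU : ∀ y ∈ P, U y ∈ P := by
    intro y hy
    have := hnil.1 y hy
    rw [shiftBy_apply] at this
    have h2 := P.add_mem this (P.smul_mem α hy)
    rwa [sub_add_cancel] at h2
  have hD := sOld_mem_of_compl h hp α ϖ hnila P P' hPU hdisj hbij hsep' hsum
  refine ⟨hC, hD, ?_, ?_⟩
  · intro y hy e
    obtain ⟨u, hu, rfl⟩ := hC y hy
    rw [t₂_sOld h hp hu] at e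
    have : u = 0 := ha2.inj u hu (by rw [oneSubSq_apply]; exact e)
    rw [this, map_zero]
  · intro x hx
    obtain ⟨u, hu, eu⟩ := ha2.surj x hx
    refine ⟨sOld r₁ r₂ a u, hD u hu, ?_⟩
    rw [t₂_sOld h hp hu, ← eu, oneSubSq_apply]

end Core

end Fermat.Agent.S59.H105
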