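import Mathlib
import Fermat.Agent.S41.Spec.HK
import Fermat.Agent.S41.H581.TransferBasic
import Fermat.Agent.S41.H105.TransferRestrict
import Fermat.Agent.S41.H761.TRH
import Fermat.Agent.S59.H105.UqHK
import Fermat.Agent.S59.H105.UqAL
import Fermat.Agent.S59.H105.CtrlCore

/-!
# Row S59, cell TW, leaf TW-CTRL (helper105): the operators as linear maps, `DegRel`, control

`A` a module over a commutative ring `O`; `H_M = Hom(Γ₀(M), A)` (Lean: `Additive (Gamma0 M) →+ A`)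
is an `O`-module.  Level `N`, prime `q ∤ N`.

* `r₁L, r₂L : H_N →ₗ[O] H_{N q}`, `t₁L, t₂L : H_{N q} →ₗ[O] H_N`, `TqL : H_N →ₗ[O] H_N`,
  `UqL : H_{N q} →ₗ[O] H_{N q}`: the operators of S41 (`Spec/HK.lean`), `heckeTransfer` and `Uq`;
* `degRel : DegRel q r₁L r₂L t₁L t₂L TqL UqL` : all the identities of `CtrlCore.lean`;
* `ctrl_Gamma0` : **TW-CTRL** for one prime (the instance of `ctrl_t₂`).
-/

set_option autoImplicit false

namespace Fermat.Agent.S59.H105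

open CongruenceSubgroup Matrix.SpecialLinearGroup
open Fermat.Agent.S29.H642 Fermat.Agent.S41 Fermat.Agent.S41.Spec Fermat.Agent.S41.H761
open scoped MatrixGroups

universe u v

section Ops

variable (O : Type v) [CommRing O] (A : Type u) [AddCommGroup A] [Module O A]

/-- Multiplication by `c` on the coefficients. -/
def coeffSmul (c : O) : A →+ A := DistribSMul.toAddMonoidHom A c

variable {O A}

theorem smul_eq_coeffSmul_comp {G : Type*} [AddMonoid G] (c : O) (φ : G →+ A) :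
    c • φ = (coeffSmul O A c).comp φ := rfl

variable (O A)

/-- `r₁` as a linear map. -/
def r₁L (N q : ℕ) : (Additive (Gamma0 N) →+ A) →ₗ[O] (Additive (Gamma0 (N * q)) →+ A) where
  toFun := r₁ N q
  map_add' _ _ := rfl
  map_smul' _ _ := rfl

/-- `r₂` as a linear map. -/
def r₂L (N q : ℕ) : (Additive (Gamma0 N) →+ A) →ₗ[O] (Additive (Gamma0 (N * q)) →+ A) where
  toFun := r₂ N q
  map_add' _ _ := rfl
  map_smul' _ _ := rfl

/-- `t₁` as a linear map. -/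
noncomputable def t₁L (N q : ℕ) :
    (Additive (Gamma0 (N * q)) →+ A) →ₗ[O] (Additive (Gamma0 N) →+ A) where
  toFun := t₁ N q
  map_add' φ ψ := H581.transferAlong_add (incl N q) φ ψ
  map_smul' c φ := by
    rw [smul_eq_coeffSmul_comp]
    exact H581.transferAlong_comp (incl N q) (coeffSmul O A c) φ

/-- `t₂` as a linear map. -/
noncomputable def t₂L (N q : ℕ) :
    (Additive (Gamma0 (N * q)) →+ A) →ₗ[O] (Additive (Gamma0 N) →+ A) where
  toFun := t₂ N q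
  map_add' φ ψ := H581.transferAlong_add (conjDelta N q) φ ψ
  map_smul' c φ := by
    rw [smul_eq_coeffSmul_comp]
    exact H581.transferAlong_comp (conjDelta N q) (coeffSmul O A c) φ

/-- `T_l` (`l ∤ M`) as a linear map. -/
noncomputable def TlL {M l : ℕ} [Fact l.Prime] (hl : ¬ l ∣ M) :
    (Additive (Gamma0 M) →+ A) →ₗ[O] (Additive (Gamma0 M) →+ A) where
  toFun := heckeTransfer hl
  map_add' φ ψ := heckeTransfer_add hl φ ψ
  map_smul' c φ := by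
    rw [smul_eq_coeffSmul_comp]
    exact heckeTransfer_comp hl (coeffSmul O A c) φ

/-- `U_q` (`q ∣ M`) as a linear map. -/
noncomputable def UqL {M q : ℕ} [Fact q.Prime] (hq : q ∣ M) :
    (Additive (Gamma0 M) →+ A) →ₗ[O] (Additive (Gamma0 M) →+ A) where
  toFun := Uq hq
  map_add' φ ψ := Uq_add hq φ ψ
  map_smul' c φ := by
    rw [smul_eq_coeffSmul_comp]
    exact Uq_comp hq (coeffSmul O A c) φ

@[simp] theorem r₁L_apply (N q : ℕ) (φ : Additive (Gamma0 N) →+ A) :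
    r₁L O A N q φ = r₁ N q φ := rfl

@[simp] theorem r₂L_apply (N q : ℕ) (φ : Additive (Gamma0 N) →+ A) :
    r₂L O A N q φ = r₂ N q φ := rfl

@[simp] theorem t₁L_apply (N q : ℕ) (ψ : Additive (Gamma0 (N * q)) →+ A) :
    t₁L O A N q ψ = t₁ N q ψ := rfl

@[simp] theorem t₂L_apply (N q : ℕ) (ψ : Additive (Gamma0 (N * q)) →+ A) :
    t₂L O A N q ψ = t₂ N q ψ := rfl

@[simp] theorem TlL_apply {M l : ℕ} [Fact l.Prime] (hl : ¬ l ∣ M)
    (φ : Additive (Gamma0 M) →+ A) : TlL O A hl φ = heckeTransfer hl φ := rfl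

@[simp] theorem UqL_apply {M q : ℕ} [Fact q.Prime] (hq : q ∣ M)
    (φ : Additive (Gamma0 M) →+ A) : UqL O A hq φ = Uq hq φ := rfl

/-- **The degeneracy relations** between the levels `N` and `N q` (`q ∤ N` prime). -/
theorem degRel {N q : ℕ} [Fact q.Prime] (hqN : ¬ q ∣ N) :
    DegRel q (r₁L O A N q) (r₂L O A N q) (t₁L O A N q) (t₂L O A N q) (TlL O A hqN)
      (UqL O A (dvd_mul_self_left N q)) where
  t₁r₁ φ := by
    have hN : N ≠ 0 := by rintro rfl; exact hqN (dvd_zero q)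
    exact (H105.transferRestrict.{u} N q hN Fact.out hqN A φ).1
  t₂r₂ φ := by
    have hN : N ≠ 0 := by rintro rfl; exact hqN (dvd_zero q)
    exact (H105.transferRestrict.{u} N q hN Fact.out hqN A φ).2
  t₁r₂ φ := t1_r2 hqN φ
  t₂r₁ φ := t2_r1 hqN φ
  Ur₁ φ := Uq_r₁ hqN φ
  Ur₂ φ := Uq_r₂ φ
  UU ψ := Uq_Uq hqN ψ

/-- **TW-CTRL, one prime `q ∤ N`.**  `X ⊆ Hom(Γ₀(N), A)` a submodule on which `T_q = a + b`,
`a b = q`, with `a - b`, `1 - a²`, `1 - b²`, `b - α` bijective, `a - α` nilpotent modulo `ϖ`,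
`X` `ϖ`-adically separated; `P ⊆ Hom(Γ₀(N q), A)` a submodule with `t₁ P, t₂ P ⊆ X`, `U_q² - 1` onto
on `P`, `U_q - α` nilpotent modulo `ϖ` on `P`, and a complement `P'` (meeting `P` trivially, with
`s_a (X) ⊆ P + P'`, separated) on which `U_q - α` is bijective.  Then

* `P = s_a (X) = {r₂ x - r₁ (a x) : x ∈ X}`, and
* `t₂ : P → X` is bijective.

(`t₂` commutes with `T_l`, `l ∤ N q`: `S41.H761.heckeTransferComm`.) -/
theorem ctrl_Gamma0 {N q : ℕ} [Fact q.Prime] (hqN : ¬ q ∣ N)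
    (X : Submodule O (Additive (Gamma0 N) →+ A))
    (a b : (Additive (Gamma0 N) →+ A) →ₗ[O] (Additive (Gamma0 N) →+ A))
    (hp : HenselPair X q (TlL O A hqN) a b) (α ϖ : O)
    (hab : BijOnSub (a - b) X) (ha2 : BijOnSub (oneSubSq a) X) (hb2 : BijOnSub (oneSubSq b) X)
    (hbα : BijOnSub (shiftBy b α) X) (hsep : SepOn X ϖ) (hnila : NilpOn (shiftBy a α) X ϖ)
    (P P' : Submodule O (Additive (Gamma0 (N * q)) →+ A))
    (ht₁ : ∀ y ∈ P, t₁ N q y ∈ X) (ht₂ : ∀ y ∈ P, t₂ N q y ∈ X)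
    (hsurj : ∀ y ∈ P, ∃ y' ∈ P,
      Uq (dvd_mul_self_left N q) (Uq (dvd_mul_self_left N q) y') - y' = y)
    (hnil : NilpOn (shiftBy (UqL O A (dvd_mul_self_left N q)) α) P ϖ)
    (hdisj : ∀ y ∈ P, y ∈ P' → y = 0)
    (hbij : BijOnSub (shiftBy (UqL O A (dvd_mul_self_left N q)) α) P') (hsep' : SepOn P' ϖ)
    (hsum : ∀ x ∈ X, ∃ y₁ ∈ P, ∃ y₂ ∈ P', r₂ N q x - r₁ N q (a x) = y₁ + y₂) :
    (∀ y ∈ P, ∃ u ∈ X, y = r₂ N q u - r₁ N q (a u)) ∧
    (∀ x ∈ X, r₂ N q x - r₁ N q (a x) ∈ P) ∧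
    (∀ y ∈ P, t₂ N q y = 0 → y = 0) ∧ (∀ x ∈ X, ∃ y ∈ P, t₂ N q y = x) :=
  ctrl_t₂ (degRel O A hqN) hp α ϖ hab ha2 hb2 hbα hsep hnila P P' ht₁ ht₂ hsurj hnil hdisj hbij
    hsep' hsum

/-- `Hom(Γ, A)` is `ϖ`-adically separated if `A` is. -/
theorem sepOn_top {G : Type*} [AddMonoid G] (ϖ : O)
    (hA : ∀ x : A, (∀ n : ℕ, ∃ z : A, x = ϖ ^ n • z) → x = 0) :
    ∀ φ : G →+ A, (∀ n : ℕ, ∃ ψ : G →+ A, φ = ϖ ^ n • ψ) → φ = 0 := by
  intro φ h
  refine AddMonoidHom.ext fun g => hA _ fun n => ?_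
  obtain ⟨ψ, rfl⟩ := h n
  exact ⟨ψ g, rfl⟩

end Ops

end Fermat.Agent.S59.H105
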