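import Fermat.Agent.S59.H105.LocBridge
import Fermat.Agent.S59.H105.CtrlOps
import Fermat.Agent.S59.TW.H653.UqKer
import Fermat.Agent.S41.H281.HeckeRestrict
import Fermat.Agent.S41.H761.HT

/-!
# Row S59, cell TW, leaf CTRL (helper105): the generators `T_ℓ - c`, `U_q - α` and the
degeneracy maps

* `tOpL`, `uOpL` : `T_ℓ - c`, `U_q - α` on `X_K(𝒪)` with the primality as an explicit argument;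
  they commute with each other;
* `CrossStatement` : `U_q'` (`q' ∣ N`) commutes with `r₁, r₂, t₁, t₂` between the levels `N` and
  `N q` (leaf of helper719);
* `tOpL_r₁`, …, `uOpL_t₂` : the degeneracy maps intertwine the generators;
* the dictionary `TKL = TlL`, `UKL = UqL` at `K = Γ₀(M)`.
-/

set_option autoImplicit false

namespace Fermat.Agent.S59.H105

open IsLocalRing CongruenceSubgroup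
open Fermat.Agent.S29.H642 Fermat.Agent.S41 Fermat.Agent.S41.Spec
open Fermat.Agent.S59.TW.H653 Fermat.Agent.S59.TW.Aut
open scoped MatrixGroups

section Ops

variable {M : ℕ} {K : Subgroup SL(2, ℤ)} (hK : IsMid M K) (𝒪 : Type) [CommRing 𝒪]

/-- `T_ℓ - c`. -/
noncomputable def tOpL (ℓ : ℕ) (hℓ : ℓ.Prime) (hℓM : ¬ ℓ ∣ M) (c : 𝒪) :
    (Additive K →+ 𝒪) →ₗ[𝒪] (Additive K →+ 𝒪) :=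
  haveI : Fact ℓ.Prime := ⟨hℓ⟩
  shiftE 𝒪 (TKL hK 𝒪 hℓM) c

/-- `U_q - α`. -/
noncomputable def uOpL (q : ℕ) (hq : q.Prime) (hqM : q ∣ M) (α : 𝒪) :
    (Additive K →+ 𝒪) →ₗ[𝒪] (Additive K →+ 𝒪) :=
  haveI : Fact q.Prime := ⟨hq⟩
  shiftE 𝒪 (UKL hK 𝒪 hqM) α

variable {𝒪}

theorem tOpL_eq (ℓ : ℕ) [Fact ℓ.Prime] (hℓM : ¬ ℓ ∣ M) (c : 𝒪) :
    tOpL hK 𝒪 ℓ Fact.out hℓM c = shiftE 𝒪 (TKL hK 𝒪 hℓM) c := rfl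

theorem uOpL_eq (q : ℕ) [Fact q.Prime] (hqM : q ∣ M) (α : 𝒪) :
    uOpL hK 𝒪 q Fact.out hqM α = shiftE 𝒪 (UKL hK 𝒪 hqM) α := rfl

theorem tOpL_tOpL (ℓ ℓ' : ℕ) (hℓ : ℓ.Prime) (hℓ' : ℓ'.Prime) (hℓM : ¬ ℓ ∣ M) (hℓM' : ¬ ℓ' ∣ M)
    (c c' : 𝒪) (x : Additive K →+ 𝒪) :
    tOpL hK 𝒪 ℓ hℓ hℓM c (tOpL hK 𝒪 ℓ' hℓ' hℓM' c' x) =
      tOpL hK 𝒪 ℓ' hℓ' hℓM' c' (tOpL hK 𝒪 ℓ hℓ hℓM c x) := by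
  haveI : Fact ℓ.Prime := ⟨hℓ⟩
  haveI : Fact ℓ'.Prime := ⟨hℓ'⟩
  exact shiftE_comm _ _ c c' (fun y => TK_comm hK hℓM' hℓM y) x

theorem uOpL_tOpL (q ℓ : ℕ) (hq : q.Prime) (hℓ : ℓ.Prime) (hqM : q ∣ M) (hℓM : ¬ ℓ ∣ M)
    (α c : 𝒪) (x : Additive K →+ 𝒪) :
    uOpL hK 𝒪 q hq hqM α (tOpL hK 𝒪 ℓ hℓ hℓM c x) =
      tOpL hK 𝒪 ℓ hℓ hℓM c (uOpL hK 𝒪 q hq hqM α x) := by
  haveI : Fact ℓ.Prime := ⟨hℓ⟩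
  haveI : Fact q.Prime := ⟨hq⟩
  exact shiftE_comm _ _ α c (fun y => TK_UK_comm hK hℓM hqM y) x

theorem uOpL_uOpL (q q' : ℕ) (hq : q.Prime) (hq' : q'.Prime) (hqM : q ∣ M) (hqM' : q' ∣ M)
    (α α' : 𝒪) (x : Additive K →+ 𝒪) :
    uOpL hK 𝒪 q hq hqM α (uOpL hK 𝒪 q' hq' hqM' α' x) =
      uOpL hK 𝒪 q' hq' hqM' α' (uOpL hK 𝒪 q hq hqM α x) := by
  haveI : Fact q.Prime := ⟨hq⟩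
  haveI : Fact q'.Prime := ⟨hq'⟩
  exact shiftE_comm _ _ α α' (fun y => UK_comm hK hqM' hqM y) x

/-- A linear map commuting with `f` commutes with `f - c`. -/
theorem comm_shiftE {X : Type*} [AddCommGroup X] [Module 𝒪 X] (e f : X →ₗ[𝒪] X) (c : 𝒪)
    (h : ∀ x, e (f x) = f (e x)) (x : X) : e (shiftE 𝒪 f c x) = shiftE 𝒪 f c (e x) := by
  simp only [shiftE_apply, map_sub, map_smul, h]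

end Ops

section Dict

variable (𝒪 : Type) [CommRing 𝒪] {M : ℕ}

theorem TKL_eq_TlL {ℓ : ℕ} [Fact ℓ.Prime] (hℓ : ¬ ℓ ∣ M) :
    TKL (isMid_Gamma0 M) 𝒪 hℓ = TlL 𝒪 𝒪 hℓ :=
  LinearMap.ext fun φ => TK_Gamma0 hℓ φ

theorem UKL_eq_UqL {q : ℕ} [Fact q.Prime] (hq : q ∣ M) :
    UKL (isMid_Gamma0 M) 𝒪 hq = UqL 𝒪 𝒪 hq :=
  LinearMap.ext fun φ => by
    rw [UKL_apply, UK_Gamma0_eq hq]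
    rfl

end Dict

/-- **CROSS** (leaf of helper719): `U_q'`, `q' ∣ N`, commutes with the degeneracy maps between the
levels `N` and `N q`. -/
def CrossStatement : Prop :=
  ∀ (N q q' : ℕ) [Fact q.Prime] [Fact q'.Prime], ¬ q ∣ N → q' ∣ N →
    ∀ (A : Type) [AddCommGroup A],
      (∀ φ : Additive (Gamma0 N) →+ A,
        UK (Gamma0 (N * q)) q' (r₁ N q φ) = r₁ N q (UK (Gamma0 N) q' φ) ∧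
        UK (Gamma0 (N * q)) q' (r₂ N q φ) = r₂ N q (UK (Gamma0 N) q' φ)) ∧
      (∀ ψ : Additive (Gamma0 (N * q)) →+ A,
        UK (Gamma0 N) q' (t₁ N q ψ) = t₁ N q (UK (Gamma0 (N * q)) q' ψ) ∧
        UK (Gamma0 N) q' (t₂ N q ψ) = t₂ N q (UK (Gamma0 (N * q)) q' ψ))

section Inter

variable (𝒪 : Type) [CommRing 𝒪] {N q : ℕ}

theorem tOpL_r₁ (ℓ : ℕ) (hℓ : ℓ.Prime) (hℓN : ¬ ℓ ∣ N) (hℓNq : ¬ ℓ ∣ N * q) (c : 𝒪)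
    (φ : Additive (Gamma0 N) →+ 𝒪) :
    r₁L 𝒪 𝒪 N q (tOpL (isMid_Gamma0 N) 𝒪 ℓ hℓ hℓN c φ) =
      tOpL (isMid_Gamma0 (N * q)) 𝒪 ℓ hℓ hℓNq c (r₁L 𝒪 𝒪 N q φ) := by
  haveI : Fact ℓ.Prime := ⟨hℓ⟩
  show r₁L 𝒪 𝒪 N q (shiftE 𝒪 (TKL _ 𝒪 hℓN) c φ) = shiftE 𝒪 (TKL _ 𝒪 hℓNq) c (r₁L 𝒪 𝒪 N q φ)
  rw [shiftE_apply, shiftE_apply, map_sub, map_smul, TKL_apply, TKL_apply, TK_Gamma0 hℓN,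
    TK_Gamma0 hℓNq, r₁L_apply, r₁L_apply, (H281.heckeRestrict N q ℓ hℓN hℓNq 𝒪 φ).1]

theorem tOpL_r₂ (ℓ : ℕ) (hℓ : ℓ.Prime) (hℓN : ¬ ℓ ∣ N) (hℓNq : ¬ ℓ ∣ N * q) (c : 𝒪)
    (φ : Additive (Gamma0 N) →+ 𝒪) :
    r₂L 𝒪 𝒪 N q (tOpL (isMid_Gamma0 N) 𝒪 ℓ hℓ hℓN c φ) =
      tOpL (isMid_Gamma0 (N * q)) 𝒪 ℓ hℓ hℓNq c (r₂L 𝒪 𝒪 N q φ) := by
  haveI : Fact ℓ.Prime := ⟨hℓ⟩
  show r₂L 𝒪 𝒪 N q (shiftE 𝒪 (TKL _ 𝒪 hℓN) c φ) = shiftE 𝒪 (TKL _ 𝒪 hℓNq) c (r₂L 𝒪 𝒪 N q φ)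
  rw [shiftE_apply, shiftE_apply, map_sub, map_smul, TKL_apply, TKL_apply, TK_Gamma0 hℓN,
    TK_Gamma0 hℓNq, r₂L_apply, r₂L_apply, (H281.heckeRestrict N q ℓ hℓN hℓNq 𝒪 φ).2]

theorem tOpL_t₁ (hNq : N * q ≠ 0) (ℓ : ℕ) (hℓ : ℓ.Prime) (hℓN : ¬ ℓ ∣ N) (hℓNq : ¬ ℓ ∣ N * q)
    (c : 𝒪) (ψ : Additive (Gamma0 (N * q)) →+ 𝒪) :
    t₁L 𝒪 𝒪 N q (tOpL (isMid_Gamma0 (N * q)) 𝒪 ℓ hℓ hℓNq c ψ) =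
      tOpL (isMid_Gamma0 N) 𝒪 ℓ hℓ hℓN c (t₁L 𝒪 𝒪 N q ψ) := by
  haveI : Fact ℓ.Prime := ⟨hℓ⟩
  show t₁L 𝒪 𝒪 N q (shiftE 𝒪 (TKL _ 𝒪 hℓNq) c ψ) = shiftE 𝒪 (TKL _ 𝒪 hℓN) c (t₁L 𝒪 𝒪 N q ψ)
  rw [shiftE_apply, shiftE_apply, map_sub, map_smul, TKL_apply, TKL_apply, TK_Gamma0 hℓN,
    TK_Gamma0 hℓNq, t₁L_apply, t₁L_apply, (H761.heckeTransferComm N q ℓ hℓN hℓNq hNq 𝒪 ψ).1]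

theorem tOpL_t₂ (hNq : N * q ≠ 0) (ℓ : ℕ) (hℓ : ℓ.Prime) (hℓN : ¬ ℓ ∣ N) (hℓNq : ¬ ℓ ∣ N * q)
    (c : 𝒪) (ψ : Additive (Gamma0 (N * q)) →+ 𝒪) :
    t₂L 𝒪 𝒪 N q (tOpL (isMid_Gamma0 (N * q)) 𝒪 ℓ hℓ hℓNq c ψ) =
      tOpL (isMid_Gamma0 N) 𝒪 ℓ hℓ hℓN c (t₂L 𝒪 𝒪 N q ψ) := by
  haveI : Fact ℓ.Prime := ⟨hℓ⟩
  show t₂L 𝒪 𝒪 N q (shiftE 𝒪 (TKL _ 𝒪 hℓNq) c ψ) = shiftE 𝒪 (TKL _ 𝒪 hℓN) c (t₂L 𝒪 𝒪 N q ψ)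
  rw [shiftE_apply, shiftE_apply, map_sub, map_smul, TKL_apply, TKL_apply, TK_Gamma0 hℓN,
    TK_Gamma0 hℓNq, t₂L_apply, t₂L_apply, (H761.heckeTransferComm N q ℓ hℓN hℓNq hNq 𝒪 ψ).2]

variable [Fact q.Prime]

theorem uOpL_r₁ (hcross : CrossStatement) (hqN : ¬ q ∣ N) (q' : ℕ) (hq' : q'.Prime)
    (hq'N : q' ∣ N) (hq'Nq : q' ∣ N * q) (α : 𝒪) (φ : Additive (Gamma0 N) →+ 𝒪) :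
    r₁L 𝒪 𝒪 N q (uOpL (isMid_Gamma0 N) 𝒪 q' hq' hq'N α φ) =
      uOpL (isMid_Gamma0 (N * q)) 𝒪 q' hq' hq'Nq α (r₁L 𝒪 𝒪 N q φ) := by
  haveI : Fact q'.Prime := ⟨hq'⟩
  show r₁L 𝒪 𝒪 N q (shiftE 𝒪 (UKL _ 𝒪 hq'N) α φ) = shiftE 𝒪 (UKL _ 𝒪 hq'Nq) α (r₁L 𝒪 𝒪 N q φ)
  rw [shiftE_apply, shiftE_apply, map_sub, map_smul, UKL_apply, UKL_apply, r₁L_apply,
    r₁L_apply, ((hcross N q q' hqN hq'N 𝒪).1 φ).1]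

theorem uOpL_r₂ (hcross : CrossStatement) (hqN : ¬ q ∣ N) (q' : ℕ) (hq' : q'.Prime)
    (hq'N : q' ∣ N) (hq'Nq : q' ∣ N * q) (α : 𝒪) (φ : Additive (Gamma0 N) →+ 𝒪) :
    r₂L 𝒪 𝒪 N q (uOpL (isMid_Gamma0 N) 𝒪 q' hq' hq'N α φ) =
      uOpL (isMid_Gamma0 (N * q)) 𝒪 q' hq' hq'Nq α (r₂L 𝒪 𝒪 N q φ) := by
  haveI : Fact q'.Prime := ⟨hq'⟩
  show r₂L 𝒪 𝒪 N q (shiftE 𝒪 (UKL _ 𝒪 hq'N) α φ) = shiftE 𝒪 (UKL _ 𝒪 hq'Nq) α (r₂L 𝒪 𝒪 N q φ)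
  rw [shiftE_apply, shiftE_apply, map_sub, map_smul, UKL_apply, UKL_apply, r₂L_apply,
    r₂L_apply, ((hcross N q q' hqN hq'N 𝒪).1 φ).2]

theorem uOpL_t₁ (hcross : CrossStatement) (hqN : ¬ q ∣ N) (q' : ℕ) (hq' : q'.Prime)
    (hq'N : q' ∣ N) (hq'Nq : q' ∣ N * q) (α : 𝒪) (ψ : Additive (Gamma0 (N * q)) →+ 𝒪) :
    t₁L 𝒪 𝒪 N q (uOpL (isMid_Gamma0 (N * q)) 𝒪 q' hq' hq'Nq α ψ) =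
      uOpL (isMid_Gamma0 N) 𝒪 q' hq' hq'N α (t₁L 𝒪 𝒪 N q ψ) := by
  haveI : Fact q'.Prime := ⟨hq'⟩
  show t₁L 𝒪 𝒪 N q (shiftE 𝒪 (UKL _ 𝒪 hq'Nq) α ψ) = shiftE 𝒪 (UKL _ 𝒪 hq'N) α (t₁L 𝒪 𝒪 N q ψ)
  rw [shiftE_apply, shiftE_apply, map_sub, map_smul, UKL_apply, UKL_apply, t₁L_apply,
    t₁L_apply, ((hcross N q q' hqN hq'N 𝒪).2 ψ).1]

theorem uOpL_t₂ (hcross : CrossStatement) (hqN : ¬ q ∣ N) (q' : ℕ) (hq' : q'.Prime)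
    (hq'N : q' ∣ N) (hq'Nq : q' ∣ N * q) (α : 𝒪) (ψ : Additive (Gamma0 (N * q)) →+ 𝒪) :
    t₂L 𝒪 𝒪 N q (uOpL (isMid_Gamma0 (N * q)) 𝒪 q' hq' hq'Nq α ψ) =
      uOpL (isMid_Gamma0 N) 𝒪 q' hq' hq'N α (t₂L 𝒪 𝒪 N q ψ) := by
  haveI : Fact q'.Prime := ⟨hq'⟩
  show t₂L 𝒪 𝒪 N q (shiftE 𝒪 (UKL _ 𝒪 hq'Nq) α ψ) = shiftE 𝒪 (UKL _ 𝒪 hq'N) α (t₂L 𝒪 𝒪 N q ψ)
  rw [shiftE_apply, shiftE_apply, map_sub, map_smul, UKL_apply, UKL_apply, t₂L_apply,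
    t₂L_apply, ((hcross N q q' hqN hq'N 𝒪).2 ψ).2]

end Inter

end Fermat.Agent.S59.H105
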