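import Fermat.Agent.S38.H719.UqCrossR
import Fermat.Agent.S59.H105.OpsComm

/-!
# Row S59, cell TW, leaf CTRL (helper105): `CrossStatement` from helper719's `UqCrossR`

`cross : CrossStatement` — `U_q'` (`q' ∣ N`) commutes with the four degeneracy maps between the levels
`N` and `N q` (`q ∤ N`), in the `H653.UK` vocabulary.  The geometric content is helper719's
`Uq_r₁, Uq_r₂, Uq_t₁, Uq_t₂` (`S38/H719/UqCross.lean`, `UqCrossR.lean`).
-/

set_option autoImplicit false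

namespace Fermat.Agent.S59.H105

open CongruenceSubgroup
open Fermat.Agent.S29.H642 Fermat.Agent.S41 Fermat.Agent.S41.Spec
open Fermat.Agent.S59.TW.H653 Fermat.Agent.S59.TW.Aut
open scoped MatrixGroups

theorem UK_Gamma0_eq_Uq105 {M q : ℕ} [Fact q.Prime] {A : Type*} [AddCommGroup A] (hq : q ∣ M)
    (ψ : Additive (Gamma0 M) →+ A) : UK (Gamma0 M) q ψ = Uq hq ψ := by
  rw [UK_Gamma0_eq hq]
  rfl

/-- **CROSS**: `U_q'` commutes with `r₁, r₂, t₁, t₂`. -/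
theorem cross : CrossStatement := by
  intro N q q' _ _ hqN hq'N A _
  have hq : q.Prime := Fact.out
  have hq' : q'.Prime := Fact.out
  have hq'' : q' ∣ N * q := Dvd.dvd.mul_right hq'N q
  have hcop : Nat.Coprime q q' := by
    rw [Nat.coprime_primes hq hq']
    rintro rfl
    exact hqN hq'N
  refine ⟨fun φ => ⟨?_, ?_⟩, fun ψ => ⟨?_, ?_⟩⟩
  · rw [UK_Gamma0_eq_Uq105 hq'', UK_Gamma0_eq_Uq105 hq'N]
    exact Fermat.Agent.S38.H719.Uq_r₁ hq'N hq'' φ
  · rw [UK_Gamma0_eq_Uq105 hq'', UK_Gamma0_eq_Uq105 hq'N]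
    exact Fermat.Agent.S38.H719.Uq_r₂ hq.ne_zero hcop hq'N hq'' φ
  · rw [UK_Gamma0_eq_Uq105 hq'', UK_Gamma0_eq_Uq105 hq'N]
    exact Fermat.Agent.S38.H719.Uq_t₁ hq hqN hq'N hq'' ψ
  · rw [UK_Gamma0_eq_Uq105 hq'', UK_Gamma0_eq_Uq105 hq'N]
    exact Fermat.Agent.S38.H719.Uq_t₂ hq.ne_zero hq'N hq'' ψ

end Fermat.Agent.S59.H105
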