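import Fermat.Agent.S59.H105.OneStep

/-!
# Row S59, cell TW, leaf CTRL (helper105): iteration of the one-prime step

`iter_chain` : `N₀ ≠ 0`, `V₀` the localisation of `X_{Γ₀(N₀)}(𝒪)` at `Tset₀` (no `U`-conditions);
`q_0, …, q_{r-1}` distinct primes not dividing `N₀`, units of `𝒪`, with `(q_j, c_j) ∈ Tset₀`,
`α_j + β_j ≡ c_j`, `α_j β_j ≡ q_j`, `α_j ≢ β_j`, `α_j² ≢ 1`, `β_j² ≢ 1`.  Then for the localisation
`W` of `X_{Γ₀(N₀ ∏ q_j)}(𝒪)` at `Tset₀` away from the `q_j` and `U_{q_j} - α_j`, there is a linear map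
`f : X_{Γ₀(N₀ ∏ q_j)}(𝒪) → X_{Γ₀(N₀)}(𝒪)` (the composite of the transfers `t₂`) commuting with the
`T_ℓ`, `ℓ ∤ N₀ ∏ q_j`, and inducing a bijection `W → V₀`.
-/

set_option autoImplicit false

namespace Fermat.Agent.S59.H105

open IsLocalRing CongruenceSubgroup
open Fermat.Agent.S29.H642 Fermat.Agent.S41 Fermat.Agent.S41.Spec
open Fermat.Agent.S59.TW.H653 Fermat.Agent.S59.TW.Aut
open scoped MatrixGroups

/-- `t₂` commutes with `T_ℓ` (vocabulary `Aut.tOp`). -/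
theorem tOp_t₂ (𝒪 : Type) [CommRing 𝒪] {N q : ℕ} (hNq : N * q ≠ 0) (ℓ : ℕ) (hℓ : ℓ.Prime)
    (hℓN : ¬ ℓ ∣ N) (hℓNq : ¬ ℓ ∣ N * q) (ψ : Additive (Gamma0 (N * q)) →+ 𝒪) :
    t₂ N q (tOp (N * q) (Gamma0 (N * q)) 𝒪 ℓ hℓ ψ) = tOp N (Gamma0 N) 𝒪 ℓ hℓ (t₂ N q ψ) := by
  haveI : Fact ℓ.Prime := ⟨hℓ⟩
  show t₂ N q (TK (N * q) (Gamma0 (N * q)) ℓ ψ) = TK N (Gamma0 N) ℓ (t₂ N q ψ)
  rw [TK_Gamma0 hℓN, TK_Gamma0 hℓNq, (H761.heckeTransferComm N q ℓ hℓN hℓNq hNq 𝒪 ψ).2]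

/-- `Tset₀` away from the primes `qv j`. -/
def TsetAway {𝒪 : Type} (Tset₀ : Set (ℕ × 𝒪)) {r : ℕ} (qv : Fin r → ℕ) : Set (ℕ × 𝒪) :=
  {x | x ∈ Tset₀ ∧ ∀ j, x.1 ≠ qv j}

theorem tsetAway_succ {𝒪 : Type} (Tset₀ : Set (ℕ × 𝒪)) {r : ℕ} (qv : Fin (r + 1) → ℕ) :
    TsetAway Tset₀ qv =
      {x | x ∈ TsetAway Tset₀ (fun j : Fin r => qv j.castSucc) ∧ x.1 ≠ qv (Fin.last r)} := by
  ext x
  constructor
  · rintro ⟨h0, h⟩
    exact ⟨⟨h0, fun j => h j.castSucc⟩, h (Fin.last r)⟩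
  · rintro ⟨⟨h0, h⟩, hl⟩
    exact ⟨h0, fun j => Fin.lastCases hl h j⟩

theorem usetOf_succ {𝒪 : Type} {r : ℕ} (qv : Fin (r + 1) → ℕ) (α : Fin (r + 1) → 𝒪) :
    UsetOf qv α =
      UsetOf (fun j : Fin r => qv j.castSucc) (fun j : Fin r => α j.castSucc) ∪
        {(qv (Fin.last r), α (Fin.last r))} := by
  ext x
  constructor
  · rintro ⟨j, rfl⟩
    induction j using Fin.lastCases with
    | last => exact Or.inr rfl
    | cast j => exact Or.inl ⟨j, rfl⟩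
  · rintro (⟨j, rfl⟩ | h)
    · exact ⟨j.castSucc, rfl⟩
    · rw [Set.mem_singleton_iff] at h
      exact ⟨Fin.last r, h⟩

theorem not_dvd_mul_prod {N₀ ℓ : ℕ} (hℓ : ℓ.Prime) (hN : ¬ ℓ ∣ N₀) {r : ℕ} (qv : Fin r → ℕ)
    (hprime : ∀ j, (qv j).Prime) (hne : ∀ j, ℓ ≠ qv j) : ¬ ℓ ∣ N₀ * ∏ j, qv j := by
  intro h
  rcases (Nat.Prime.dvd_mul hℓ).mp h with h | h
  · exact hN h
  · obtain ⟨j, _, hj⟩ := (Prime.dvd_finsetProd_iff hℓ.prime _).mp h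
    exact hne j ((Nat.prime_dvd_prime_iff_eq hℓ (hprime j)).mp hj)

section

variable {𝒪 : Type} [CommRing 𝒪] [IsDomain 𝒪] [IsDiscreteValuationRing 𝒪]
  [IsAdicComplete (maximalIdeal 𝒪) 𝒪] [Finite (ResidueField 𝒪)]

/-- **The chain of transfers.** -/
theorem iter_chain (idem : IdemStatement) (hcross : CrossStatement) {N₀ : ℕ} (hN₀ : N₀ ≠ 0)
    {Tset₀ : Set (ℕ × 𝒪)} (hT₀ : ∀ x ∈ Tset₀, x.1.Prime ∧ ¬ x.1 ∣ N₀)
    {V₀ : Submodule 𝒪 (Additive (Gamma0 N₀) →+ 𝒪)}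
    (hV₀ : IsLocPart (isMid_Gamma0 N₀) Tset₀ ∅ V₀) :
    ∀ (r : ℕ) (qv : Fin r → ℕ) (α β c : Fin r → 𝒪),
      Function.Injective qv → (∀ j, (qv j).Prime) → (∀ j, ¬ qv j ∣ N₀) →
      (∀ j, IsUnit ((qv j : ℕ) : 𝒪)) → (∀ j, (qv j, c j) ∈ Tset₀) →
      (∀ j c', (qv j, c') ∈ Tset₀ → c' - c j ∈ maximalIdeal 𝒪) →
      (∀ j, α j + β j - c j ∈ maximalIdeal 𝒪) →
      (∀ j, α j * β j - ((qv j : ℕ) : 𝒪) ∈ maximalIdeal 𝒪) →
      (∀ j, IsUnit (α j - β j)) → (∀ j, IsUnit (1 - α j ^ 2)) → (∀ j, IsUnit (1 - β j ^ 2)) →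
      ∀ (M : ℕ), M = N₀ * ∏ j, qv j →
      ∀ W : Submodule 𝒪 (Additive (Gamma0 M) →+ 𝒪),
        IsLocPart (isMid_Gamma0 M) (TsetAway Tset₀ qv) (UsetOf qv α) W →
        ∃ f : (Additive (Gamma0 M) →+ 𝒪) →ₗ[𝒪] (Additive (Gamma0 N₀) →+ 𝒪),
          (∀ y ∈ W, f y ∈ V₀) ∧ (∀ y ∈ W, f y = 0 → y = 0) ∧ (∀ x ∈ V₀, ∃ y ∈ W, f y = x) ∧
          ∀ (ℓ : ℕ) (hℓ : ℓ.Prime), ¬ ℓ ∣ M → ∀ y,
            f (tOp M (Gamma0 M) 𝒪 ℓ hℓ y) = tOp N₀ (Gamma0 N₀) 𝒪 ℓ hℓ (f y) := by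
  intro r
  induction r with
  | zero =>
    intro qv α β c _ _ _ _ _ _ _ _ _ _ _ M hM W hW
    have hM' : M = N₀ := by simpa using hM
    subst hM'
    have hTs : TsetAway Tset₀ qv = Tset₀ := by
      ext x
      exact ⟨fun h => h.1, fun h => ⟨h, fun j => j.elim0⟩⟩
    have hUs : UsetOf qv α = ∅ := by
      ext x
      constructor
      · rintro ⟨j, _⟩
        exact j.elim0
      · intro h
        exact absurd h (Set.notMem_empty x)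
    rw [hTs, hUs] at hW
    have hWV : W = V₀ := isLocPart_unique hN₀ _ hW hV₀ hT₀ (fun x hx => absurd hx (Set.notMem_empty x))
    subst hWV
    exact ⟨LinearMap.id, fun y hy => hy, fun y _ h => h, fun x hx => ⟨x, hx, rfl⟩,
      fun ℓ hℓ _ y => rfl⟩
  | succ r ih =>
    intro qv α β c hinj hprime hqN hqu hcT hcq hsum hprod hαβ hα hβ M hM W hW
    have hM2 : M = (N₀ * ∏ j : Fin r, qv j.castSucc) * qv (Fin.last r) := by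
      rw [hM, Fin.prod_univ_castSucc, mul_assoc]
    subst hM2
    haveI : Fact (qv (Fin.last r)).Prime := ⟨hprime _⟩
    have hM'0 : N₀ * ∏ j : Fin r, qv j.castSucc ≠ 0 :=
      Nat.mul_ne_zero hN₀ (Finset.prod_ne_zero_iff.mpr fun j _ => (hprime _).ne_zero)
    have hqM' : ¬ qv (Fin.last r) ∣ N₀ * ∏ j : Fin r, qv j.castSucc :=
      not_dvd_mul_prod (hprime _) (hqN _) _ (fun j => hprime _) (fun j h =>
        absurd (hinj h) (Fin.castSucc_lt_last j).ne')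
    have hT' : ∀ x ∈ TsetAway Tset₀ (fun j : Fin r => qv j.castSucc),
        x.1.Prime ∧ ¬ x.1 ∣ N₀ * ∏ j : Fin r, qv j.castSucc := fun x hx =>
      ⟨(hT₀ x hx.1).1, not_dvd_mul_prod (hT₀ x hx.1).1 (hT₀ x hx.1).2 _ (fun j => hprime _) hx.2⟩
    have hU' : ∀ x ∈ UsetOf (fun j : Fin r => qv j.castSucc) (fun j : Fin r => α j.castSucc),
        x.1.Prime ∧ x.1 ∣ N₀ * ∏ j : Fin r, qv j.castSucc := by
      rintro x ⟨j, rfl⟩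
      exact ⟨hprime _, Dvd.dvd.mul_left
        (Finset.dvd_prod_of_mem (fun j : Fin r => qv j.castSucc) (Finset.mem_univ j)) N₀⟩
    obtain ⟨V', hV'⟩ := idem 𝒪 _ hM'0 (Gamma0 _) (isMid_Gamma0 _) _ _ hT' hU'
    obtain ⟨f', hf1, hf2, hf3, hf4⟩ := ih (fun j => qv j.castSucc) (fun j => α j.castSucc)
      (fun j => β j.castSucc) (fun j => c j.castSucc)
      (fun i j h => Fin.castSucc_injective _ (hinj h)) (fun j => hprime _) (fun j => hqN _)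
      (fun j => hqu _) (fun j => hcT _) (fun j => hcq _) (fun j => hsum _) (fun j => hprod _)
      (fun j => hαβ _) (fun j => hα _) (fun j => hβ _) _ rfl V' hV'
    rw [tsetAway_succ, usetOf_succ] at hW
    obtain ⟨g1, g2, g3⟩ := one_step idem hcross hM'0 hqM' (hqu _) hT' hU'
      (c := c (Fin.last r)) (α := α (Fin.last r)) (β := β (Fin.last r))
      ⟨hcT _, fun j h => absurd (hinj h) (Fin.castSucc_lt_last j).ne'⟩
      (fun c' h => hcq _ c' h.1) (hsum _) (hprod _) (hαβ _) (hα _) (hβ _) hV' hW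
    refine ⟨f' ∘ₗ t₂L 𝒪 𝒪 _ _, ?_, ?_, ?_, ?_⟩
    · intro y hy
      exact hf1 _ (g1 y hy)
    · intro y hy h
      exact g2 y hy (hf2 _ (g1 y hy) h)
    · intro x hx
      obtain ⟨y', hy', e'⟩ := hf3 x hx
      obtain ⟨y, hy, e⟩ := g3 y' hy'
      exact ⟨y, hy, by rw [LinearMap.comp_apply, t₂L_apply, e, e']⟩
    · intro ℓ hℓ hℓM y
      have hℓM' : ¬ ℓ ∣ N₀ * ∏ j : Fin r, qv j.castSucc := fun h => hℓM (Dvd.dvd.mul_right h _)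
      rw [LinearMap.comp_apply, LinearMap.comp_apply, t₂L_apply, t₂L_apply,
        tOp_t₂ 𝒪 (Nat.mul_ne_zero hM'0 (hprime _).ne_zero) ℓ hℓ hℓM' hℓM, hf4 ℓ hℓ hℓM']

end

end Fermat.Agent.S59.H105
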