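import Mathlib

/-!
# Row S59, cell TW, leaf CTRL (helper105): abstract localisation lemmas (Mathlib only)

`X` a module over a commutative ring `𝒪`, `ϖ ∈ 𝒪`, `N i` (`i ∈ ι`) commuting endomorphisms
(in the applications `N i = T_ℓ - c_ℓ`, `U_q - α_q`).

* `exists_common_ker_list`, `exists_common_ker` : commuting operators which are nilpotent from
  `S` into `B` have a common "kernel vector modulo `B`" in `S \ B`;
* `nat_loc` (**NAT1**): if `f : X → X'` intertwines `N i` and `N' i`, the `N i` are nilpotent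
  modulo `ϖ` on the stable saturated submodule `V ⊆ X`, and `e'` is a projector of `X'`
  commuting with the `N' i` whose kernel is *full* (no vector outside `ϖ X'` is killed modulo
  `ϖ` by all the `N' i`), then `f (V) ⊆ e' (X')`.
-/

set_option autoImplicit false

namespace Fermat.Agent.S59.H105

section CK

variable {𝒪 : Type*} [CommRing 𝒪] {X : Type*} [AddCommGroup X] [Module 𝒪 X]

theorem pow_apply_comm_of_comm (N N' : X →ₗ[𝒪] X) (h : ∀ x, N (N' x) = N' (N x)) (k : ℕ)
    (x : X) : (N ^ k) (N' x) = N' ((N ^ k) x) := by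
  induction k generalizing x with
  | zero => simp
  | succ k ih =>
    rw [pow_succ, Module.End.mul_apply, Module.End.mul_apply, h, ih]

theorem pow_mem_of_mem (N : X →ₗ[𝒪] X) (S : Submodule 𝒪 X) (hS : ∀ x ∈ S, N x ∈ S) (k : ℕ) :
    ∀ x ∈ S, (N ^ k) x ∈ S := by
  induction k with
  | zero => exact fun x hx => by simpa using hx
  | succ k ih =>
    intro x hx
    rw [pow_succ, Module.End.mul_apply]
    exact ih _ (hS x hx)

/-- A finite list of commuting operators, each nilpotent from `S` into `B`, has a common kernel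
vector modulo `B` in `S \ B`. -/
theorem exists_common_ker_list (S B : Submodule 𝒪 X) (Ns : List (X →ₗ[𝒪] X))
    (hcomm : ∀ N ∈ Ns, ∀ N' ∈ Ns, ∀ x, N (N' x) = N' (N x))
    (hS : ∀ N ∈ Ns, ∀ x ∈ S, N x ∈ S) (hB : ∀ N ∈ Ns, ∀ x ∈ B, N x ∈ B)
    (hnil : ∀ N ∈ Ns, ∃ m : ℕ, ∀ x ∈ S, (N ^ m) x ∈ B)
    {z₀ : X} (hz₀ : z₀ ∈ S) (hz₀' : z₀ ∉ B) :
    ∃ z ∈ S, z ∉ B ∧ ∀ N ∈ Ns, N z ∈ B := by
  induction Ns with
  | nil => exact ⟨z₀, hz₀, hz₀', fun N hN => absurd hN (List.not_mem_nil)⟩
  | cons N Ns ih =>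
    obtain ⟨z₁, hz₁, hz₁', hker⟩ := ih
      (fun A hA A' hA' => hcomm A (List.mem_cons_of_mem _ hA) A' (List.mem_cons_of_mem _ hA'))
      (fun A hA => hS A (List.mem_cons_of_mem _ hA))
      (fun A hA => hB A (List.mem_cons_of_mem _ hA))
      (fun A hA => hnil A (List.mem_cons_of_mem _ hA))
    obtain ⟨m, hm⟩ := hnil N List.mem_cons_self
    classical
    have hex : ∃ j : ℕ, (N ^ j) z₁ ∈ B := ⟨m, hm z₁ hz₁⟩
    have hj0 : Nat.find hex ≠ 0 := by
      intro h0
      have := Nat.find_spec hex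
      rw [h0] at this
      exact hz₁' (by simpa using this)
    obtain ⟨j, hj⟩ := Nat.exists_eq_succ_of_ne_zero hj0
    refine ⟨(N ^ j) z₁, pow_mem_of_mem N S (hS N List.mem_cons_self) j z₁ hz₁, ?_, ?_⟩
    · exact Nat.find_min hex (by omega)
    · intro A hA
      rcases List.mem_cons.mp hA with rfl | hA'
      · have := Nat.find_spec hex
        rw [hj, pow_succ', Module.End.mul_apply] at this
        exact this
      · rw [← pow_apply_comm_of_comm N A
          (fun x => hcomm N List.mem_cons_self A hA x) j z₁]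
        exact pow_mem_of_mem N B (hB N List.mem_cons_self) j _ (hker A hA')

/-- A commuting family of operators, each nilpotent from `S` into `B`, has a common kernel
vector modulo `B` in `S \ B` (the endomorphisms form a noetherian module). -/
theorem exists_common_ker [IsNoetherian 𝒪 (X →ₗ[𝒪] X)] {ι : Type*} (N : ι → X →ₗ[𝒪] X)
    (hcomm : ∀ i j x, N i (N j x) = N j (N i x)) (S B : Submodule 𝒪 X)
    (hS : ∀ i, ∀ x ∈ S, N i x ∈ S) (hB : ∀ i, ∀ x ∈ B, N i x ∈ B)
    (hnil : ∀ i, ∃ m : ℕ, ∀ x ∈ S, (N i ^ m) x ∈ B) {z₀ : X} (hz₀ : z₀ ∈ S) (hz₀' : z₀ ∉ B) :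
    ∃ z ∈ S, z ∉ B ∧ ∀ i, N i z ∈ B := by
  classical
  have hfg : (Submodule.span 𝒪 (Set.range N)).FG := IsNoetherian.noetherian _
  obtain ⟨s', hs', hspan⟩ := (Submodule.fg_span_iff_fg_span_finset_subset _).mp hfg
  have hmem : ∀ A ∈ s'.toList, ∃ i, N i = A := by
    intro A hA
    exact hs' (Finset.mem_toList.mp hA)
  obtain ⟨z, hz, hz', hker⟩ := exists_common_ker_list S B s'.toList
    (by
      intro A hA A' hA' x
      obtain ⟨i, rfl⟩ := hmem A hA
      obtain ⟨j, rfl⟩ := hmem A' hA'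
      exact hcomm i j x)
    (by
      intro A hA
      obtain ⟨i, rfl⟩ := hmem A hA
      exact hS i)
    (by
      intro A hA
      obtain ⟨i, rfl⟩ := hmem A hA
      exact hB i)
    (by
      intro A hA
      obtain ⟨i, rfl⟩ := hmem A hA
      exact hnil i) hz₀ hz₀'
  refine ⟨z, hz, hz', fun i => ?_⟩
  have hi : N i ∈ Submodule.span 𝒪 (↑s' : Set (X →ₗ[𝒪] X)) := by
    rw [← hspan]
    exact Submodule.subset_span ⟨i, rfl⟩
  have hall : ∀ A ∈ Submodule.span 𝒪 (↑s' : Set (X →ₗ[𝒪] X)), A z ∈ B := by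
    intro A hA
    induction hA using Submodule.span_induction with
    | mem A hA => exact hker A (Finset.mem_toList.mpr hA)
    | zero => simp
    | add A A' _ _ hA hA' => exact B.add_mem hA hA'
    | smul c A _ hA => exact B.smul_mem c hA
  exact hall _ hi

end CK

section Nat

variable {𝒪 : Type*} [CommRing 𝒪] {X X' : Type*} [AddCommGroup X] [Module 𝒪 X]
  [AddCommGroup X'] [Module 𝒪 X']

/-- The submodule `ϖ X`. -/
def divSub (X : Type*) [AddCommGroup X] [Module 𝒪 X] (ϖ : 𝒪) : Submodule 𝒪 X :=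
  LinearMap.range (LinearMap.lsmul 𝒪 X ϖ)

theorem mem_divSub {ϖ : 𝒪} {x : X} : x ∈ divSub X ϖ ↔ ∃ z : X, x = ϖ • z := by
  constructor
  · rintro ⟨z, rfl⟩
    exact ⟨z, rfl⟩
  · rintro ⟨z, rfl⟩
    exact ⟨z, rfl⟩

theorem map_mem_divSub {ϖ : 𝒪} (f : X →ₗ[𝒪] X') {x : X} (hx : x ∈ divSub X ϖ) :
    f x ∈ divSub X' ϖ := by
  obtain ⟨z, rfl⟩ := mem_divSub.mp hx
  exact mem_divSub.mpr ⟨f z, map_smul f ϖ z⟩

/-- **NAT1.**  An intertwining map sends a submodule on which the operators are nilpotent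
modulo `ϖ` into the localised part of the target. -/
theorem nat_loc [IsNoetherian 𝒪 (X' →ₗ[𝒪] X')] (ϖ : 𝒪)
    (htf : ∀ x : X', ϖ • x = 0 → x = 0)
    (hsep : ∀ x : X', (∀ n : ℕ, ∃ z : X', x = ϖ ^ n • z) → x = 0)
    {ι : Type*} (N : ι → X →ₗ[𝒪] X) (N' : ι → X' →ₗ[𝒪] X')
    (hcomm' : ∀ i j x, N' i (N' j x) = N' j (N' i x))
    (V : Submodule 𝒪 X) (hV : ∀ i, ∀ x ∈ V, N i x ∈ V)
    (hnil : ∀ i, ∃ m : ℕ, ∀ x ∈ V, ∃ z ∈ V, (N i ^ m) x = ϖ • z)
    (e' : X' →ₗ[𝒪] X') (hidem : ∀ x, e' (e' x) = e' x)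
    (hecomm : ∀ i x, e' (N' i x) = N' i (e' x))
    (hfull : ∀ x, e' x = 0 → (∀ i, N' i x ∈ divSub X' ϖ) → x ∈ divSub X' ϖ)
    (f : X →ₗ[𝒪] X') (hf : ∀ i x, f (N i x) = N' i (f x)) :
    ∀ x ∈ V, e' (f x) = f x := by
  -- `g = (1 - e') f`
  set g : X →ₗ[𝒪] X' := f - e'.comp f with hg
  have hgN : ∀ i x, g (N i x) = N' i (g x) := by
    intro i x
    simp only [hg, LinearMap.sub_apply, LinearMap.comp_apply, hf, hecomm, map_sub]
  have heg : ∀ x, e' (g x) = 0 := by
    intro x
    simp only [hg, LinearMap.sub_apply, LinearMap.comp_apply, map_sub, hidem, sub_self]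
  have htfn : ∀ (n : ℕ) (x : X'), ϖ ^ n • x = 0 → x = 0 := by
    intro n
    induction n with
    | zero => exact fun x hx => by simpa using hx
    | succ n ih =>
      intro x hx
      rw [pow_succ, mul_smul] at hx
      exact htf x (ih _ hx)
  have key : ∀ n : ℕ, ∀ v ∈ V, ∃ z : X', g v = ϖ ^ n • z := by
    intro n
    induction n with
    | zero => exact fun v _ => ⟨g v, by simp⟩
    | succ n ih =>
      -- `S = {y | ϖ^n y ∈ g V}`
      let S : Submodule 𝒪 X' :=
        { carrier := {y | ∃ v ∈ V, g v = ϖ ^ n • y}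
          zero_mem' := ⟨0, V.zero_mem, by simp⟩
          add_mem' := by
            rintro a b ⟨v, hv, e1⟩ ⟨w, hw, e2⟩
            exact ⟨v + w, V.add_mem hv hw, by rw [map_add, e1, e2, smul_add]⟩
          smul_mem' := by
            rintro c a ⟨v, hv, e1⟩
            exact ⟨c • v, V.smul_mem c hv, by rw [map_smul, e1, smul_comm]⟩ }
      have hSB : ∀ y ∈ S, y ∈ divSub X' ϖ := by
        by_contra hcon
        simp only [not_forall] at hcon
        obtain ⟨z₀, hz₀, hz₀'⟩ := hcon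
        obtain ⟨z, hz, hz', hker⟩ := exists_common_ker N' hcomm' S (divSub X' ϖ)
          (by
            rintro i y ⟨v, hv, e1⟩
            exact ⟨N i v, hV i v hv, by rw [hgN, e1, map_smul]⟩)
          (fun i x hx => map_mem_divSub (N' i) hx)
          (by
            intro i
            obtain ⟨m, hm⟩ := hnil i
            refine ⟨m, ?_⟩
            rintro y ⟨v, hv, e1⟩
            obtain ⟨v', hv', e2⟩ := hm v hv
            obtain ⟨y', e3⟩ := ih v' hv'
            have hgpow : ∀ (k : ℕ) (x : X), g ((N i ^ k) x) = (N' i ^ k) (g x) := by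
              intro k
              induction k with
              | zero => intro x; simp
              | succ k ihk =>
                intro x
                rw [pow_succ, Module.End.mul_apply, ihk, hgN, pow_succ, Module.End.mul_apply]
            have e4 : ϖ ^ n • ((N' i ^ m) y) = ϖ ^ n • (ϖ • y') := by
              rw [← map_smul, ← e1, ← hgpow, e2, map_smul, e3, smul_comm]
            have e5 : (N' i ^ m) y - ϖ • y' = 0 := by
              apply htfn n
              rw [smul_sub, e4, sub_self]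
            exact mem_divSub.mpr ⟨y', sub_eq_zero.mp e5⟩)
          hz₀ hz₀'
        apply hz'
        apply hfull z _ hker
        obtain ⟨v, hv, e1⟩ := hz
        apply htfn n
        rw [← map_smul, ← e1, heg]
      intro v hv
      obtain ⟨y, e1⟩ := ih v hv
      obtain ⟨y', e2⟩ := mem_divSub.mp (hSB y ⟨v, hv, e1⟩)
      exact ⟨y', by rw [e1, e2, pow_succ, mul_smul]⟩
  intro x hx
  have h0 : g x = 0 := hsep _ (key · x hx)
  have : f x - e' (f x) = 0 := h0
  exact (sub_eq_zero.mp this).symm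

end Nat

end Fermat.Agent.S59.H105
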