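import Fermat.Agent.S59.H105.CtrlCore
import Fermat.Agent.S59.H105.LocAbs

/-!
# Row S59, cell TW, leaf CTRL (helper105): the abstract one-prime step, localised form

* `bijective_of_injective_mod`, `bijOnSub_of_injective_mod` : over a local ring with finite
  residue field and principal maximal ideal `(ϖ)`, an endomorphism of a finite module which is
  injective modulo `ϖ` is bijective;
* `ctrl_loc` : the one-prime control theorem in the form used with localisations: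
  `X = V'` (level `N`, localised at `T_q ≡ α + β`), `X''` a complement inside the localisation
  without the condition at `q` (there `α T - α² - q` is bijective), `P = V` (level `N q`,
  localised at `U_q ≡ α`) with its projector `e`.  Then `P = s_a (X)` and `t₂ : P → X` is
  bijective.
-/

set_option autoImplicit false

namespace Fermat.Agent.S59.H105

open IsLocalRing

section Bij

variable {𝒪 : Type*} [CommRing 𝒪] [IsLocalRing 𝒪]

theorem divSub_eq_smul_top (ϖ : 𝒪) (hϖ : maximalIdeal 𝒪 = Ideal.span {ϖ})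
    (Y : Type*) [AddCommGroup Y] [Module 𝒪 Y] :
    divSub Y ϖ = maximalIdeal 𝒪 • (⊤ : Submodule 𝒪 Y) := by
  rw [hϖ, Submodule.ideal_span_singleton_smul]
  ext x
  rw [mem_divSub, Submodule.mem_smul_pointwise_iff_exists]
  constructor
  · rintro ⟨z, rfl⟩
    exact ⟨z, Submodule.mem_top, rfl⟩
  · rintro ⟨z, _, rfl⟩
    exact ⟨z, rfl⟩

/-- An endomorphism of a finite module which is injective modulo `ϖ` is bijective. -/
theorem bijective_of_injective_mod (ϖ : 𝒪) (hϖ : maximalIdeal 𝒪 = Ideal.span {ϖ})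
    [Finite (ResidueField 𝒪)] {Y : Type*} [AddCommGroup Y] [Module 𝒪 Y] [Module.Finite 𝒪 Y]
    (g : Y →ₗ[𝒪] Y) (hinj : ∀ y, (∃ z, g y = ϖ • z) → ∃ z, y = ϖ • z) :
    Function.Bijective g := by
  set B : Submodule 𝒪 Y := maximalIdeal 𝒪 • (⊤ : Submodule 𝒪 Y) with hB
  have hBd : B = divSub Y ϖ := (divSub_eq_smul_top ϖ hϖ Y).symm
  haveI : Finite (𝒪 ⧸ maximalIdeal 𝒪) := ‹Finite (ResidueField 𝒪)›
  haveI : Finite (Y ⧸ (⊤ : Submodule 𝒪 Y)) := inferInstance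
  haveI : Finite (Y ⧸ B) :=
    Submodule.finite_quotient_smul (maximalIdeal 𝒪) (Module.Finite.fg_top)
  have hle : B ≤ B.comap g := by
    intro x hx
    rw [Submodule.mem_comap, hBd]
    rw [hBd] at hx
    exact map_mem_divSub g hx
  have hqinj : Function.Injective (B.mapQ B g hle) := by
    rw [← LinearMap.ker_eq_bot, LinearMap.ker_eq_bot']
    intro x hx
    obtain ⟨y, rfl⟩ := Submodule.Quotient.mk_surjective B x
    rw [Submodule.mapQ_apply, Submodule.Quotient.mk_eq_zero, hBd, mem_divSub] at hx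
    rw [Submodule.Quotient.mk_eq_zero, hBd, mem_divSub]
    exact hinj y hx
  have hqsurj : Function.Surjective (B.mapQ B g hle) := Finite.injective_iff_surjective.mp hqinj
  have htop : (⊤ : Submodule 𝒪 Y) ≤ LinearMap.range g ⊔ maximalIdeal 𝒪 • ⊤ := by
    intro y _
    obtain ⟨x, hx⟩ := hqsurj (Submodule.Quotient.mk y)
    obtain ⟨y', rfl⟩ := Submodule.Quotient.mk_surjective B x
    rw [Submodule.mapQ_apply, Submodule.Quotient.eq] at hx
    have : y = g y' + -(g y' - y) := by abel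
    rw [this]
    exact Submodule.add_mem_sup (LinearMap.mem_range_self g y') (B.neg_mem hx)
  have hsurj : Function.Surjective g := by
    rw [← LinearMap.range_eq_top]
    exact top_le_iff.mp (Submodule.le_of_le_smul_of_le_jacobson_bot Module.Finite.fg_top
      (IsLocalRing.jacobson_eq_maximalIdeal ⊥ bot_ne_top).ge htop)
  exact ⟨OrzechProperty.injective_of_surjective_endomorphism g hsurj, hsurj⟩

/-- Submodule form of `bijective_of_injective_mod`. -/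
theorem bijOnSub_of_injective_mod (ϖ : 𝒪) (hϖ : maximalIdeal 𝒪 = Ideal.span {ϖ})
    [Finite (ResidueField 𝒪)] {X : Type*} [AddCommGroup X] [Module 𝒪 X]
    (V : Submodule 𝒪 X) [Module.Finite 𝒪 V] (hsat : ∀ x : X, ϖ • x ∈ V → x ∈ V)
    (g : X →ₗ[𝒪] X) (hV : ∀ x ∈ V, g x ∈ V)
    (hinj : ∀ x ∈ V, (∃ z : X, g x = ϖ • z) → ∃ z : X, x = ϖ • z) :
    BijOnSub g V := by
  have hb := bijective_of_injective_mod ϖ hϖ (g.restrict hV) (by
    rintro ⟨y, hy⟩ ⟨⟨z, hz⟩, e⟩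
    have e' : g y = ϖ • z := congrArg Subtype.val e
    obtain ⟨z', rfl⟩ := hinj y hy ⟨z, e'⟩
    exact ⟨⟨z', hsat z' hy⟩, rfl⟩)
  refine ⟨hV, ?_, ?_⟩
  · intro x hx e
    have := hb.1 (a₁ := ⟨x, hx⟩) (a₂ := 0) (by
      apply Subtype.ext
      simpa using e)
    exact congrArg Subtype.val this
  · intro x hx
    obtain ⟨⟨x', hx'⟩, e⟩ := hb.2 ⟨x, hx⟩
    exact ⟨x', hx', congrArg Subtype.val e⟩

end Bij

section Core

variable {Λ : Type*} [CommRing Λ] {HN HQ : Type*} [AddCommGroup HN] [Module Λ HN]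
  [AddCommGroup HQ] [Module Λ HQ]
  {q : ℕ} {r₁ r₂ : HN →ₗ[Λ] HQ} {t₁ t₂ : HQ →ₗ[Λ] HN} {T : HN →ₗ[Λ] HN}
  {U : HQ →ₗ[Λ] HQ} {X : Submodule Λ HN} {a b : HN →ₗ[Λ] HN}

theorem BijOnSub.exists_iterate {M : Type*} [AddCommGroup M] [Module Λ M] {f : M →ₗ[Λ] M}
    {X : Submodule Λ M} (hf : BijOnSub f X) (k : ℕ) :
    ∀ x ∈ X, ∃ x' ∈ X, f^[k] x' = x := by
  induction k with
  | zero => exact fun x hx => ⟨x, hx, rfl⟩
  | succ k ih =>
    intro x hx
    obtain ⟨x₁, hx₁, e₁⟩ := ih x hx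
    obtain ⟨x₂, hx₂, e₂⟩ := hf.surj x₁ hx₁
    exact ⟨x₂, hx₂, by rw [Function.iterate_succ_apply, e₂, e₁]⟩

/-- `(U - α) (r₁ x₁ + r₂ x₂) = r₁ (T x₁ + q x₂ - α x₁) + r₂ (- x₁ - α x₂)`. -/
theorem shift_old (h : DegRel q r₁ r₂ t₁ t₂ T U) (α : Λ) (x₁ x₂ : HN) :
    (shiftBy U α) (r₁ x₁ + r₂ x₂) =
      r₁ (T x₁ + q • x₂ - α • x₁) + r₂ (-x₁ - α • x₂) := by
  rw [shiftBy_apply, map_add, h.Ur₁, h.Ur₂]
  simp only [map_sub, map_add, map_smul, map_neg, map_nsmul, smul_add]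
  abel

/-- Old classes coming from `X''` are in the image of every power of `U - α`. -/
theorem old_eq_iterate (h : DegRel q r₁ r₂ t₁ t₂ T U) (α : Λ) (X'' : Submodule Λ HN)
    (hT : ∀ x ∈ X'', T x ∈ X'')
    (hg : BijOnSub (α • T - (α ^ 2 + (q : Λ)) • LinearMap.id) X'') (k : ℕ) :
    ∀ x₁ ∈ X'', ∀ x₂ ∈ X'', ∃ x₁' ∈ X'', ∃ x₂' ∈ X'',
      r₁ x₁ + r₂ x₂ = (shiftBy U α)^[k] (r₁ x₁' + r₂ x₂') := by
  induction k with
  | zero => exact fun x₁ h₁ x₂ h₂ => ⟨x₁, h₁, x₂, h₂, rfl⟩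
  | succ k ih =>
    intro x₁ h₁ x₂ h₂
    obtain ⟨y₁, hy₁, y₂, hy₂, e⟩ := ih x₁ h₁ x₂ h₂
    -- solve `(A - α) (z₁, z₂) = (y₁, y₂)`
    obtain ⟨w, hw, ew⟩ := hg.surj (y₁ + T y₂ - α • y₂)
      (X''.sub_mem (X''.add_mem hy₁ (hT _ hy₂)) (X''.smul_mem α hy₂))
    have ew' : α • T w - (α ^ 2 + (q : Λ)) • w = y₁ + T y₂ - α • y₂ := by
      simpa using ew
    refine ⟨-y₂ + α • w, X''.add_mem (X''.neg_mem hy₂) (X''.smul_mem α hw), -w,
      X''.neg_mem hw, ?_⟩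
    rw [Function.iterate_succ_apply, shift_old h, e]
    congr 2
    · have : T (-y₂ + α • w) + q • (-w) - α • (-y₂ + α • w) =
          (α • T w - (α ^ 2 + (q : Λ)) • w) - T y₂ + α • y₂ := by
        simp only [map_add, map_neg, map_smul, smul_add, smul_neg, add_smul, smul_smul,
          pow_two, Nat.cast_smul_eq_nsmul]
        abel
      rw [this, ew']
      abel
    · simp only [smul_neg]
      abel

/-- **TW-CTRL, localised abstract form.** -/
theorem ctrl_loc (h : DegRel q r₁ r₂ t₁ t₂ T U) (hp : HenselPair X q T a b) (α ϖ : Λ)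
    (hab : BijOnSub (a - b) X) (ha2 : BijOnSub (oneSubSq a) X)
    (hbα : BijOnSub (shiftBy b α) X)
    (X'' : Submodule Λ HN) (hT : ∀ x ∈ X'', T x ∈ X'')
    (hg : BijOnSub (α • T - (α ^ 2 + (q : Λ)) • LinearMap.id) X'')
    (P : Submodule Λ HQ) (e : HQ →ₗ[Λ] HQ) (heP : ∀ y, e y ∈ P) (heid : ∀ y ∈ P, e y = y)
    (heU : ∀ y, e (U y) = U (e y))
    (hsep : SepOn P ϖ) (hnil : NilpOn (shiftBy U α) P ϖ)
    (hsurj : ∀ y ∈ P, ∃ y' ∈ P, U (U y') - y' = y)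
    (ht₁ : ∀ y ∈ P, ∃ x' ∈ X, ∃ x'' ∈ X'', t₁ y = x' + x'')
    (ht₂ : ∀ y ∈ P, ∃ x' ∈ X, ∃ x'' ∈ X'', t₂ y = x' + x'')
    (hsa : ∀ x ∈ X, sOld r₁ r₂ a x ∈ P) :
    (∀ y ∈ P, ∃ u ∈ X, y = sOld r₁ r₂ a u) ∧
    (∀ y ∈ P, t₂ y = 0 → y = 0) ∧ (∀ x ∈ X, ∃ y ∈ P, t₂ y = x) := by
  have heN : ∀ y, e ((shiftBy U α) y) = (shiftBy U α) (e y) := by
    intro y
    rw [shiftBy_apply, shiftBy_apply, map_sub, heU, map_smul]
  have heNk : ∀ (k : ℕ) (y : HQ), e ((shiftBy U α)^[k] y) = (shiftBy U α)^[k] (e y) := by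
    intro k
    induction k with
    | zero => exact fun y => rfl
    | succ k ih =>
      intro y
      rw [Function.iterate_succ_apply, Function.iterate_succ_apply, ih, heN]
  -- vectors in the image of all powers of `U - α` die under `e`
  have hkill : ∀ w : HQ, (∀ k : ℕ, ∃ w' : HQ, w = (shiftBy U α)^[k] w') → e w = 0 := by
    intro w hw
    apply hsep (e w) (heP w)
    intro n
    obtain ⟨k, hk⟩ := hnil.pow n
    obtain ⟨w', rfl⟩ := hw k
    rw [heNk]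
    exact hk (e w') (heP w')
  have hC : ∀ y ∈ P, ∃ u ∈ X, y = sOld r₁ r₂ a u := by
    intro y hy
    obtain ⟨y', hy', ey⟩ := hsurj y hy
    obtain ⟨x₁', hx₁', x₁'', hx₁'', e₁⟩ := ht₁ y' hy'
    obtain ⟨x₂', hx₂', x₂'', hx₂'', e₂⟩ := ht₂ y' hy'
    have hξ₁ : T x₂' - x₁' ∈ X := X.sub_mem (hp.T_mem _ hx₂') hx₁'
    have hξ₂ : -x₂' ∈ X := X.neg_mem hx₂'
    obtain ⟨u, hu, v, hv, euv⟩ := old_eq_sOld_add (r₁ := r₁) (r₂ := r₂) hp hab hξ₁ hξ₂
    have hη₁ : T x₂'' - x₁'' ∈ X'' := X''.sub_mem (hT _ hx₂'') hx₁''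
    have hη₂ : -x₂'' ∈ X'' := X''.neg_mem hx₂''
    have ey' : y = sOld r₁ r₂ a u + sOld r₁ r₂ b v +
        (r₁ (T x₂'' - x₁'') + r₂ (-x₂'')) := by
      rw [← ey, UU_sub h, ← euv, e₁, e₂]
      simp only [map_add, map_sub, map_neg]
      abel
    have k1 : e (sOld r₁ r₂ b v) = 0 := by
      apply hkill
      intro k
      obtain ⟨v', hv', ev⟩ := hbα.exists_iterate k v hv
      exact ⟨sOld r₁ r₂ b v', by rw [iterate_sub_smul_sOld h hp.symm α k hv', ev]⟩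
    have k2 : e (r₁ (T x₂'' - x₁'') + r₂ (-x₂'')) = 0 := by
      apply hkill
      intro k
      obtain ⟨z₁, _, z₂, _, ez⟩ := old_eq_iterate h α X'' hT hg k _ hη₁ _ hη₂
      exact ⟨_, ez⟩
    refine ⟨u, hu, ?_⟩
    have := congrArg e ey'
    rw [heid y hy, map_add, map_add, k1, k2, add_zero, add_zero, heid _ (hsa u hu)] at this
    exact this
  refine ⟨hC, ?_, ?_⟩
  · intro y hy e0
    obtain ⟨u, hu, rfl⟩ := hC y hy
    rw [t₂_sOld h hp hu] at e0
    have : u = 0 := ha2.inj u hu (by rw [oneSubSq_apply]; exact e0)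
    rw [this, map_zero]
  · intro x hx
    obtain ⟨u, hu, eu⟩ := ha2.surj x hx
    refine ⟨sOld r₁ r₂ a u, hsa u hu, ?_⟩
    rw [t₂_sOld h hp hu, ← eu, oneSubSq_apply]

end Core

end Fermat.Agent.S59.H105
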