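import Fermat.Agent.S59.TW.Aut.Spec
import Fermat.Agent.S59.TW.H653.Comm.Main
import Fermat.Agent.S59.MFree.H761.FreeAbs
import Fermat.Agent.S59.H105.LocAbs
import Fermat.Agent.S59.H105.CtrlLoc

/-!
# Row S59, cell TW, leaf CTRL (helper105): from `Aut.IsLocPart` to the abstract lemmas

* `TKL`, `UKL` : `T_ℓ`, `U_q` of helper653 as `𝒪`-linear maps of `X_K(𝒪) = Hom(K, 𝒪)`;
* `xk_torsionFree`, `xk_sep`, `xk_isNoetherian_end` : `X_K(𝒪)` is torsion-free, separated, and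
  its endomorphisms form a noetherian module;
* `exists_uniformizer` ; `isLocPart_data`, `isLocPart_nilpT`, `isLocPart_nilpU` : the content of
  `Aut.IsLocPart` in the form used by `nat_loc` / `ctrl_loc`.
-/

set_option autoImplicit false

namespace Fermat.Agent.S59.H105

open IsLocalRing CongruenceSubgroup
open Fermat.Agent.S59.TW.H653 Fermat.Agent.S59.TW.Aut
open scoped MatrixGroups

section Lin

variable {M : ℕ} {K : Subgroup SL(2, ℤ)} (hK : IsMid M K) (𝒪 : Type) [CommRing 𝒪]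

theorem smul_eq_mulLeft_comp {G : Type*} [AddMonoid G] (a : 𝒪) (φ : G →+ 𝒪) :
    a • φ = (AddMonoidHom.mulLeft a).comp φ := by
  ext h
  rfl

/-- `T_ℓ` on `X_K(𝒪)`, linear. -/
noncomputable def TKL {ℓ : ℕ} [Fact ℓ.Prime] (hℓ : ¬ ℓ ∣ M) :
    (Additive K →+ 𝒪) →ₗ[𝒪] (Additive K →+ 𝒪) where
  toFun φ := TK M K ℓ φ
  map_add' := TK_add hK hℓ
  map_smul' a φ := by
    rw [RingHom.id_apply, smul_eq_mulLeft_comp, smul_eq_mulLeft_comp]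
    exact TK_comp hK hℓ _ φ

/-- `U_q` on `X_K(𝒪)`, linear. -/
noncomputable def UKL {q : ℕ} [Fact q.Prime] (hq : q ∣ M) :
    (Additive K →+ 𝒪) →ₗ[𝒪] (Additive K →+ 𝒪) where
  toFun φ := UK K q φ
  map_add' := UK_add hK hq
  map_smul' a φ := by
    rw [RingHom.id_apply, smul_eq_mulLeft_comp, smul_eq_mulLeft_comp]
    exact UK_comp hK hq _ φ

@[simp] theorem TKL_apply {ℓ : ℕ} [Fact ℓ.Prime] (hℓ : ¬ ℓ ∣ M) (φ : Additive K →+ 𝒪) :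
    TKL hK 𝒪 hℓ φ = TK M K ℓ φ := rfl

@[simp] theorem UKL_apply {q : ℕ} [Fact q.Prime] (hq : q ∣ M) (φ : Additive K →+ 𝒪) :
    UKL hK 𝒪 hq φ = UK K q φ := rfl

/-- `f - c`. -/
def shiftE {X : Type*} [AddCommGroup X] [Module 𝒪 X] (f : X →ₗ[𝒪] X) (c : 𝒪) : X →ₗ[𝒪] X :=
  f - c • (1 : X →ₗ[𝒪] X)

variable {𝒪}

@[simp] theorem shiftE_apply {X : Type*} [AddCommGroup X] [Module 𝒪 X] (f : X →ₗ[𝒪] X) (c : 𝒪)
    (x : X) : shiftE 𝒪 f c x = f x - c • x := rfl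

theorem shiftE_comm {X : Type*} [AddCommGroup X] [Module 𝒪 X] (f g : X →ₗ[𝒪] X) (c d : 𝒪)
    (h : ∀ x, f (g x) = g (f x)) (x : X) :
    shiftE 𝒪 f c (shiftE 𝒪 g d x) = shiftE 𝒪 g d (shiftE 𝒪 f c x) := by
  simp only [shiftE_apply, map_sub, map_smul, h, smul_sub]
  rw [smul_comm d c x]
  abel

theorem shiftE_pow_apply {X : Type*} [AddCommGroup X] [Module 𝒪 X] (f : X →ₗ[𝒪] X) (c : 𝒪)
    (m : ℕ) (x : X) : (shiftE 𝒪 f c ^ m) x = (fun y => f y - c • y)^[m] x := by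
  rw [Module.End.pow_apply]
  rfl

end Lin

section Facts

variable {𝒪 : Type} [CommRing 𝒪] [IsDomain 𝒪] [IsDiscreteValuationRing 𝒪]

theorem exists_uniformizer (𝒪 : Type) [CommRing 𝒪] [IsDomain 𝒪] [IsDiscreteValuationRing 𝒪] :
    ∃ ϖ : 𝒪, ϖ ≠ 0 ∧ maximalIdeal 𝒪 = Ideal.span {ϖ} := by
  obtain ⟨ϖ, hϖ⟩ := IsDiscreteValuationRing.exists_irreducible 𝒪
  exact ⟨ϖ, hϖ.ne_zero, hϖ.maximalIdeal_eq⟩

theorem xk_torsionFree {G : Type*} [AddMonoid G] {ϖ : 𝒪} (hϖ0 : ϖ ≠ 0) (φ : G →+ 𝒪)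
    (h : ϖ • φ = 0) : φ = 0 := by
  refine AddMonoidHom.ext fun g => ?_
  have h1 : ϖ * φ g = 0 := by
    have := congrArg (fun ψ : G →+ 𝒪 => ψ g) h
    simpa using this
  rcases mul_eq_zero.mp h1 with h2 | h2
  · exact absurd h2 hϖ0
  · exact h2

theorem o_sep [IsAdicComplete (maximalIdeal 𝒪) 𝒪] {ϖ : 𝒪}
    (hϖ : maximalIdeal 𝒪 = Ideal.span {ϖ}) (x : 𝒪) (h : ∀ n : ℕ, ∃ z : 𝒪, x = ϖ ^ n • z) :
    x = 0 := by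
  apply IsHausdorff.haus (‹IsAdicComplete (maximalIdeal 𝒪) 𝒪›).toIsHausdorff x
  intro n
  rw [SModEq.sub_mem, sub_zero, hϖ, Ideal.span_singleton_pow, smul_eq_mul, Ideal.mul_top,
    Ideal.mem_span_singleton]
  obtain ⟨z, rfl⟩ := h n
  exact Dvd.intro _ rfl

theorem xk_sep [IsAdicComplete (maximalIdeal 𝒪) 𝒪] {G : Type*} [AddMonoid G] {ϖ : 𝒪}
    (hϖ : maximalIdeal 𝒪 = Ideal.span {ϖ}) (φ : G →+ 𝒪)
    (h : ∀ n : ℕ, ∃ ψ : G →+ 𝒪, φ = ϖ ^ n • ψ) : φ = 0 := by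
  refine AddMonoidHom.ext fun g => o_sep hϖ _ fun n => ?_
  obtain ⟨ψ, rfl⟩ := h n
  exact ⟨ψ g, rfl⟩

theorem finiteIndex_of_isMid {M : ℕ} (hM : M ≠ 0) {K : Subgroup SL(2, ℤ)} (hK : IsMid M K) :
    K.FiniteIndex := by
  haveI : NeZero M := ⟨hM⟩
  exact Subgroup.finiteIndex_of_le hK.ge

theorem xk_finite_free {M : ℕ} (hM : M ≠ 0) {K : Subgroup SL(2, ℤ)} (hK : IsMid M K)
    (V : Submodule 𝒪 (Additive K →+ 𝒪)) : Module.Finite 𝒪 V ∧ Module.Free 𝒪 V := by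
  haveI := finiteIndex_of_isMid hM hK
  exact MFree.H761.finite_free_submodule K V

theorem xk_finite_free_top {M : ℕ} (hM : M ≠ 0) {K : Subgroup SL(2, ℤ)} (hK : IsMid M K) :
    Module.Finite 𝒪 (Additive K →+ 𝒪) ∧ Module.Free 𝒪 (Additive K →+ 𝒪) := by
  obtain ⟨h1, h2⟩ := xk_finite_free (𝒪 := 𝒪) hM hK ⊤
  exact ⟨Module.Finite.equiv (Submodule.topEquiv (R := 𝒪) (M := Additive K →+ 𝒪)),
    Module.Free.of_equiv (Submodule.topEquiv (R := 𝒪) (M := Additive K →+ 𝒪))⟩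

theorem xk_isNoetherian_end {M : ℕ} (hM : M ≠ 0) {K : Subgroup SL(2, ℤ)} (hK : IsMid M K) :
    IsNoetherian 𝒪 ((Additive K →+ 𝒪) →ₗ[𝒪] (Additive K →+ 𝒪)) := by
  obtain ⟨h1, h2⟩ := xk_finite_free_top (𝒪 := 𝒪) hM hK
  exact isNoetherian_of_isNoetherianRing_of_finite 𝒪
    ((Additive K →+ 𝒪) →ₗ[𝒪] (Additive K →+ 𝒪))

end Facts

section Data

variable {M : ℕ} {K : Subgroup SL(2, ℤ)} (hK : IsMid M K)
  {𝒪 : Type} [CommRing 𝒪] [IsLocalRing 𝒪]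

theorem mem_mX_iff {ϖ : 𝒪} (hϖ : maximalIdeal 𝒪 = Ideal.span {ϖ}) (x : Additive K →+ 𝒪) :
    x ∈ mX K 𝒪 ↔ ∃ z : Additive K →+ 𝒪, x = ϖ • z := by
  unfold mX
  rw [← divSub_eq_smul_top ϖ hϖ, mem_divSub]

/-- The projector of a localisation, with its properties in linear form. -/
theorem isLocPart_data {Tset Uset : Set (ℕ × 𝒪)} {V : Submodule 𝒪 (Additive K →+ 𝒪)}
    (h : IsLocPart hK Tset Uset V) {ϖ : 𝒪} (hϖ : maximalIdeal 𝒪 = Ideal.span {ϖ}) :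
    ∃ e : (Additive K →+ 𝒪) →ₗ[𝒪] (Additive K →+ 𝒪),
      (∀ x, e (e x) = e x) ∧ (∀ x, e x ∈ V) ∧ (∀ x ∈ V, e x = x) ∧
      (∀ (ℓ : ℕ) [Fact ℓ.Prime] (hℓ : ¬ ℓ ∣ M) (x : Additive K →+ 𝒪),
        e (TKL hK 𝒪 hℓ x) = TKL hK 𝒪 hℓ (e x)) ∧
      (∀ (q : ℕ) [Fact q.Prime] (hq : q ∣ M) (x : Additive K →+ 𝒪),
        e (UKL hK 𝒪 hq x) = UKL hK 𝒪 hq (e x)) ∧
      ∀ x, e x = 0 →
        (∀ (ℓ : ℕ) [Fact ℓ.Prime] (c : 𝒪), (ℓ, c) ∈ Tset →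
          ∃ z : Additive K →+ 𝒪, TK M K ℓ x - c • x = ϖ • z) →
        (∀ (q : ℕ) [Fact q.Prime] (α : 𝒪), (q, α) ∈ Uset →
          ∃ z : Additive K →+ 𝒪, UK K q x - α • x = ϖ • z) →
        ∃ z : Additive K →+ 𝒪, x = ϖ • z := by
  obtain ⟨e, h1, h2, h3, h4, h5, _, h7⟩ := h.exists_proj
  refine ⟨e, h1, h2, h3, fun ℓ _ hℓ x => h4 ℓ hℓ x, fun q _ hq x => h5 q hq x, ?_⟩
  intro x hx hT hU
  rw [← mem_mX_iff hϖ]
  refine h7 x hx ?_ ?_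
  · intro ℓ _ c hc
    rw [mem_mX_iff hϖ]
    exact hT ℓ c hc
  · intro q _ α hα
    rw [mem_mX_iff hϖ]
    exact hU q α hα

/-- Saturation of the image of a projector. -/
theorem exists_mem_of_eq_smul {X : Type*} [AddCommGroup X] [Module 𝒪 X] {V : Submodule 𝒪 X}
    (e : X →ₗ[𝒪] X) (h2 : ∀ x, e x ∈ V) (h3 : ∀ x ∈ V, e x = x) {ϖ : 𝒪} {x z : X}
    (hx : x ∈ V) (hz : x = ϖ • z) : ∃ z' ∈ V, x = ϖ • z' :=
  ⟨e z, h2 z, by rw [← map_smul, ← hz, h3 x hx]⟩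

theorem isLocPart_nilpT {Tset Uset : Set (ℕ × 𝒪)} {V : Submodule 𝒪 (Additive K →+ 𝒪)}
    (h : IsLocPart hK Tset Uset V) {ϖ : 𝒪} (hϖ : maximalIdeal 𝒪 = Ideal.span {ϖ})
    {ℓ : ℕ} [Fact ℓ.Prime] (hℓ : ¬ ℓ ∣ M) {c : 𝒪} (hc : (ℓ, c) ∈ Tset) :
    ∃ m : ℕ, ∀ x ∈ V, ∃ z ∈ V, (shiftE 𝒪 (TKL hK 𝒪 hℓ) c ^ m) x = ϖ • z := by
  obtain ⟨e, h1, h2, h3, h4, h5, _⟩ := isLocPart_data hK h hϖ
  obtain ⟨m, hm⟩ := h.nilp_T ℓ c hc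
  refine ⟨m, fun x hx => ?_⟩
  have hmem : (shiftE 𝒪 (TKL hK 𝒪 hℓ) c ^ m) x ∈ V := by
    apply pow_mem_of_mem _ V _ m x hx
    intro y hy
    rw [shiftE_apply]
    refine V.sub_mem ?_ (V.smul_mem c hy)
    rw [← h3 y hy, ← h4 ℓ hℓ]
    exact h2 _
  obtain ⟨z, hz⟩ := (mem_mX_iff hϖ _).mp (hm x hx)
  exact exists_mem_of_eq_smul e h2 h3 hmem (by rw [shiftE_pow_apply]; exact hz)

theorem isLocPart_nilpU {Tset Uset : Set (ℕ × 𝒪)} {V : Submodule 𝒪 (Additive K →+ 𝒪)}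
    (h : IsLocPart hK Tset Uset V) {ϖ : 𝒪} (hϖ : maximalIdeal 𝒪 = Ideal.span {ϖ})
    {q : ℕ} [Fact q.Prime] (hq : q ∣ M) {α : 𝒪} (hα : (q, α) ∈ Uset) :
    ∃ m : ℕ, ∀ x ∈ V, ∃ z ∈ V, (shiftE 𝒪 (UKL hK 𝒪 hq) α ^ m) x = ϖ • z := by
  obtain ⟨e, h1, h2, h3, h4, h5, _⟩ := isLocPart_data hK h hϖ
  obtain ⟨m, hm⟩ := h.nilp_U q α hα
  refine ⟨m, fun x hx => ?_⟩
  have hmem : (shiftE 𝒪 (UKL hK 𝒪 hq) α ^ m) x ∈ V := by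
    apply pow_mem_of_mem _ V _ m x hx
    intro y hy
    rw [shiftE_apply]
    refine V.sub_mem ?_ (V.smul_mem α hy)
    rw [← h3 y hy, ← h5 q hq]
    exact h2 _
  obtain ⟨z, hz⟩ := (mem_mX_iff hϖ _).mp (hm x hx)
  exact exists_mem_of_eq_smul e h2 h3 hmem (by rw [shiftE_pow_apply]; exact hz)

end Data

end Fermat.Agent.S59.H105
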