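import Fermat.Agent.S59.H105.Ctrl
import Fermat.Agent.S59.TW.Aut.H779.FreeQ

/-!
# Row S59, cell TW, AUT layer 3, leaf CTRL — closed (helper105)

`ctrl : Aut.CtrlStatement`, unconditional: `ctrl_of_free` applied to helper779's
`freeQ_h779 : Aut.FreeQStatement`.
-/

set_option autoImplicit false

namespace Fermat.Agent.S59.H105

open Fermat.Agent.S59.TW.Aut

/-- **CTRL**, the leaf of `TW/Aut/Spec.lean`, verbatim. -/
theorem ctrl : CtrlStatement := ctrl_of_free H779.freeQ_h779

end Fermat.Agent.S59.H105
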