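import Fermat.Agent.S59.H105.NatLoc
import Fermat.Agent.S59.TW.Aut.H762.Cor

/-!
# Row S59, cell TW, leaf CTRL (helper105): `cor` and `res` respect the localisations

For `K_Q ≤ Γ₀(M_Q)`: if `V` is the localisation of `X_{K_Q}(𝒪)` and `W` the localisation of
`X_{Γ₀(M_Q)}(𝒪)` at the same generators, then `cor V ⊆ W` and `res W ⊆ V` (the hypotheses `hcor`,
`hres` of helper762's `cor_ctrl_locPart_h762`).
-/

set_option autoImplicit false

namespace Fermat.Agent.S59.H105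

open IsLocalRing CongruenceSubgroup
open Fermat.Agent.S29.H642 Fermat.Agent.S41 Fermat.Agent.S41.Spec
open Fermat.Agent.S59.TW.H653 Fermat.Agent.S59.TW.Aut
open scoped MatrixGroups

section Lin

variable (𝒪 : Type) [CommRing 𝒪] {K K' : Subgroup SL(2, ℤ)}

/-- `coresK` as a linear map. -/
noncomputable def coresKL (h : K' ≤ K) : (Additive K' →+ 𝒪) →ₗ[𝒪] (Additive K →+ 𝒪) where
  toFun := coresK h
  map_add' φ ψ := H581.transferAlong_add (Subgroup.inclusion h) φ ψ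
  map_smul' c φ := by
    rw [smul_eq_coeffSmul_comp]
    exact H581.transferAlong_comp (Subgroup.inclusion h) (coeffSmul 𝒪 𝒪 c) φ

/-- `resK` as a linear map. -/
def resKL (h : K' ≤ K) : (Additive K →+ 𝒪) →ₗ[𝒪] (Additive K' →+ 𝒪) where
  toFun := resK h
  map_add' _ _ := rfl
  map_smul' _ _ := rfl

@[simp] theorem coresKL_apply (h : K' ≤ K) (φ : Additive K' →+ 𝒪) :
    coresKL 𝒪 h φ = coresK h φ := rfl

@[simp] theorem resKL_apply (h : K' ≤ K) (φ : Additive K →+ 𝒪) :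
    resKL 𝒪 h φ = resK h φ := rfl

end Lin

section

variable {𝒪 : Type} [CommRing 𝒪] [IsDomain 𝒪] [IsDiscreteValuationRing 𝒪]
  [IsAdicComplete (maximalIdeal 𝒪) 𝒪]

/-- `cor V ⊆ W` and `res W ⊆ V`. -/
theorem cor_res_mem_of_isLocPart (p N₀ : ℕ) {r : ℕ} (qv : Fin r → ℕ)
    (hM : bLevel N₀ qv ≠ 0) {Tset Uset : Set (ℕ × 𝒪)}
    (hT : ∀ x ∈ Tset, x.1.Prime ∧ ¬ x.1 ∣ bLevel N₀ qv)
    (hU : ∀ x ∈ Uset, x.1.Prime ∧ x.1 ∣ bLevel N₀ qv)
    {V : Submodule 𝒪 (Additive (KQ p N₀ qv) →+ 𝒪)}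
    (hV : IsLocPart (isMid_KQ p N₀ qv) Tset Uset V)
    {W : Submodule 𝒪 (Additive (Gamma0 (bLevel N₀ qv)) →+ 𝒪)}
    (hW : IsLocPart (isMid_Gamma0 (bLevel N₀ qv)) Tset Uset W) :
    (∀ x ∈ V, coresK (isMid_KQ p N₀ qv).le x ∈ W) ∧
      (∀ y ∈ W, resK (isMid_KQ p N₀ qv).le y ∈ V) := by
  constructor
  · refine nat_of_isLocPart hM (isMid_KQ p N₀ qv) (isMid_Gamma0 _) hV hW subset_rfl subset_rfl
      hT hU hT hU (coresKL 𝒪 (isMid_KQ p N₀ qv).le) ?_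
    rintro (i | i) x
    · haveI : Fact i.1.1.Prime := ⟨(hT i.1 i.2).1⟩
      show coresK _ (TK _ _ i.1.1 x - i.1.2 • x) = TK _ _ i.1.1 (coresK _ x) - i.1.2 • coresK _ x
      rw [← H762.coresK_TK_h762 p N₀ qv (hT i.1 i.2).2 x]
      exact ((coresKL 𝒪 (isMid_KQ p N₀ qv).le).map_sub _ _).trans
        (congrArg _ ((coresKL 𝒪 (isMid_KQ p N₀ qv).le).map_smul _ _))
    · haveI : Fact i.1.1.Prime := ⟨(hU i.1 i.2).1⟩
      show coresK _ (UK _ i.1.1 x - i.1.2 • x) = UK _ i.1.1 (coresK _ x) - i.1.2 • coresK _ x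
      rw [← H762.coresK_UK_h762 p N₀ qv (hU i.1 i.2).2 x]
      exact ((coresKL 𝒪 (isMid_KQ p N₀ qv).le).map_sub _ _).trans
        (congrArg _ ((coresKL 𝒪 (isMid_KQ p N₀ qv).le).map_smul _ _))
  · refine nat_of_isLocPart hM (isMid_Gamma0 _) (isMid_KQ p N₀ qv) hW hV subset_rfl subset_rfl
      hT hU hT hU (resKL 𝒪 (isMid_KQ p N₀ qv).le) ?_
    rintro (i | i) x
    · haveI : Fact i.1.1.Prime := ⟨(hT i.1 i.2).1⟩
      show resK _ (TK _ _ i.1.1 x - i.1.2 • x) = TK _ _ i.1.1 (resK _ x) - i.1.2 • resK _ x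
      rw [resK_TK (isMid_Gamma0 _) (isMid_KQ p N₀ qv) _ (hT i.1 i.2).2 x]
      rfl
    · haveI : Fact i.1.1.Prime := ⟨(hU i.1 i.2).1⟩
      show resK _ (UK _ i.1.1 x - i.1.2 • x) = UK _ i.1.1 (resK _ x) - i.1.2 • resK _ x
      rw [resK_UK (isMid_Gamma0 _) (isMid_KQ p N₀ qv) _ (hU i.1 i.2).2 x]
      rfl

end

end Fermat.Agent.S59.H105
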