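import Fermat.Agent.S59.H105.Dict
import Fermat.Agent.S59.H105.Cross
import Fermat.Agent.S59.H105.CorNat
import Fermat.Agent.S59.TW.Aut.H511.Idem

/-!
# Row S59, cell TW, AUT layer 3, leaf CTRL (helper105)

`ctrl_of_free : Aut.FreeQStatement → Aut.CtrlStatement`.

`π : V → V₀` is the composite of

* the corestriction `cor : V → W` (helper762, `cor_ctrl_locPart_h762`: onto, kernel `I_Δ V`, from
  `FreeAt V`), `W` = the localisation of `X_{Γ₀(M_Q)}(𝒪)` at `(θ, U_{q_j} - α_j)`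
  (`cor V ⊆ W`, `res W ⊆ V`: `cor_res_mem_of_isLocPart`);
* the chain of transfers `t₂ : W ≅ V₀` (`iter_chain`; one-prime step `one_step`; the cross-level
  commutation `cross` is helper719's).
-/

set_option autoImplicit false

namespace Fermat.Agent.S59.H105

open IsLocalRing CongruenceSubgroup
open Fermat.Agent.S59.Arch Fermat.Agent.S59.TW Fermat.Agent.S59.TW.H959
open Fermat.Agent.S59.TW.H653 Fermat.Agent.S59.TW.Aut
open scoped MatrixGroups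

/-- **CTRL** from **FREE**. -/
theorem ctrl_of_free (hfree : FreeQStatement) : CtrlStatement := by
  intro p _ 𝒪 _ _ _ _ _ _ ρbar Smin h t ht _ P₀ n r qv hq _ PQ res hres α hα V₀ V hV₀ hV
  have hN₀ : wilesLevel p t Smin Smin ≠ 0 := NeZero.ne _
  have hinj : Function.Injective qv := hq.1
  have hprime : ∀ j, (qv j).Prime := fun j => (hq.2.1 j).1
  obtain ⟨hqN, hqu, β, c, hcT, hcq, hsum, hprod, hαβ, hα1, hβ1⟩ := frob_data h hq P₀ α hα
  have hM : bLevel (wilesLevel p t Smin Smin) qv ≠ 0 :=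
    Nat.mul_ne_zero hN₀ (Finset.prod_ne_zero_iff.mpr fun j _ => (hprime j).ne_zero)
  have hT₀ : ∀ x ∈ TsetOf P₀, x.1.Prime ∧ ¬ x.1 ∣ wilesLevel p t Smin Smin :=
    fun x hx => ⟨hx.1, hx.2.1⟩
  have hTQ : ∀ x ∈ TsetOf PQ, x.1.Prime ∧ ¬ x.1 ∣ bLevel (wilesLevel p t Smin Smin) qv := by
    rintro x ⟨h1, h2, h3, _⟩
    exact ⟨h1, not_dvd_bLevel h1 hprime h2 h3⟩
  have hUQ : ∀ x ∈ UsetOf qv α, x.1.Prime ∧ x.1 ∣ bLevel (wilesLevel p t Smin Smin) qv := by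
    rintro x ⟨j, rfl⟩
    exact ⟨hprime j, dvd_bLevel _ qv j⟩
  obtain ⟨W, hW⟩ := H511.idem 𝒪 _ hM (Gamma0 _) (isMid_Gamma0 _) (TsetOf PQ) (UsetOf qv α)
    hTQ hUQ
  obtain ⟨hcor, hres'⟩ := cor_res_mem_of_isLocPart p _ qv hM hTQ hUQ hV hW
  obtain ⟨cc, hc1, hc2, hc3⟩ := H762.cor_ctrl_locPart_h762 t Smin qv hprime hinj 𝒪 V hV W
    (hfree p 𝒪 ρbar Smin h t ht P₀ n r qv hq PQ res hres α hα V hV) hcor hres'
  have hW' := hW
  rw [tsetOf_Q_eq h hq P₀ PQ] at hW'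
  obtain ⟨f, f1, f2, f3, f4⟩ := iter_chain H511.idem cross hN₀ hT₀ hV₀ r qv α β c hinj hprime
    hqN hqu hcT hcq hsum hprod hαβ hα1 hβ1 (bLevel _ qv) rfl W hW'
  let fW : W →ₗ[𝒪] V₀ := (f.domRestrict W).codRestrict V₀ (fun y => f1 y y.2)
  refine ⟨fW ∘ₗ cc, ?_, ?_, ?_⟩
  · intro x
    obtain ⟨y, hy, e⟩ := f3 x x.2
    obtain ⟨v, hv⟩ := hc1 ⟨y, hy⟩
    refine ⟨v, ?_⟩
    apply Subtype.ext
    show f ((cc v : W) : _) = x
    rw [hv]
    exact e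
  · intro ℓ hℓ hℓM v v' hvv'
    show f ((cc v' : W) : _) = tOp _ _ 𝒪 ℓ hℓ (f ((cc v : W) : _))
    rw [H762.cor_ctrl_tOp_h762 (p := p) (wilesLevel p t Smin Smin) qv 𝒪 V W cc hc2 ℓ hℓ hℓM v v'
      hvv', f4 ℓ hℓ hℓM]
  · intro y
    rw [← hc3 y]
    constructor
    · intro e
      have e' : f ((cc y : W) : _) = 0 := congrArg Subtype.val e
      exact Subtype.ext (f2 _ (cc y).2 e')
    · intro e
      show fW (cc y) = 0
      rw [e, map_zero]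

end Fermat.Agent.S59.H105
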