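import Fermat.Agent.S59.TW.Aut.H31.NonEis
import Fermat.Agent.S59.TW.Aut.Skel
import Fermat.Agent.S59.H105.Iter

/-!
# Row S59, cell TW, leaf CTRL (helper105): the Galois dictionary for the chain of transfers

From a Taylor–Wiles set `qv`, Frobenius lifts `α` and the Hecke packages `P₀`, `P_Q`:

* `theta_eq_of_pkg` : the residual characters of two packages agree at the common good primes
  (both are traces of Frobenius of `ρ̄`);
* `tsetOf_Q_eq` : `TsetOf P_Q = TsetAway (TsetOf P₀) qv`;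
* `frob_data` : `q_j ∤ N₀`, `q_j ∈ 𝒪ˣ`, and lifts `β_j`, `c_j` with `(q_j, c_j) ∈ TsetOf P₀`,
  `α_j + β_j ≡ c_j`, `α_j β_j ≡ q_j`, `α_j - β_j`, `1 - α_j²`, `1 - β_j²` units.
-/

set_option autoImplicit false

namespace Fermat.Agent.S59.H105

open Polynomial IsLocalRing CongruenceSubgroup
open Fermat.Agent.S59.Arch Fermat.Agent.S59.TW Fermat.Agent.S59.TW.H959
open Fermat.Agent.S59.TW.H653 Fermat.Agent.S59.TW.Aut
open scoped MatrixGroups

section Poly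

variable {k : Type*} [Field k]

theorem coeffs_of_split {a b s d : k}
    (h : (X - C a) * (X - C b) = X ^ 2 - C s * X + C d) : a + b = s ∧ a * b = d := by
  have h1 : (X - C a) * (X - C b) = X ^ 2 - C (a + b) * X + C (a * b) := by
    simp only [map_add, map_mul]
    ring
  rw [h1] at h
  have c1 := congrArg (fun f => Polynomial.coeff f 1) h
  have c0 := congrArg (fun f => Polynomial.coeff f 0) h
  simp only [coeff_add, coeff_sub, coeff_X_pow, coeff_C_mul, coeff_X_one,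
    coeff_X_zero, coeff_C, mul_one, mul_zero] at c1 c0
  norm_num at c1 c0
  exact ⟨by linear_combination (-1 : k) * c1, by linear_combination c0⟩

theorem coeff_of_quad_eq {s s' d d' : k}
    (h : X ^ 2 - C s * X + C d = X ^ 2 - C s' * X + C d') : s = s' := by
  have c1 := congrArg (fun f => Polynomial.coeff f 1) h
  simp only [coeff_add, coeff_sub, coeff_X_pow, coeff_C_mul, coeff_X_one, coeff_C, mul_one] at c1
  norm_num at c1
  linear_combination c1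

end Poly

section

variable {p : ℕ}
  {𝒪 : Type} [CommRing 𝒪] [IsDomain 𝒪] [IsDiscreteValuationRing 𝒪]
  [IsAdicComplete (maximalIdeal 𝒪) 𝒪]
  {ρbar : ResidualGaloisRep (ResidueField 𝒪)} {t : PType} {Smin : Finset ℕ}

/-- The residual characters of two packages agree at the common good primes. -/
theorem theta_eq_of_pkg {Sig Sig' : Finset ℕ} [NeZero (wilesLevel p t Smin Sig)]
    [NeZero (wilesLevel p t Smin Sig')] (P : HeckePkg p 𝒪 ρbar t Smin Sig)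
    (P' : HeckePkg p 𝒪 ρbar t Smin Sig') {ℓ : ℕ} (hℓ : ℓ.Prime)
    (hℓN : ¬ ℓ ∣ wilesLevel p t Smin Sig) (hℓS : ℓ ∉ (↑Sig : Set ℕ))
    (hℓN' : ¬ ℓ ∣ wilesLevel p t Smin Sig') (hℓS' : ℓ ∉ (↑Sig' : Set ℕ)) :
    P.θ (CuspForm.heckeAlgebra.T hℓ hℓN hℓS) = P'.θ (CuspForm.heckeAlgebra.T hℓ hℓN' hℓS') := by
  obtain ⟨B, σ, hB, hσ⟩ := Fermat.Agent.S54.exists_frobenius ℓ hℓ
  have e1 := H31.resFrobCond_of_pkg P ℓ hℓ hℓN hℓS B hB σ hσ
  have e2 := H31.resFrobCond_of_pkg P' ℓ hℓ hℓN' hℓS' B hB σ hσ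
  exact coeff_of_quad_eq (e1.symm.trans e2)

variable [Fact p.Prime]

/-- `TsetOf P_Q` is `TsetOf P₀` away from the Taylor–Wiles primes. -/
theorem tsetOf_Q_eq (h : ResidualHyp p 𝒪 ρbar Smin) {n r : ℕ} {qv : Fin r → ℕ}
    (hq : IsTWSet p ρbar Smin n qv) [NeZero (wilesLevel p t Smin Smin)]
    [NeZero (wilesLevel p t Smin (Smin ∪ Finset.univ.image qv))]
    (P₀ : HeckePkg p 𝒪 ρbar t Smin Smin)
    (PQ : HeckePkg p 𝒪 ρbar t Smin (Smin ∪ Finset.univ.image qv)) :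
    TsetOf PQ = TsetAway (TsetOf P₀) qv := by
  have hp : p.Prime := Fact.out
  ext ⟨ℓ, c⟩
  constructor
  · rintro ⟨hℓ, hℓN, hℓS, hres⟩
    have hℓN₀ : ¬ ℓ ∣ wilesLevel p t Smin Smin := fun h' =>
      hℓN (h'.trans (wilesLevel_min_dvd p t Smin _))
    have hℓS₀ : ℓ ∉ (↑Smin : Set ℕ) := fun h' =>
      hℓS (Finset.mem_coe.mpr (Finset.mem_union_left _ (Finset.mem_coe.mp h')))
    refine ⟨⟨hℓ, hℓN₀, hℓS₀, ?_⟩, ?_⟩
    · exact hres.trans (theta_eq_of_pkg PQ P₀ hℓ hℓN hℓS hℓN₀ hℓS₀)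
    · intro j e
      apply hℓS
      rw [Finset.mem_coe, Finset.mem_union]
      exact Or.inr (Finset.mem_image.mpr ⟨j, Finset.mem_univ _, e.symm⟩)
  · rintro ⟨⟨hℓ, hℓN₀, hℓS₀, hres⟩, hne⟩
    have hℓS : ℓ ∉ (↑(Smin ∪ Finset.univ.image qv) : Set ℕ) := by
      intro h'
      rcases Finset.mem_union.mp (Finset.mem_coe.mp h') with h1 | h1
      · exact hℓS₀ (Finset.mem_coe.mpr h1)
      · obtain ⟨j, -, hj⟩ := Finset.mem_image.mp h1
        exact hne j hj.symm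
    have hSig : ∀ q ∈ Smin ∪ Finset.univ.image qv, q.Prime := by
      intro q hq'
      rcases Finset.mem_union.mp hq' with h1 | h1
      · exact h.hSmin q h1
      · obtain ⟨j, -, hj⟩ := Finset.mem_image.mp h1
        rw [← hj]
        exact (hq.2.1 j).1
    have hℓN : ¬ ℓ ∣ wilesLevel p t Smin (Smin ∪ Finset.univ.image qv) := fun h' =>
      hℓS (Finset.mem_coe.mpr (mem_of_prime_dvd_wilesLevel hp h.hSmin hSig h.hpSmin
        Finset.subset_union_left ℓ hℓ h'))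
    exact ⟨hℓ, hℓN, hℓS, hres.trans (theta_eq_of_pkg P₀ PQ hℓ hℓN₀ hℓS₀ hℓN hℓS)⟩

/-- The arithmetic of the Taylor–Wiles primes and the Frobenius lifts. -/
theorem frob_data (h : ResidualHyp p 𝒪 ρbar Smin) {n r : ℕ} {qv : Fin r → ℕ}
    (hq : IsTWSet p ρbar Smin n qv) [NeZero (wilesLevel p t Smin Smin)]
    (P₀ : HeckePkg p 𝒪 ρbar t Smin Smin) (α : Fin r → 𝒪) (hα : IsFrobLift ρbar qv α) :
    (∀ j, ¬ qv j ∣ wilesLevel p t Smin Smin) ∧ (∀ j, IsUnit ((qv j : ℕ) : 𝒪)) ∧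
    ∃ β c : Fin r → 𝒪, (∀ j, (qv j, c j) ∈ TsetOf P₀) ∧
      (∀ j c', (qv j, c') ∈ TsetOf P₀ → c' - c j ∈ maximalIdeal 𝒪) ∧
      (∀ j, α j + β j - c j ∈ maximalIdeal 𝒪) ∧
      (∀ j, α j * β j - ((qv j : ℕ) : 𝒪) ∈ maximalIdeal 𝒪) ∧
      (∀ j, IsUnit (α j - β j)) ∧ (∀ j, IsUnit (1 - α j ^ 2)) ∧ (∀ j, IsUnit (1 - β j ^ 2)) := by
  have hp : p.Prime := Fact.out
  haveI : CharP (ResidueField 𝒪) p := H31.charP_residueField_h31 h.hp𝒪
  have hqN : ∀ j, ¬ qv j ∣ wilesLevel p t Smin Smin := fun j h' =>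
    (hq.2.1 j).2.1 (mem_of_prime_dvd_wilesLevel hp h.hSmin h.hSmin h.hpSmin subset_rfl (qv j)
      (hq.2.1 j).1 h')
  have hqS : ∀ j, qv j ∉ (↑Smin : Set ℕ) := fun j h' => (hq.2.1 j).2.1 (Finset.mem_coe.mp h')
  have hq1 : ∀ j, ((qv j : ℕ) : ResidueField 𝒪) = 1 := by
    intro j
    have h1 : p ∣ qv j - 1 := (dvd_pow_self p (Nat.succ_ne_zero n)).trans (hq.2.1 j).2.2
    have h2 : ((qv j - 1 : ℕ) : ResidueField 𝒪) = 0 := (CharP.cast_eq_zero_iff _ p _).mpr h1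
    have h3 : qv j = (qv j - 1) + 1 := (Nat.sub_add_cancel (hq.2.1 j).1.one_lt.le).symm
    rw [h3, Nat.cast_add, h2, zero_add, Nat.cast_one]
  have hunit : ∀ x : 𝒪, residue 𝒪 x ≠ 0 → IsUnit x := by
    intro x hx
    by_contra hcon
    exact hx ((residue_eq_zero_iff x).mpr ((mem_maximalIdeal x).mpr hcon))
  have hmem : ∀ x : 𝒪, residue 𝒪 x = 0 → x ∈ maximalIdeal 𝒪 := fun x hx =>
    (residue_eq_zero_iff x).mp hx
  refine ⟨hqN, ?_, ?_⟩
  · intro j
    apply hunit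
    rw [map_natCast, hq1]
    exact one_ne_zero
  have key : ∀ j, ∃ β c : 𝒪, (qv j, c) ∈ TsetOf P₀ ∧
      (∀ c', (qv j, c') ∈ TsetOf P₀ → c' - c ∈ maximalIdeal 𝒪) ∧
      (α j + β - c ∈ maximalIdeal 𝒪) ∧ (α j * β - ((qv j : ℕ) : 𝒪) ∈ maximalIdeal 𝒪) ∧
      IsUnit (α j - β) ∧ IsUnit (1 - α j ^ 2) ∧ IsUnit (1 - β ^ 2) := by
    intro j
    obtain ⟨B, φ, βbar, hB, hφ, hne, hchar⟩ := hα j
    have e := H31.resFrobCond_of_pkg P₀ (qv j) (hq.2.1 j).1 (hqN j) (hqS j) B hB φ hφ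
    obtain ⟨hs, hd⟩ := coeffs_of_split (hchar.symm.trans e)
    rw [hq1] at hd
    obtain ⟨β, hβ⟩ := residue_surjective βbar
    obtain ⟨c, hc⟩ := residue_surjective
      (P₀.θ (CuspForm.heckeAlgebra.T (hq.2.1 j).1 (hqN j) (hqS j)))
    have ha0 : residue 𝒪 (α j) ≠ 0 := by
      intro h0
      rw [h0, zero_mul] at hd
      exact zero_ne_one hd
    have hb0 : βbar ≠ 0 := by
      intro h0
      rw [h0, mul_zero] at hd
      exact zero_ne_one hd
    refine ⟨β, c, ⟨(hq.2.1 j).1, hqN j, hqS j, hc⟩, ?_, ?_, ?_, ?_, ?_, ?_⟩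
    · rintro c' ⟨_, _, _, hc'⟩
      apply hmem
      rw [map_sub, hc', hc, sub_self]
    · apply hmem
      rw [map_sub, map_add, hβ, hc, hs, sub_self]
    · apply hmem
      rw [map_sub, map_mul, hβ, map_natCast, hq1, hd, sub_self]
    · apply hunit
      rw [map_sub, hβ]
      exact sub_ne_zero.mpr hne
    · apply hunit
      rw [map_sub, map_one, map_pow]
      intro h0
      have h1 : residue 𝒪 (α j) ^ 2 = residue 𝒪 (α j) * βbar := by
        rw [hd]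
        exact (sub_eq_zero.mp h0).symm
      rw [pow_two] at h1
      exact hne (mul_left_cancel₀ ha0 h1)
    · apply hunit
      rw [map_sub, map_one, map_pow, hβ]
      intro h0
      have h1 : βbar ^ 2 = residue 𝒪 (α j) * βbar := by
        rw [hd]
        exact (sub_eq_zero.mp h0).symm
      rw [pow_two] at h1
      exact hne (mul_right_cancel₀ hb0 h1).symm
  choose β c hk using key
  exact ⟨β, c, fun j => (hk j).1, fun j => (hk j).2.1, fun j => (hk j).2.2.1,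
    fun j => (hk j).2.2.2.1, fun j => (hk j).2.2.2.2.1, fun j => (hk j).2.2.2.2.2.1,
    fun j => (hk j).2.2.2.2.2.2⟩

end

end Fermat.Agent.S59.H105
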