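import Mathlib
import Fermat.Prelude.Thm_IsAdicComplete_of_module_finite

/-!
# Row S59, cell TW, leaf CTRL (helper105): Hensel roots of `X² - t X + q` in a finite algebra

`𝒪` a complete noetherian local ring with maximal ideal `(ϖ)`, `A` a commutative `𝒪`-algebra,
finite as a module, `t ∈ A` with `(t - c)^k ∈ ϖ A`, `α, β ∈ 𝒪` with `α + β ≡ c`, `α β ≡ q`
modulo `ϖ` and `α - β` a unit.  Then `X² - t X + q = (X - a) (X - b)` in `A` with
`a ≡ α`, `b ≡ β` modulo the ideal `I = (ϖ, t - c)`, which lies in the Jacobson radical and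
satisfies `I^k ⊆ ϖ A`.
-/

set_option autoImplicit false

namespace Fermat.Agent.S59.H105

open IsLocalRing Polynomial

section

variable {𝒪 : Type*} [CommRing 𝒪] [IsLocalRing 𝒪]
  {A : Type*} [CommRing A] [Algebra 𝒪 A]

/-- The ideal `(ϖ, t - c)` of `A`. -/
def henselIdeal (ϖ c : 𝒪) (t : A) : Ideal A :=
  Ideal.span {algebraMap 𝒪 A ϖ} ⊔ Ideal.span {t - algebraMap 𝒪 A c}

theorem henselIdeal_pow_le (ϖ c : 𝒪) (t : A) (k : ℕ) (g : A)
    (hnil : (t - algebraMap 𝒪 A c) ^ k = algebraMap 𝒪 A ϖ * g) :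
    henselIdeal ϖ c t ^ (1 + k) ≤ Ideal.span {algebraMap 𝒪 A ϖ} := by
  refine le_trans Ideal.sup_pow_add_le_pow_sup_pow ?_
  rw [pow_one, Ideal.span_singleton_pow, hnil]
  refine sup_le le_rfl ?_
  rw [Ideal.span_singleton_le_span_singleton]
  exact Dvd.intro _ rfl

theorem mem_smul_top_iff (ϖ : 𝒪) (hϖ : maximalIdeal 𝒪 = Ideal.span {ϖ}) (n : ℕ) (x : A) :
    x ∈ (maximalIdeal 𝒪 ^ n • ⊤ : Submodule 𝒪 A) ↔ ∃ z : A, x = algebraMap 𝒪 A ϖ ^ n * z := by
  rw [hϖ, Ideal.span_singleton_pow, Submodule.ideal_span_singleton_smul,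
    Submodule.mem_smul_pointwise_iff_exists]
  constructor
  · rintro ⟨z, _, rfl⟩
    exact ⟨z, by rw [Algebra.smul_def, map_pow]⟩
  · rintro ⟨z, rfl⟩
    exact ⟨z, Submodule.mem_top, by rw [Algebra.smul_def, map_pow]⟩

theorem mem_pow_smul_top_iff (I : Ideal A) (n : ℕ) (x : A) :
    x ∈ (I ^ n • ⊤ : Submodule A A) ↔ x ∈ I ^ n := by
  rw [smul_eq_mul, Ideal.mul_top]

/-- `A` is complete for the ideal `(ϖ, t - c)`. -/
theorem isAdicComplete_henselIdeal [IsNoetherianRing 𝒪] [IsAdicComplete (maximalIdeal 𝒪) 𝒪]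
    [Module.Finite 𝒪 A] (ϖ : 𝒪) (hϖ : maximalIdeal 𝒪 = Ideal.span {ϖ}) (c : 𝒪) (t : A)
    (k : ℕ) (g : A) (hnil : (t - algebraMap 𝒪 A c) ^ k = algebraMap 𝒪 A ϖ * g) :
    IsAdicComplete (henselIdeal ϖ c t) A := by
  haveI : IsAdicComplete (maximalIdeal 𝒪) A := IsAdicComplete.of_module_finite _ A
  set I := henselIdeal ϖ c t with hI
  have hϖI : algebraMap 𝒪 A ϖ ∈ I :=
    Ideal.mem_sup_left (Ideal.mem_span_singleton_self _)
  -- `I ^ ((1 + k) n) ⊆ ϖ^n A`
  have h1 : ∀ (n : ℕ) (x : A), x ∈ I ^ ((1 + k) * n) →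
      x ∈ (maximalIdeal 𝒪 ^ n • ⊤ : Submodule 𝒪 A) := by
    intro n x hx
    rw [mem_smul_top_iff ϖ hϖ]
    rw [pow_mul] at hx
    have := Ideal.pow_right_mono (henselIdeal_pow_le ϖ c t k g hnil) n hx
    rw [Ideal.span_singleton_pow, Ideal.mem_span_singleton] at this
    obtain ⟨z, rfl⟩ := this
    exact ⟨z, rfl⟩
  -- `ϖ^n A ⊆ I^n`
  have h2 : ∀ (n : ℕ) (x : A), x ∈ (maximalIdeal 𝒪 ^ n • ⊤ : Submodule 𝒪 A) → x ∈ I ^ n := by
    intro n x hx
    obtain ⟨z, rfl⟩ := (mem_smul_top_iff ϖ hϖ n x).mp hx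
    exact Ideal.mul_mem_right _ _ (Ideal.pow_mem_pow hϖI n)
  have hle : ∀ n : ℕ, n ≤ (1 + k) * n := fun n => by nlinarith
  refine { haus' := ?_, prec' := ?_ }
  · intro x hx
    apply IsHausdorff.haus (‹IsAdicComplete (maximalIdeal 𝒪) A›).toIsHausdorff x
    intro n
    rw [SModEq.sub_mem, sub_zero]
    apply h1
    have := hx ((1 + k) * n)
    rwa [SModEq.sub_mem, sub_zero, mem_pow_smul_top_iff] at this
  · intro f hf
    obtain ⟨L, hL⟩ := IsPrecomplete.prec (‹IsAdicComplete (maximalIdeal 𝒪) A›).toIsPrecomplete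
      (f := fun n => f ((1 + k) * n)) (by
        intro m n hmn
        rw [SModEq.sub_mem]
        apply h1
        have := hf (Nat.mul_le_mul_left (1 + k) hmn)
        rwa [SModEq.sub_mem, mem_pow_smul_top_iff] at this)
    refine ⟨L, fun n => ?_⟩
    rw [SModEq.sub_mem, mem_pow_smul_top_iff]
    have e1 : f n - f ((1 + k) * n) ∈ I ^ n := by
      have := hf (hle n)
      rwa [SModEq.sub_mem, mem_pow_smul_top_iff] at this
    have e2 : f ((1 + k) * n) - L ∈ I ^ n := by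
      apply h2
      have := hL n
      rwa [SModEq.sub_mem] at this
    have : f n - L = (f n - f ((1 + k) * n)) + (f ((1 + k) * n) - L) := by ring
    rw [this]
    exact Ideal.add_mem _ e1 e2

/-- **Hensel roots.** -/
theorem hensel_comm [IsNoetherianRing 𝒪] [IsAdicComplete (maximalIdeal 𝒪) 𝒪]
    [Module.Finite 𝒪 A] (ϖ : 𝒪) (hϖ : maximalIdeal 𝒪 = Ideal.span {ϖ}) (c q α β : 𝒪) (t : A)
    (hc : α + β - c ∈ maximalIdeal 𝒪) (hq : α * β - q ∈ maximalIdeal 𝒪)
    (hαβ : IsUnit (α - β))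
    (k : ℕ) (g : A) (hnil : (t - algebraMap 𝒪 A c) ^ k = algebraMap 𝒪 A ϖ * g) :
    ∃ a b : A, a + b = t ∧ a * b = algebraMap 𝒪 A q ∧
      a - algebraMap 𝒪 A α ∈ henselIdeal ϖ c t ∧ b - algebraMap 𝒪 A β ∈ henselIdeal ϖ c t ∧
      henselIdeal ϖ c t ≤ Ideal.jacobson ⊥ := by
  haveI := isAdicComplete_henselIdeal ϖ hϖ c t k g hnil
  set I := henselIdeal ϖ c t with hI
  have hmI : ∀ x ∈ maximalIdeal 𝒪, algebraMap 𝒪 A x ∈ I := by
    intro x hx
    rw [hϖ, Ideal.mem_span_singleton] at hx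
    obtain ⟨y, rfl⟩ := hx
    rw [map_mul]
    exact Ideal.mul_mem_right _ _ (Ideal.mem_sup_left (Ideal.mem_span_singleton_self _))
  have htI : t - algebraMap 𝒪 A c ∈ I := Ideal.mem_sup_right (Ideal.mem_span_singleton_self _)
  set f : A[X] := X ^ 2 - C t * X + C (algebraMap 𝒪 A q) with hf
  have hmonic : f.Monic := by
    rcases subsingleton_or_nontrivial A with hA | hA
    · exact Subsingleton.elim _ _
    rw [hf, sub_add]
    apply Polynomial.Monic.sub_of_left (monic_X_pow 2)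
    rw [degree_X_pow]
    refine lt_of_le_of_lt (degree_sub_le _ _) ?_
    refine max_lt ?_ ?_
    · refine lt_of_le_of_lt (degree_C_mul_X_le t) ?_
      norm_num
    · refine lt_of_le_of_lt degree_C_le ?_
      norm_num
  have hev : ∀ x : A, f.eval x = x ^ 2 - t * x + algebraMap 𝒪 A q := by
    intro x
    simp [hf]
  have hder : ∀ x : A, f.derivative.eval x = 2 * x - t := by
    intro x
    simp [hf]
    ring
  have h₁ : f.eval (algebraMap 𝒪 A α) ∈ I := by
    have : f.eval (algebraMap 𝒪 A α) =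
        algebraMap 𝒪 A ((α + β - c) * α) - algebraMap 𝒪 A (α * β - q)
          - (t - algebraMap 𝒪 A c) * algebraMap 𝒪 A α := by
      rw [hev]
      simp only [map_mul, map_sub, map_add]
      ring
    rw [this]
    exact Ideal.sub_mem _ (Ideal.sub_mem _ (hmI _ (Ideal.mul_mem_right _ _ hc)) (hmI _ hq))
      (Ideal.mul_mem_right _ _ htI)
  have h₂ : IsUnit (Ideal.Quotient.mk I (f.derivative.eval (algebraMap 𝒪 A α))) := by
    have : Ideal.Quotient.mk I (f.derivative.eval (algebraMap 𝒪 A α)) =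
        Ideal.Quotient.mk I (algebraMap 𝒪 A (α - β)) := by
      rw [Ideal.Quotient.eq, hder]
      have : 2 * algebraMap 𝒪 A α - t - algebraMap 𝒪 A (α - β) =
          algebraMap 𝒪 A (α + β - c) - (t - algebraMap 𝒪 A c) := by
        simp only [map_sub, map_add]
        ring
      rw [this]
      exact Ideal.sub_mem _ (hmI _ hc) htI
    rw [this]
    exact (hαβ.map (algebraMap 𝒪 A)).map (Ideal.Quotient.mk I)
  obtain ⟨a, ha, haI⟩ := HenselianRing.is_henselian (I := I) f hmonic (algebraMap 𝒪 A α) h₁ h₂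
  have hroot : a ^ 2 - t * a + algebraMap 𝒪 A q = 0 := by
    rw [← hev]
    exact ha
  refine ⟨a, t - a, by ring, ?_, haI, ?_, IsAdicComplete.le_jacobson_bot I⟩
  · have : a * (t - a) = algebraMap 𝒪 A q - (a ^ 2 - t * a + algebraMap 𝒪 A q) := by ring
    rw [this, hroot, sub_zero]
  · have : t - a - algebraMap 𝒪 A β =
        (t - algebraMap 𝒪 A c) - (a - algebraMap 𝒪 A α) - algebraMap 𝒪 A (α + β - c) := by
      simp only [map_sub, map_add]
      ring
    rw [this]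
    exact Ideal.sub_mem _ (Ideal.sub_mem _ htI haI) (hmI _ hc)

end

end Fermat.Agent.S59.H105
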