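import Fermat.Agent.S59.H105.HenselComm

/-!
# Row S59, cell TW, leaf CTRL (helper105): Hensel roots of `X² - T X + q` for an operator `T`

`Y` a finite free module over the complete local ring `𝒪` (maximal ideal `(ϖ)`), `T` an
endomorphism of `Y` with `(T - c)^k Y ⊆ ϖ Y`.  Then `T = a + b`, `a b = b a = q` with `a, b` in the
double centraliser of `T` (they commute with every endomorphism commuting with `T`),
`a ≡ α`, `b ≡ β` modulo operators which are nilpotent modulo `ϖ`.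
-/

set_option autoImplicit false

namespace Fermat.Agent.S59.H105

open IsLocalRing

section

variable {𝒪 : Type*} [CommRing 𝒪] {Y : Type*} [AddCommGroup Y] [Module 𝒪 Y]

/-- An endomorphism with values in `ϖ Y` is divisible by `ϖ` (`Y` without `ϖ`-torsion). -/
theorem exists_eq_smul_of_forall (ϖ : 𝒪) (htf : ∀ y : Y, ϖ • y = 0 → y = 0) (f : Y →ₗ[𝒪] Y)
    (h : ∀ y, ∃ z, f y = ϖ • z) : ∃ g : Y →ₗ[𝒪] Y, f = ϖ • g := by
  classical
  have hinj : ∀ z z' : Y, ϖ • z = ϖ • z' → z = z' := by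
    intro z z' e
    have : ϖ • (z - z') = 0 := by rw [smul_sub, e, sub_self]
    exact sub_eq_zero.mp (htf _ this)
  choose g hg using h
  refine ⟨{ toFun := g, map_add' := ?_, map_smul' := ?_ }, ?_⟩
  · intro y y'
    apply hinj
    rw [← hg, smul_add, ← hg, ← hg, map_add]
  · intro r y
    apply hinj
    rw [← hg, RingHom.id_apply, smul_comm, ← hg, map_smul]
  · ext y
    exact hg y

end

section

variable {𝒪 : Type*} [CommRing 𝒪] [IsLocalRing 𝒪] [IsNoetherianRing 𝒪]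
  [IsAdicComplete (maximalIdeal 𝒪) 𝒪]
  {Y : Type*} [AddCommGroup Y] [Module 𝒪 Y] [Module.Finite 𝒪 Y] [Module.Free 𝒪 Y]

/-- **Hensel roots for an operator.** -/
theorem hensel_op (ϖ : 𝒪) (hϖ : maximalIdeal 𝒪 = Ideal.span {ϖ})
    (htf : ∀ y : Y, ϖ • y = 0 → y = 0) (T : Y →ₗ[𝒪] Y) (c q α β : 𝒪)
    (hc : α + β - c ∈ maximalIdeal 𝒪) (hq : α * β - q ∈ maximalIdeal 𝒪)
    (hαβ : IsUnit (α - β)) (hα : IsUnit (1 - α ^ 2)) (hβ : IsUnit (1 - β ^ 2))
    (k : ℕ) (hnil : ∀ y, ∃ z, ((T - c • (1 : Y →ₗ[𝒪] Y)) ^ k) y = ϖ • z) :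
    ∃ a b : Y →ₗ[𝒪] Y, (∀ y, a y + b y = T y) ∧ (∀ y, a (b y) = q • y) ∧
      (∀ y, b (a y) = q • y) ∧
      (∀ S : Y →ₗ[𝒪] Y, (∀ y, S (T y) = T (S y)) → ∀ y, S (a y) = a (S y)) ∧
      (∀ S : Y →ₗ[𝒪] Y, (∀ y, S (T y) = T (S y)) → ∀ y, S (b y) = b (S y)) ∧
      (∀ y, ∃ z, ((a - α • (1 : Y →ₗ[𝒪] Y)) ^ (1 + k)) y = ϖ • z) ∧
      (∀ y, ∃ z, ((b - β • (1 : Y →ₗ[𝒪] Y)) ^ (1 + k)) y = ϖ • z) ∧
      Function.Bijective (a - b) ∧ Function.Bijective ((1 : Y →ₗ[𝒪] Y) - a * a) ∧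
      Function.Bijective ((1 : Y →ₗ[𝒪] Y) - b * b) ∧
      Function.Bijective (b - α • (1 : Y →ₗ[𝒪] Y)) ∧
      Function.Bijective (a - β • (1 : Y →ₗ[𝒪] Y)) := by
  classical
  -- the double centraliser
  let A : Subalgebra 𝒪 (Y →ₗ[𝒪] Y) :=
    Subalgebra.centralizer 𝒪 (Set.centralizer ({T} : Set (Y →ₗ[𝒪] Y)))
  have hAcomm : ∀ x y : A, x * y = y * x := by
    intro x y
    apply Subtype.ext
    exact Set.centralizer_centralizer_comm_of_comm (S := ({T} : Set (Y →ₗ[𝒪] Y)))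
      (by
        intro g₁ h₁ g₂ h₂
        rw [Set.mem_singleton_iff] at h₁ h₂
        rw [h₁, h₂]) x.1 x.2 y.1 y.2
  letI : CommRing A := { (inferInstance : Ring A) with mul_comm := hAcomm }
  haveI : IsNoetherian 𝒪 (Y →ₗ[𝒪] Y) := isNoetherian_of_isNoetherianRing_of_finite 𝒪 _
  haveI : Module.Finite 𝒪 A :=
    Module.Finite.of_injective (A.val.toLinearMap) Subtype.val_injective
  have hTA : T ∈ A := Set.subset_centralizer_centralizer (Set.mem_singleton T)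
  have hcent : ∀ S : Y →ₗ[𝒪] Y, (∀ y, S (T y) = T (S y)) →
      S ∈ Set.centralizer ({T} : Set (Y →ₗ[𝒪] Y)) := by
    intro S hS
    rw [Set.mem_centralizer_iff]
    intro m hm
    rw [Set.mem_singleton_iff] at hm
    rw [hm]
    ext y
    exact (hS y).symm
  have hAS : ∀ x : A, ∀ S : Y →ₗ[𝒪] Y, (∀ y, S (T y) = T (S y)) →
      ∀ y, S ((x : Y →ₗ[𝒪] Y) y) = (x : Y →ₗ[𝒪] Y) (S y) := by
    intro x S hS y
    have := (Subalgebra.mem_centralizer_iff 𝒪).mp x.2 S (hcent S hS)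
    exact congrArg (fun f : Y →ₗ[𝒪] Y => f y) this
  -- torsion-freeness of the endomorphisms
  have htfE : ∀ f : Y →ₗ[𝒪] Y, ϖ • f = 0 → f = 0 := by
    intro f hf
    ext y
    apply htf
    have := congrArg (fun f : Y →ₗ[𝒪] Y => f y) hf
    simpa using this
  -- saturation of `A`
  have hsat : ∀ f : Y →ₗ[𝒪] Y, ϖ • f ∈ A → f ∈ A := by
    intro f hf
    rw [Subalgebra.mem_centralizer_iff]
    intro S hS
    have := (Subalgebra.mem_centralizer_iff 𝒪).mp hf S hS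
    apply sub_eq_zero.mp
    apply htfE
    rw [smul_sub, ← mul_smul_comm, ← smul_mul_assoc, this, sub_self]
  obtain ⟨g, hg⟩ := exists_eq_smul_of_forall ϖ htf _ hnil
  have hpowA : (T - c • (1 : Y →ₗ[𝒪] Y)) ^ k ∈ A :=
    A.pow_mem (A.sub_mem hTA (A.smul_mem A.one_mem c)) k
  have hgA : g ∈ A := hsat g (hg ▸ hpowA)
  have hnilA : ((⟨T, hTA⟩ : A) - algebraMap 𝒪 A c) ^ k = algebraMap 𝒪 A ϖ * ⟨g, hgA⟩ := by
    apply Subtype.ext
    show ((T - algebraMap 𝒪 (Y →ₗ[𝒪] Y) c) ^ k : Y →ₗ[𝒪] Y) =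
      algebraMap 𝒪 (Y →ₗ[𝒪] Y) ϖ * g
    rw [Algebra.algebraMap_eq_smul_one, ← Algebra.smul_def]
    exact hg
  obtain ⟨a, b, hab, hmul, haI, hbI, hjac⟩ :=
    hensel_comm ϖ hϖ c q α β (⟨T, hTA⟩ : A) hc hq hαβ k ⟨g, hgA⟩ hnilA
  set I := henselIdeal ϖ c (⟨T, hTA⟩ : A) with hI
  -- elements of `I` are nilpotent modulo `ϖ`
  have hInil : ∀ x : A, x ∈ I → ∀ y, ∃ z, ((x : Y →ₗ[𝒪] Y) ^ (1 + k)) y = ϖ • z := by
    intro x hx y
    have h1 := henselIdeal_pow_le ϖ c (⟨T, hTA⟩ : A) k ⟨g, hgA⟩ hnilA (Ideal.pow_mem_pow hx (1 + k))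
    rw [Ideal.mem_span_singleton] at h1
    obtain ⟨z, hz⟩ := h1
    have h2 : ((x : Y →ₗ[𝒪] Y) ^ (1 + k)) = ϖ • (z : Y →ₗ[𝒪] Y) := by
      have := congrArg (Subtype.val) hz
      rw [Algebra.smul_def]
      exact this
    exact ⟨(z : Y →ₗ[𝒪] Y) y, by rw [h2]; rfl⟩
  -- `u + x` is bijective for `u` a unit and `x ∈ I`
  have hIbij : ∀ (u : 𝒪) (x : A), IsUnit u → x ∈ I →
      Function.Bijective (u • (1 : Y →ₗ[𝒪] Y) + (x : Y →ₗ[𝒪] Y)) := by
    intro u x hu hx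
    obtain ⟨v, rfl⟩ := hu
    have h1 : IsUnit (x * algebraMap 𝒪 A ((v⁻¹ : 𝒪ˣ) : 𝒪) + 1) :=
      Ideal.mem_jacobson_bot.mp (hjac hx) _
    have h2 : IsUnit (algebraMap 𝒪 A (v : 𝒪)) := (v.isUnit).map (algebraMap 𝒪 A)
    have h3 : IsUnit (algebraMap 𝒪 A (v : 𝒪) + x) := by
      have e : algebraMap 𝒪 A (v : 𝒪) + x =
          algebraMap 𝒪 A (v : 𝒪) * (x * algebraMap 𝒪 A ((v⁻¹ : 𝒪ˣ) : 𝒪) + 1) := by
        have : algebraMap 𝒪 A (v : 𝒪) * algebraMap 𝒪 A ((v⁻¹ : 𝒪ˣ) : 𝒪) = 1 := by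
          rw [← map_mul, Units.mul_inv, map_one]
        calc algebraMap 𝒪 A (v : 𝒪) + x
            = algebraMap 𝒪 A (v : 𝒪) + x * (algebraMap 𝒪 A (v : 𝒪) *
                algebraMap 𝒪 A ((v⁻¹ : 𝒪ˣ) : 𝒪)) := by rw [this, mul_one]
          _ = _ := by ring
      rw [e]
      exact h2.mul h1
    have h4 : IsUnit ((v : 𝒪) • (1 : Y →ₗ[𝒪] Y) + (x : Y →ₗ[𝒪] Y)) := by
      have := h3.map A.val
      rw [← Algebra.algebraMap_eq_smul_one]
      exact this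
    exact (Module.End.isUnit_iff _).mp h4
  have hmI : ∀ x ∈ maximalIdeal 𝒪, algebraMap 𝒪 A x ∈ I := by
    intro x hx
    rw [hϖ, Ideal.mem_span_singleton] at hx
    obtain ⟨y, rfl⟩ := hx
    rw [map_mul]
    exact Ideal.mul_mem_right _ _ (Ideal.mem_sup_left (Ideal.mem_span_singleton_self _))
  have hcoe_alg : ∀ r : 𝒪, ((algebraMap 𝒪 A r : A) : Y →ₗ[𝒪] Y) = r • (1 : Y →ₗ[𝒪] Y) := by
    intro r
    rw [← Algebra.algebraMap_eq_smul_one]
    rfl
  have hba : b * a = algebraMap 𝒪 A q := by rw [mul_comm, hmul]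
  refine ⟨a, b, ?_, ?_, ?_, hAS a, hAS b, ?_, ?_, ?_, ?_, ?_, ?_, ?_⟩
  · intro y
    have := congrArg (fun x : A => (x : Y →ₗ[𝒪] Y) y) hab
    exact this
  · intro y
    have := congrArg (fun x : A => (x : Y →ₗ[𝒪] Y) y) hmul
    simpa [hcoe_alg] using this
  · intro y
    have := congrArg (fun x : A => (x : Y →ₗ[𝒪] Y) y) hba
    simpa [hcoe_alg] using this
  · intro y
    have := hInil _ haI y
    simpa [hcoe_alg] using this
  · intro y
    have := hInil _ hbI y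
    simpa [hcoe_alg] using this
  · -- `a - b = (α - β) + ((a - α) - (b - β))`
    have := hIbij (α - β) ((a - algebraMap 𝒪 A α) - (b - algebraMap 𝒪 A β)) hαβ
      (Ideal.sub_mem _ haI hbI)
    convert this using 2
    simp only [Subalgebra.coe_sub, hcoe_alg, sub_smul]
    abel
  · -- `1 - a² = (1 - α²) - (a - α)(a + α)`
    have := hIbij (1 - α ^ 2) (-((a - algebraMap 𝒪 A α) * (a + algebraMap 𝒪 A α))) hα
      (neg_mem (Ideal.mul_mem_right _ _ haI))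
    convert this using 2
    have e : -((a - algebraMap 𝒪 A α) * (a + algebraMap 𝒪 A α)) =
        algebraMap 𝒪 A (α ^ 2) - a * a := by
      rw [map_pow]
      ring
    rw [e]
    simp only [Subalgebra.coe_sub, Subalgebra.coe_mul, hcoe_alg, sub_smul, one_smul]
    abel
  · have := hIbij (1 - β ^ 2) (-((b - algebraMap 𝒪 A β) * (b + algebraMap 𝒪 A β))) hβ
      (neg_mem (Ideal.mul_mem_right _ _ hbI))
    convert this using 2
    have e : -((b - algebraMap 𝒪 A β) * (b + algebraMap 𝒪 A β)) =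
        algebraMap 𝒪 A (β ^ 2) - b * b := by
      rw [map_pow]
      ring
    rw [e]
    simp only [Subalgebra.coe_sub, Subalgebra.coe_mul, hcoe_alg, sub_smul, one_smul]
    abel
  · -- `b - α = (β - α) + (b - β)`
    have hu : IsUnit (β - α) := by
      have : β - α = -(α - β) := by ring
      rw [this]
      exact hαβ.neg
    have := hIbij (β - α) (b - algebraMap 𝒪 A β) hu hbI
    convert this using 2
    simp only [Subalgebra.coe_sub, hcoe_alg, sub_smul]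
    abel
  · have := hIbij (α - β) (a - algebraMap 𝒪 A α) hαβ haI
    convert this using 2
    simp only [Subalgebra.coe_sub, hcoe_alg, sub_smul]
    abel

end

end Fermat.Agent.S59.H105
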