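import Fermat.Agent.S59.H105.OpsComm

/-!
# Row S59, cell TW, leaf CTRL (helper105): `Aut.IsLocPart` in terms of `tOpL`, `uOpL`
-/

set_option autoImplicit false

namespace Fermat.Agent.S59.H105

open IsLocalRing CongruenceSubgroup
open Fermat.Agent.S59.TW.H653 Fermat.Agent.S59.TW.Aut
open scoped MatrixGroups

section

variable {M : ℕ} {K : Subgroup SL(2, ℤ)} (hK : IsMid M K)
  {𝒪 : Type} [CommRing 𝒪] [IsLocalRing 𝒪]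

/-- The projector of a localisation: properties in terms of `tOpL`, `uOpL`. -/
theorem isLocPart_proj {Tset Uset : Set (ℕ × 𝒪)} {V : Submodule 𝒪 (Additive K →+ 𝒪)}
    (h : IsLocPart hK Tset Uset V) {ϖ : 𝒪} (hϖ : maximalIdeal 𝒪 = Ideal.span {ϖ})
    (hT : ∀ x ∈ Tset, x.1.Prime ∧ ¬ x.1 ∣ M) (hU : ∀ x ∈ Uset, x.1.Prime ∧ x.1 ∣ M) :
    ∃ e : (Additive K →+ 𝒪) →ₗ[𝒪] (Additive K →+ 𝒪),
      (∀ x, e (e x) = e x) ∧ (∀ x, e x ∈ V) ∧ (∀ x ∈ V, e x = x) ∧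
      (∀ (ℓ : ℕ) (hℓ : ℓ.Prime) (hℓM : ¬ ℓ ∣ M) (c : 𝒪) (x : Additive K →+ 𝒪),
        e (tOpL hK 𝒪 ℓ hℓ hℓM c x) = tOpL hK 𝒪 ℓ hℓ hℓM c (e x)) ∧
      (∀ (q : ℕ) (hq : q.Prime) (hqM : q ∣ M) (α : 𝒪) (x : Additive K →+ 𝒪),
        e (uOpL hK 𝒪 q hq hqM α x) = uOpL hK 𝒪 q hq hqM α (e x)) ∧
      ∀ x, e x = 0 →
        (∀ (y : ℕ × 𝒪) (hy : y ∈ Tset),
          ∃ z : Additive K →+ 𝒪, tOpL hK 𝒪 y.1 (hT y hy).1 (hT y hy).2 y.2 x = ϖ • z) →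
        (∀ (y : ℕ × 𝒪) (hy : y ∈ Uset),
          ∃ z : Additive K →+ 𝒪, uOpL hK 𝒪 y.1 (hU y hy).1 (hU y hy).2 y.2 x = ϖ • z) →
        ∃ z : Additive K →+ 𝒪, x = ϖ • z := by
  obtain ⟨e, h1, h2, h3, h4, h5, h6⟩ := isLocPart_data hK h hϖ
  refine ⟨e, h1, h2, h3, ?_, ?_, ?_⟩
  · intro ℓ hℓ hℓM c x
    haveI : Fact ℓ.Prime := ⟨hℓ⟩
    exact comm_shiftE e _ c (fun y => h4 ℓ hℓM y) x
  · intro q hq hqM α x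
    haveI : Fact q.Prime := ⟨hq⟩
    exact comm_shiftE e _ α (fun y => h5 q hqM y) x
  · intro x hx hTx hUx
    refine h6 x hx ?_ ?_
    · intro ℓ _ c hc
      exact hTx (ℓ, c) hc
    · intro q _ α hα
      exact hUx (q, α) hα

theorem isLocPart_nilp_tOpL {Tset Uset : Set (ℕ × 𝒪)} {V : Submodule 𝒪 (Additive K →+ 𝒪)}
    (h : IsLocPart hK Tset Uset V) {ϖ : 𝒪} (hϖ : maximalIdeal 𝒪 = Ideal.span {ϖ})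
    (ℓ : ℕ) (hℓ : ℓ.Prime) (hℓM : ¬ ℓ ∣ M) (c : 𝒪) (hc : (ℓ, c) ∈ Tset) :
    ∃ m : ℕ, ∀ x ∈ V, ∃ z ∈ V, (tOpL hK 𝒪 ℓ hℓ hℓM c ^ m) x = ϖ • z := by
  haveI : Fact ℓ.Prime := ⟨hℓ⟩
  exact isLocPart_nilpT hK h hϖ hℓM hc

theorem isLocPart_nilp_uOpL {Tset Uset : Set (ℕ × 𝒪)} {V : Submodule 𝒪 (Additive K →+ 𝒪)}
    (h : IsLocPart hK Tset Uset V) {ϖ : 𝒪} (hϖ : maximalIdeal 𝒪 = Ideal.span {ϖ})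
    (q : ℕ) (hq : q.Prime) (hqM : q ∣ M) (α : 𝒪) (hα : (q, α) ∈ Uset) :
    ∃ m : ℕ, ∀ x ∈ V, ∃ z ∈ V, (uOpL hK 𝒪 q hq hqM α ^ m) x = ϖ • z := by
  haveI : Fact q.Prime := ⟨hq⟩
  exact isLocPart_nilpU hK h hϖ hqM hα

/-- Stability of the image of a commuting projector. -/
theorem mem_of_proj_comm {X : Type*} [AddCommGroup X] [Module 𝒪 X] {V : Submodule 𝒪 X}
    (e f : X →ₗ[𝒪] X) (h2 : ∀ x, e x ∈ V) (h3 : ∀ x ∈ V, e x = x)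
    (hc : ∀ x, e (f x) = f (e x)) : ∀ x ∈ V, f x ∈ V := by
  intro x hx
  rw [← h3 x hx, ← hc]
  exact h2 _

end

section Fam

variable {M : ℕ} {K : Subgroup SL(2, ℤ)} (hK : IsMid M K)
  {𝒪 : Type} [CommRing 𝒪] [IsLocalRing 𝒪]

/-- The index type of a family of generators. -/
abbrev Idx (Ts Us : Set (ℕ × 𝒪)) : Type := {x : ℕ × 𝒪 // x ∈ Ts} ⊕ {x : ℕ × 𝒪 // x ∈ Us}

/-- The family of generators `T_ℓ - c` (`(ℓ, c) ∈ Ts`), `U_q - α` (`(q, α) ∈ Us`). -/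
noncomputable def fam {Ts Us : Set (ℕ × 𝒪)} (hT : ∀ x ∈ Ts, x.1.Prime ∧ ¬ x.1 ∣ M)
    (hU : ∀ x ∈ Us, x.1.Prime ∧ x.1 ∣ M) :
    Idx Ts Us → ((Additive K →+ 𝒪) →ₗ[𝒪] (Additive K →+ 𝒪))
  | .inl x => tOpL hK 𝒪 x.1.1 (hT x.1 x.2).1 (hT x.1 x.2).2 x.1.2
  | .inr x => uOpL hK 𝒪 x.1.1 (hU x.1 x.2).1 (hU x.1 x.2).2 x.1.2

theorem fam_comm {Ts Us : Set (ℕ × 𝒪)} (hT : ∀ x ∈ Ts, x.1.Prime ∧ ¬ x.1 ∣ M)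
    (hU : ∀ x ∈ Us, x.1.Prime ∧ x.1 ∣ M) (i j : Idx Ts Us) (x : Additive K →+ 𝒪) :
    fam hK hT hU i (fam hK hT hU j x) = fam hK hT hU j (fam hK hT hU i x) := by
  rcases i with i | i <;> rcases j with j | j
  · exact tOpL_tOpL hK i.1.1 j.1.1 (hT i.1 i.2).1 (hT j.1 j.2).1 (hT i.1 i.2).2 (hT j.1 j.2).2
      i.1.2 j.1.2 x
  · exact (uOpL_tOpL hK j.1.1 i.1.1 (hU j.1 j.2).1 (hT i.1 i.2).1 (hU j.1 j.2).2 (hT i.1 i.2).2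
      j.1.2 i.1.2 x).symm
  · exact uOpL_tOpL hK i.1.1 j.1.1 (hU i.1 i.2).1 (hT j.1 j.2).1 (hU i.1 i.2).2 (hT j.1 j.2).2
      i.1.2 j.1.2 x
  · exact uOpL_uOpL hK i.1.1 j.1.1 (hU i.1 i.2).1 (hU j.1 j.2).1 (hU i.1 i.2).2 (hU j.1 j.2).2
      i.1.2 j.1.2 x

/-- A projector commuting with all the `T_ℓ - c`, `U_q - α` commutes with a family. -/
theorem fam_proj_comm {Ts Us : Set (ℕ × 𝒪)} (hT : ∀ x ∈ Ts, x.1.Prime ∧ ¬ x.1 ∣ M)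
    (hU : ∀ x ∈ Us, x.1.Prime ∧ x.1 ∣ M)
    (e : (Additive K →+ 𝒪) →ₗ[𝒪] (Additive K →+ 𝒪))
    (h4 : ∀ (ℓ : ℕ) (hℓ : ℓ.Prime) (hℓM : ¬ ℓ ∣ M) (c : 𝒪) (x : Additive K →+ 𝒪),
        e (tOpL hK 𝒪 ℓ hℓ hℓM c x) = tOpL hK 𝒪 ℓ hℓ hℓM c (e x))
    (h5 : ∀ (q : ℕ) (hq : q.Prime) (hqM : q ∣ M) (α : 𝒪) (x : Additive K →+ 𝒪),
        e (uOpL hK 𝒪 q hq hqM α x) = uOpL hK 𝒪 q hq hqM α (e x))
    (i : Idx Ts Us) (x : Additive K →+ 𝒪) :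
    e (fam hK hT hU i x) = fam hK hT hU i (e x) := by
  rcases i with i | i
  · exact h4 i.1.1 (hT i.1 i.2).1 (hT i.1 i.2).2 i.1.2 x
  · exact h5 i.1.1 (hU i.1 i.2).1 (hU i.1 i.2).2 i.1.2 x

/-- The generators of a sub-family are nilpotent modulo `ϖ` on a localisation. -/
theorem fam_nilp {Tset Uset : Set (ℕ × 𝒪)} {V : Submodule 𝒪 (Additive K →+ 𝒪)}
    (h : IsLocPart hK Tset Uset V) {ϖ : 𝒪} (hϖ : maximalIdeal 𝒪 = Ideal.span {ϖ})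
    {Ts Us : Set (ℕ × 𝒪)} (hT : ∀ x ∈ Ts, x.1.Prime ∧ ¬ x.1 ∣ M)
    (hU : ∀ x ∈ Us, x.1.Prime ∧ x.1 ∣ M) (hTs : Ts ⊆ Tset) (hUs : Us ⊆ Uset)
    (i : Idx Ts Us) :
    ∃ m : ℕ, ∀ x ∈ V, ∃ z ∈ V, (fam hK hT hU i ^ m) x = ϖ • z := by
  rcases i with i | i
  · exact isLocPart_nilp_tOpL hK h hϖ i.1.1 (hT i.1 i.2).1 (hT i.1 i.2).2 i.1.2 (hTs i.2)
  · exact isLocPart_nilp_uOpL hK h hϖ i.1.1 (hU i.1 i.2).1 (hU i.1 i.2).2 i.1.2 (hUs i.2)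

end Fam

end Fermat.Agent.S59.H105
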