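import Fermat.Agent.S59.H105.OneStepAux
import Fermat.Agent.S59.H105.HenselOp

/-!
# Row S59, cell TW, leaf CTRL (helper105): the one-prime step for `Aut.IsLocPart`

`one_step` : level `N`, prime `q ∤ N` (a unit of `𝒪`), `V'` the localisation of
`X_{Γ₀(N)}(𝒪)` at `Tset ∋ (q, c)`, `Uset`; `V` the localisation of `X_{Γ₀(N q)}(𝒪)` at
`Tset \ {q}`, `Uset ∪ {(q, α)}`, where `α + β ≡ c`, `α β ≡ q`, `α ≢ β`, `α² ≢ 1`.  Then
`t₂ : V → V'` is bijective.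

Hypotheses: `Aut.IdemStatement` (existence of localisations; used for the localisation of level `N`
without the condition at `q`) and `CrossStatement` (the `U_q'`, `q' ∣ N`, commute with the
degeneracy maps).
-/

set_option autoImplicit false

namespace Fermat.Agent.S59.H105

open IsLocalRing CongruenceSubgroup
open Fermat.Agent.S29.H642 Fermat.Agent.S41 Fermat.Agent.S41.Spec
open Fermat.Agent.S59.TW.H653 Fermat.Agent.S59.TW.Aut
open scoped MatrixGroups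

section Gen

variable {𝒪 : Type*} [CommRing 𝒪] {X : Type*} [AddCommGroup X] [Module 𝒪 X]

/-- Bijectivity on a submodule from bijectivity of the restriction. -/
theorem bijOnSub_of_bijective (V : Submodule 𝒪 X) (F : V →ₗ[𝒪] V) (hF : Function.Bijective F)
    (G : X →ₗ[𝒪] X) (hG : ∀ y : V, G (y : X) = (F y : X)) : BijOnSub G V := by
  refine ⟨?_, ?_, ?_⟩
  · intro x hx
    rw [hG ⟨x, hx⟩]
    exact (F ⟨x, hx⟩).2
  · intro x hx e
    rw [hG ⟨x, hx⟩] at e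
    have : F ⟨x, hx⟩ = 0 := Subtype.ext e
    have h0 := hF.1 (a₁ := ⟨x, hx⟩) (a₂ := 0) (by rw [this, map_zero])
    exact congrArg Subtype.val h0
  · intro x hx
    obtain ⟨y, hy⟩ := hF.2 ⟨x, hx⟩
    exact ⟨y, y.2, by rw [hG y, hy]⟩

end Gen

section

variable {𝒪 : Type} [CommRing 𝒪] [IsDomain 𝒪] [IsDiscreteValuationRing 𝒪]
  [IsAdicComplete (maximalIdeal 𝒪) 𝒪] [Finite (ResidueField 𝒪)]

theorem not_dvd_mul_of_prime {ℓ q N : ℕ} (hℓ : ℓ.Prime) (hq : q.Prime) (h1 : ¬ ℓ ∣ N)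
    (h2 : ℓ ≠ q) : ¬ ℓ ∣ N * q := by
  intro h
  rcases (Nat.Prime.dvd_mul hℓ).mp h with h | h
  · exact h1 h
  · exact h2 ((Nat.prime_dvd_prime_iff_eq hℓ hq).mp h)

/-- `U_q² - 1` is bijective on a localisation at `U_q ≡ α`, `α² ≢ 1`. -/
theorem bij_UU {M q : ℕ} (hq : q.Prime) (hM : M ≠ 0) (hqM : q ∣ M)
    {Tset Uset : Set (ℕ × 𝒪)} {α : 𝒪} (hαU : (q, α) ∈ Uset) (hα : IsUnit (1 - α ^ 2))
    {ϖ : 𝒪} (hϖ0 : ϖ ≠ 0) (hϖ : maximalIdeal 𝒪 = Ideal.span {ϖ})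
    {V : Submodule 𝒪 (Additive (Gamma0 M) →+ 𝒪)}
    (hV : IsLocPart (isMid_Gamma0 M) Tset Uset V)
    (U : (Additive (Gamma0 M) →+ 𝒪) →ₗ[𝒪] (Additive (Gamma0 M) →+ 𝒪))
    (hU : uOpL (isMid_Gamma0 M) 𝒪 q hq hqM α = shiftBy U α) :
    BijOnSub (U.comp U - LinearMap.id) V := by
  obtain ⟨e, _, e2, e3, e4, e5, _⟩ := isLocPart_data _ hV hϖ
  haveI : Fact q.Prime := ⟨hq⟩
  have heU : ∀ x, e (shiftBy U α x) = shiftBy U α (e x) := by
    intro x
    rw [← hU]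
    exact comm_shiftE e _ α (fun y => e5 q hqM y) x
  have hUα : ∀ x ∈ V, shiftBy U α x ∈ V := mem_of_proj_comm e _ e2 e3 heU
  have hUV : ∀ x ∈ V, U x ∈ V := by
    intro x hx
    have := V.add_mem (hUα x hx) (V.smul_mem α hx)
    rwa [shiftBy_apply, sub_add_cancel] at this
  haveI : Module.Finite 𝒪 ↥V := (xk_finite_free hM (isMid_Gamma0 M) V).1
  obtain ⟨m, hm⟩ := isLocPart_nilp_uOpL _ hV hϖ q hq hqM α hαU
  apply bijOnSub_of_injective_mod ϖ hϖ V (isLocPart_sat _ hV hϖ0)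
  · intro x hx
    exact V.sub_mem (hUV _ (hUV x hx)) hx
  · intro x hx hgx
    rw [← mem_divSub]
    -- `n = (U + α) (U - α) = U² - α²`
    have hAB : Commute (shiftBy U (-α)) (shiftBy U α) := by
      show shiftBy U (-α) * shiftBy U α = shiftBy U α * shiftBy U (-α)
      ext y : 1
      simp only [Module.End.mul_apply, shiftBy_apply, map_sub, map_smul, neg_smul,
        sub_neg_eq_add, map_add, smul_sub, smul_add]
      abel
    have hn : ∀ y, (shiftBy U (-α) * shiftBy U α) y = U (U y) - α ^ 2 • y := by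
      intro y
      simp only [Module.End.mul_apply, shiftBy_apply, map_sub, map_smul, neg_smul,
        sub_neg_eq_add, pow_two, mul_smul, smul_sub, smul_add]
      abel
    apply mem_divSub_of_unit_nilp ϖ (shiftBy U (-α) * shiftBy U α) hα m
    · rw [hAB.mul_pow, Module.End.mul_apply]
      apply map_mem_divSub
      obtain ⟨z, _, hz⟩ := hm x hx
      rw [hU] at hz
      exact mem_divSub.mpr ⟨z, hz⟩
    · obtain ⟨z, hz⟩ := hgx
      rw [hn]
      refine mem_divSub.mpr ⟨z, ?_⟩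
      rw [← hz]
      simp only [LinearMap.sub_apply, LinearMap.comp_apply, LinearMap.id_apply, sub_smul,
        one_smul]
      abel


/-- **The one-prime step.** -/
theorem one_step (idem : IdemStatement) (hcross : CrossStatement)
    {N q : ℕ} [Fact q.Prime] (hN : N ≠ 0) (hqN : ¬ q ∣ N) (hqu : IsUnit (q : 𝒪))
    {Tset Uset : Set (ℕ × 𝒪)} (hT : ∀ x ∈ Tset, x.1.Prime ∧ ¬ x.1 ∣ N)
    (hU : ∀ x ∈ Uset, x.1.Prime ∧ x.1 ∣ N)
    {c α β : 𝒪} (hcT : (q, c) ∈ Tset) (hcq : ∀ c', (q, c') ∈ Tset → c' - c ∈ maximalIdeal 𝒪)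
    (hc : α + β - c ∈ maximalIdeal 𝒪) (hq : α * β - (q : 𝒪) ∈ maximalIdeal 𝒪)
    (hαβ : IsUnit (α - β)) (hα : IsUnit (1 - α ^ 2)) (hβ : IsUnit (1 - β ^ 2))
    {V' : Submodule 𝒪 (Additive (Gamma0 N) →+ 𝒪)}
    (hV' : IsLocPart (isMid_Gamma0 N) Tset Uset V')
    {V : Submodule 𝒪 (Additive (Gamma0 (N * q)) →+ 𝒪)}
    (hV : IsLocPart (isMid_Gamma0 (N * q)) {x | x ∈ Tset ∧ x.1 ≠ q} (Uset ∪ {(q, α)}) V) :
    (∀ y ∈ V, t₂ N q y ∈ V') ∧ (∀ y ∈ V, t₂ N q y = 0 → y = 0) ∧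
      (∀ x ∈ V', ∃ y ∈ V, t₂ N q y = x) := by
  classical
  obtain ⟨ϖ, hϖ0, hϖ⟩ := exists_uniformizer 𝒪
  have hq' : q.Prime := Fact.out
  have hNq : N * q ≠ 0 := Nat.mul_ne_zero hN hq'.ne_zero
  have hdvd : q ∣ N * q := dvd_mul_self_left N q
  set Ts : Set (ℕ × 𝒪) := {x | x ∈ Tset ∧ x.1 ≠ q} with hTs
  have hTsN : ∀ x ∈ Ts, x.1.Prime ∧ ¬ x.1 ∣ N := fun x hx => hT x hx.1
  have hTsQ : ∀ x ∈ Ts, x.1.Prime ∧ ¬ x.1 ∣ N * q := fun x hx =>
    ⟨(hT x hx.1).1, not_dvd_mul_of_prime (hT x hx.1).1 hq' (hT x hx.1).2 hx.2⟩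
  have hUQ : ∀ x ∈ Uset, x.1.Prime ∧ x.1 ∣ N * q := fun x hx =>
    ⟨(hU x hx).1, Dvd.dvd.mul_right (hU x hx).2 q⟩
  have hUQ' : ∀ x ∈ Uset ∪ {(q, α)}, x.1.Prime ∧ x.1 ∣ N * q := by
    rintro x (hx | hx)
    · exact hUQ x hx
    · rw [Set.mem_singleton_iff] at hx
      subst hx
      exact ⟨hq', hdvd⟩
  -- the intermediate localisation
  obtain ⟨W, hW⟩ := idem 𝒪 N hN (Gamma0 N) (isMid_Gamma0 N) Ts Uset hTsN hU
  obtain ⟨e', e'1, e'2, e'3, e'4, e'5, e'6⟩ := isLocPart_proj _ hV' hϖ hT hU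
  obtain ⟨e, e1, e2, e3, e4, e5, e6⟩ := isLocPart_proj _ hV hϖ hTsQ hUQ'
  haveI := xk_isNoetherian_end (𝒪 := 𝒪) hNq (isMid_Gamma0 (N * q))
  have hV'W : V' ≤ W :=
    isLocPart_mono hN _ hV' hW (fun x hx => hx.1) subset_rfl hTsN hU
  have ht₁W : ∀ y ∈ V, t₁L 𝒪 𝒪 N q y ∈ W :=
    nat_of_isLocPart hN (isMid_Gamma0 (N * q)) (isMid_Gamma0 N) hV hW subset_rfl
      Set.subset_union_left hTsQ hUQ hTsN hU (t₁L 𝒪 𝒪 N q) (by
        rintro (i | i) x
        · exact tOpL_t₁ 𝒪 hNq i.1.1 (hTsN i.1 i.2).1 (hTsN i.1 i.2).2 (hTsQ i.1 i.2).2 i.1.2 x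
        · exact uOpL_t₁ 𝒪 hcross hqN i.1.1 (hU i.1 i.2).1 (hU i.1 i.2).2 (hUQ i.1 i.2).2 i.1.2 x)
  have ht₂W : ∀ y ∈ V, t₂L 𝒪 𝒪 N q y ∈ W :=
    nat_of_isLocPart hN (isMid_Gamma0 (N * q)) (isMid_Gamma0 N) hV hW subset_rfl
      Set.subset_union_left hTsQ hUQ hTsN hU (t₂L 𝒪 𝒪 N q) (by
        rintro (i | i) x
        · exact tOpL_t₂ 𝒪 hNq i.1.1 (hTsN i.1 i.2).1 (hTsN i.1 i.2).2 (hTsQ i.1 i.2).2 i.1.2 x
        · exact uOpL_t₂ 𝒪 hcross hqN i.1.1 (hU i.1 i.2).1 (hU i.1 i.2).2 (hUQ i.1 i.2).2 i.1.2 x)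
  -- the operators `T = T_q` (level `N`) and `U = U_q` (level `N q`)
  set T := TlL 𝒪 𝒪 hqN with hTdef
  set U := UqL 𝒪 𝒪 hdvd with hUdef
  have hTq : tOpL (isMid_Gamma0 N) 𝒪 q hq' hqN c = shiftBy T c := by
    show shiftE 𝒪 (TKL (isMid_Gamma0 N) 𝒪 hqN) c = _
    rw [TKL_eq_TlL]
    rfl
  have hUq : uOpL (isMid_Gamma0 (N * q)) 𝒪 q hq' hdvd α = shiftBy U α := by
    show shiftE 𝒪 (UKL (isMid_Gamma0 (N * q)) 𝒪 hdvd) α = _
    rw [UKL_eq_UqL]
    rfl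
  have he'Tc : ∀ x, e' (shiftBy T c x) = shiftBy T c (e' x) := by
    intro x
    rw [← hTq]
    exact e'4 q hq' hqN c x
  have he'T : ∀ x, e' (T x) = T (e' x) := by
    intro x
    have := he'Tc x
    simp only [shiftBy_apply, map_sub, map_smul] at this
    exact sub_left_inj.mp this
  have heUα : ∀ x, e (shiftBy U α x) = shiftBy U α (e x) := by
    intro x
    rw [← hUq]
    exact e5 q hq' hdvd α x
  have heU : ∀ x, e (U x) = U (e x) := by
    intro x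
    have := heUα x
    simp only [shiftBy_apply, map_sub, map_smul] at this
    exact sub_left_inj.mp this
  have hTV' : ∀ x ∈ V', T x ∈ V' := mem_of_proj_comm e' T e'2 e'3 he'T
  have hTcV' : ∀ x ∈ V', shiftBy T c x ∈ V' := mem_of_proj_comm e' _ e'2 e'3 he'Tc
  -- Hensel on `V'`
  letI : AddCommGroup ↥V' := Submodule.addCommGroup V'
  haveI : Module.Finite 𝒪 ↥V' := (xk_finite_free hN (isMid_Gamma0 N) V').1
  haveI : Module.Free 𝒪 ↥V' := (xk_finite_free hN (isMid_Gamma0 N) V').2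
  have htfY : ∀ y : V', ϖ • y = 0 → y = 0 := by
    intro y hy
    apply Subtype.ext
    exact xk_torsionFree hϖ0 _ (congrArg Subtype.val hy)
  set S : V' →ₗ[𝒪] V' := (shiftBy T c).restrict hTcV' with hS
  set TV : V' →ₗ[𝒪] V' := S + c • (1 : V' →ₗ[𝒪] V') with hTVdef
  have hTVval : ∀ y : V', ((TV y : V') : Additive (Gamma0 N) →+ 𝒪) = T (y : _) := by
    intro y
    show shiftBy T c (y : _) + c • (y : Additive (Gamma0 N) →+ 𝒪) = _
    rw [shiftBy_apply, sub_add_cancel]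
  obtain ⟨k, hk⟩ := isLocPart_nilp_tOpL _ hV' hϖ q hq' hqN c hcT
  rw [hTq] at hk
  have hnilS : ∀ y : V', ∃ z : V', ((TV - c • (1 : V' →ₗ[𝒪] V')) ^ k) y = ϖ • z := by
    intro y
    have e0 : TV - c • (1 : V' →ₗ[𝒪] V') = S := by rw [hTVdef, add_sub_cancel_right]
    obtain ⟨z, hz, ez⟩ := hk y y.2
    refine ⟨⟨z, hz⟩, ?_⟩
    apply Subtype.ext
    rw [e0, hS, coe_restrict_pow]
    exact ez
  obtain ⟨a, b, hab, hmul, hmul', haS, hbS, hanil, -, bij1, bij2, -, bij4, -⟩ :=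
    hensel_op ϖ hϖ htfY TV c (q : 𝒪) α β hc hq hαβ hα hβ k hnilS
  -- extension of `a`, `b` to the whole space
  set e'c : (Additive (Gamma0 N) →+ 𝒪) →ₗ[𝒪] V' := LinearMap.codRestrict V' e' e'2 with he'c
  have he'c_id : ∀ y : V', e'c (y : _) = y := fun y => Subtype.ext (e'3 _ y.2)
  set aE : (Additive (Gamma0 N) →+ 𝒪) →ₗ[𝒪] (Additive (Gamma0 N) →+ 𝒪) :=
    V'.subtype ∘ₗ a ∘ₗ e'c with haE
  set bE : (Additive (Gamma0 N) →+ 𝒪) →ₗ[𝒪] (Additive (Gamma0 N) →+ 𝒪) :=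
    V'.subtype ∘ₗ b ∘ₗ e'c with hbE
  have haEv : ∀ y : V', aE (y : _) = (a y : V') := by
    intro y
    show ((a (e'c (y : _)) : V') : Additive (Gamma0 N) →+ 𝒪) = _
    rw [he'c_id]
  have hbEv : ∀ y : V', bE (y : _) = (b y : V') := by
    intro y
    show ((b (e'c (y : _)) : V') : Additive (Gamma0 N) →+ 𝒪) = _
    rw [he'c_id]
  have hp : HenselPair V' q T aE bE := by
    refine ⟨hTV', fun x _ => (a (e'c x)).2, fun x _ => (b (e'c x)).2, ?_, ?_, ?_⟩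
    · intro x hx
      rw [haEv ⟨x, hx⟩, hbEv ⟨x, hx⟩, ← hTVval ⟨x, hx⟩, ← hab]
      rfl
    · intro x hx
      rw [hbEv ⟨x, hx⟩, haEv, hmul, ← Nat.cast_smul_eq_nsmul 𝒪]
      rfl
    · intro x hx
      rw [haEv ⟨x, hx⟩, hbEv, hmul', ← Nat.cast_smul_eq_nsmul 𝒪]
      rfl
  have hab' : BijOnSub (aE - bE) V' :=
    bijOnSub_of_bijective V' (a - b) bij1 _ (fun y => by
      rw [LinearMap.sub_apply, haEv, hbEv]
      rfl)
  have ha2 : BijOnSub (oneSubSq aE) V' :=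
    bijOnSub_of_bijective V' ((1 : V' →ₗ[𝒪] V') - a * a) bij2 _ (fun y => by
      rw [oneSubSq_apply, haEv, haEv]
      rfl)
  have hbα : BijOnSub (shiftBy bE α) V' :=
    bijOnSub_of_bijective V' (b - α • (1 : V' →ₗ[𝒪] V')) bij4 _ (fun y => by
      rw [shiftBy_apply, hbEv]
      rfl)
  -- the complement
  have hαu : IsUnit α := by
    have h1 : IsUnit (α * β) := by
      by_contra hcon
      have h2 : α * β ∈ maximalIdeal 𝒪 := (mem_maximalIdeal _).mpr hcon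
      have h3 : (q : 𝒪) ∈ maximalIdeal 𝒪 := by
        have := Ideal.sub_mem _ h2 hq
        rwa [sub_sub_cancel] at this
      exact (mem_maximalIdeal _).mp h3 hqu
    exact isUnit_of_mul_isUnit_left h1
  have hd : α * c - α ^ 2 - (q : 𝒪) ∈ maximalIdeal 𝒪 := by
    have : α * c - α ^ 2 - (q : 𝒪) = (α * β - q) - α * (α + β - c) := by ring
    rw [this]
    exact Ideal.sub_mem _ hq (Ideal.mul_mem_left _ _ hc)
  have hg : BijOnSub (α • T - (α ^ 2 + (q : 𝒪)) • LinearMap.id) (W ⊓ LinearMap.ker e') := by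
    have h0 := bij_compl hq' hN hqN hT hU hcq hϖ0 hϖ hW e' e'4 e'5 e'6 hαu hd
    have e0 : α • tOpL (isMid_Gamma0 N) 𝒪 q hq' hqN c + (α * c - α ^ 2 - (q : 𝒪)) • LinearMap.id =
        α • T - (α ^ 2 + (q : 𝒪)) • LinearMap.id := by
      rw [hTq]
      ext x : 1
      simp only [LinearMap.add_apply, LinearMap.sub_apply, LinearMap.smul_apply,
        LinearMap.id_apply, shiftBy_apply, smul_sub, sub_smul, add_smul, mul_smul]
      abel
    rwa [e0] at h0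
  have hTW'' : ∀ x ∈ W ⊓ LinearMap.ker e', T x ∈ W ⊓ LinearMap.ker e' := by
    intro x hx
    obtain ⟨eW, _, eW2, eW3, eW4, _, _⟩ := isLocPart_data _ hW hϖ
    refine ⟨?_, ?_⟩
    · apply mem_of_proj_comm eW T eW2 eW3 _ x hx.1
      intro y
      have := eW4 q hqN y
      rw [TKL_eq_TlL] at this
      exact this
    · have hx2 : e' x = 0 := hx.2
      show e' (T x) = 0
      rw [he'T, hx2, map_zero]
  -- the part `P = V`
  have hsep : SepOn V ϖ := by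
    intro x _ hx
    exact xk_sep hϖ x (fun n => by
      obtain ⟨z, _, hz⟩ := hx n
      exact ⟨z, hz⟩)
  have hnilU : NilpOn (shiftBy U α) V ϖ := by
    refine ⟨mem_of_proj_comm e _ e2 e3 heUα, ?_⟩
    obtain ⟨m, hm⟩ := isLocPart_nilp_uOpL _ hV hϖ q hq' hdvd α (Or.inr rfl)
    refine ⟨m, fun x hx => ?_⟩
    obtain ⟨z, hz, ez⟩ := hm x hx
    refine ⟨z, hz, ?_⟩
    rw [← ez, hUq, Module.End.pow_apply]
  have hsurj : ∀ y ∈ V, ∃ y' ∈ V, U (U y') - y' = y := by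
    have := bij_UU hq' hNq hdvd (Or.inr rfl) hα hϖ0 hϖ hV U hUq
    intro y hy
    obtain ⟨y', hy', ey⟩ := this.surj y hy
    exact ⟨y', hy', ey⟩
  have hsplit : ∀ w ∈ W, ∃ x' ∈ V', ∃ x'' ∈ W ⊓ LinearMap.ker e', w = x' + x'' := by
    intro w hw
    refine ⟨e' w, e'2 w, w - e' w, ⟨W.sub_mem hw (hV'W (e'2 w)), ?_⟩, by abel⟩
    show e' (w - e' w) = 0
    rw [map_sub, e'1, sub_self]
  -- `s_a (V') ⊆ V`
  have hsa : ∀ x ∈ V', sOld (r₁L 𝒪 𝒪 N q) (r₂L 𝒪 𝒪 N q) aE x ∈ V := by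
    have hfamV' : ∀ (i : Idx Ts Uset), ∀ x ∈ V', fam (isMid_Gamma0 N) hTsN hU i x ∈ V' :=
      fun i => mem_of_proj_comm e' _ e'2 e'3
        (fam_proj_comm (isMid_Gamma0 N) hTsN hU e' e'4 e'5 i)
    let Nsrc : Idx Ts Uset ⊕ Unit → (V' →ₗ[𝒪] V') := fun i =>
      match i with
      | .inl i => (fam (isMid_Gamma0 N) hTsN hU i).restrict (hfamV' i)
      | .inr _ => a - α • (1 : V' →ₗ[𝒪] V')
    let Ntgt : Idx Ts Uset ⊕ Unit →
        ((Additive (Gamma0 (N * q)) →+ 𝒪) →ₗ[𝒪] (Additive (Gamma0 (N * q)) →+ 𝒪)) := fun i =>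
      match i with
      | .inl i => fam (isMid_Gamma0 (N * q)) hTsQ hUQ i
      | .inr _ => uOpL (isMid_Gamma0 (N * q)) 𝒪 q hq' hdvd α
    have hUfam : ∀ (i : Idx Ts Uset) (x : Additive (Gamma0 (N * q)) →+ 𝒪),
        uOpL (isMid_Gamma0 (N * q)) 𝒪 q hq' hdvd α (fam (isMid_Gamma0 (N * q)) hTsQ hUQ i x) =
          fam (isMid_Gamma0 (N * q)) hTsQ hUQ i
            (uOpL (isMid_Gamma0 (N * q)) 𝒪 q hq' hdvd α x) := by
      rintro (i | i) x
      · exact uOpL_tOpL _ q i.1.1 hq' (hTsQ i.1 i.2).1 hdvd (hTsQ i.1 i.2).2 α i.1.2 x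
      · exact uOpL_uOpL _ q i.1.1 hq' (hUQ i.1 i.2).1 hdvd (hUQ i.1 i.2).2 α i.1.2 x
    have hSfam : ∀ (i : Idx Ts Uset) (y : V'),
        (fam (isMid_Gamma0 N) hTsN hU i).restrict (hfamV' i) (TV y) =
          TV ((fam (isMid_Gamma0 N) hTsN hU i).restrict (hfamV' i) y) := by
      intro i y
      apply Subtype.ext
      show fam (isMid_Gamma0 N) hTsN hU i ((TV y : V') : _) =
        ((TV ((fam (isMid_Gamma0 N) hTsN hU i).restrict (hfamV' i) y) : V') : _)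
      rw [hTVval, hTVval]
      show fam (isMid_Gamma0 N) hTsN hU i (T (y : _)) = T (fam (isMid_Gamma0 N) hTsN hU i (y : _))
      have key : ∀ x, fam (isMid_Gamma0 N) hTsN hU i (shiftBy T c x) =
          shiftBy T c (fam (isMid_Gamma0 N) hTsN hU i x) := by
        intro x
        rw [← hTq]
        rcases i with i | i
        · exact tOpL_tOpL _ i.1.1 q (hTsN i.1 i.2).1 hq' (hTsN i.1 i.2).2 hqN i.1.2 c x
        · exact uOpL_tOpL _ i.1.1 q (hU i.1 i.2).1 hq' (hU i.1 i.2).2 hqN i.1.2 c x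
      have := key (y : _)
      simp only [shiftBy_apply, map_sub, map_smul] at this
      exact sub_left_inj.mp this
    have key := nat_loc ϖ (fun x h => xk_torsionFree hϖ0 x h) (fun x h => xk_sep hϖ x h)
      Nsrc Ntgt
      (by
        rintro (i | _) (j | _) x
        · exact fam_comm _ hTsQ hUQ i j x
        · exact (hUfam i x).symm
        · exact hUfam j x
        · rfl)
      ⊤ (fun _ _ _ => Submodule.mem_top)
      (by
        rintro (i | _)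
        · obtain ⟨m, hm⟩ := fam_nilp _ hV' hϖ hTsN hU (fun x hx => hx.1) subset_rfl i
          refine ⟨m, fun y _ => ?_⟩
          obtain ⟨z, hz, ez⟩ := hm y y.2
          refine ⟨⟨z, hz⟩, Submodule.mem_top, ?_⟩
          apply Subtype.ext
          show ((((fam (isMid_Gamma0 N) hTsN hU i).restrict (hfamV' i)) ^ m) y : V').1 = _
          rw [coe_restrict_pow]
          exact ez
        · refine ⟨1 + k, fun y _ => ?_⟩
          obtain ⟨z, hz⟩ := hanil y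
          exact ⟨z, Submodule.mem_top, hz⟩)
      e e1
      (by
        rintro (i | _) x
        · exact fam_proj_comm _ hTsQ hUQ e e4 e5 i x
        · exact e5 q hq' hdvd α x)
      (by
        intro x hx hall
        rw [mem_divSub]
        refine e6 x hx ?_ ?_
        · intro y hy
          exact mem_divSub.mp (hall (Sum.inl (Sum.inl ⟨y, hy⟩)))
        · rintro y (hy | hy)
          · exact mem_divSub.mp (hall (Sum.inl (Sum.inr ⟨y, hy⟩)))
          · rw [Set.mem_singleton_iff] at hy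
            subst hy
            exact mem_divSub.mp (hall (Sum.inr ())))
      ((sOld (r₁L 𝒪 𝒪 N q) (r₂L 𝒪 𝒪 N q) aE) ∘ₗ V'.subtype)
      (by
        rintro (i | _) y
        · -- generators of the family
          have h1 : aE (fam (isMid_Gamma0 N) hTsN hU i (y : _)) =
              fam (isMid_Gamma0 N) hTsN hU i (aE (y : _)) := by
            have := haS _ (hSfam i) y
            have e1 := haEv ((fam (isMid_Gamma0 N) hTsN hU i).restrict (hfamV' i) y)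
            rw [haEv y]
            exact e1.trans (congrArg Subtype.val this.symm)
          show sOld (r₁L 𝒪 𝒪 N q) (r₂L 𝒪 𝒪 N q) aE (fam (isMid_Gamma0 N) hTsN hU i (y : _)) =
            fam (isMid_Gamma0 (N * q)) hTsQ hUQ i
              (sOld (r₁L 𝒪 𝒪 N q) (r₂L 𝒪 𝒪 N q) aE (y : _))
          rw [sOld_apply, sOld_apply, h1, map_sub]
          rcases i with i | i
          · exact congrArg₂ (fun u v => u - v)
              (tOpL_r₂ 𝒪 i.1.1 (hTsN i.1 i.2).1 (hTsN i.1 i.2).2 (hTsQ i.1 i.2).2 i.1.2 _)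
              (tOpL_r₁ 𝒪 i.1.1 (hTsN i.1 i.2).1 (hTsN i.1 i.2).2 (hTsQ i.1 i.2).2 i.1.2 _)
          · exact congrArg₂ (fun u v => u - v)
              (uOpL_r₂ 𝒪 hcross hqN i.1.1 (hU i.1 i.2).1 (hU i.1 i.2).2 (hUQ i.1 i.2).2 i.1.2 _)
              (uOpL_r₁ 𝒪 hcross hqN i.1.1 (hU i.1 i.2).1 (hU i.1 i.2).2 (hUQ i.1 i.2).2 i.1.2 _)
        · -- the generator `U_q - α`
          show sOld (r₁L 𝒪 𝒪 N q) (r₂L 𝒪 𝒪 N q) aE (((a - α • (1 : V' →ₗ[𝒪] V')) y : V') : _) =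
            uOpL (isMid_Gamma0 (N * q)) 𝒪 q hq' hdvd α
              (sOld (r₁L 𝒪 𝒪 N q) (r₂L 𝒪 𝒪 N q) aE (y : _))
          rw [hUq, sub_smul_sOld (degRel 𝒪 𝒪 hqN) hp α y.2, shiftBy_apply, haEv y]
          rfl)
    intro x hx
    have h2 : e (sOld (r₁L 𝒪 𝒪 N q) (r₂L 𝒪 𝒪 N q) aE x) =
        sOld (r₁L 𝒪 𝒪 N q) (r₂L 𝒪 𝒪 N q) aE x := key ⟨x, hx⟩ Submodule.mem_top
    rw [← h2]
    exact e2 _
  have main := ctrl_loc (degRel 𝒪 𝒪 hqN) hp α ϖ hab' ha2 hbα (W ⊓ LinearMap.ker e') hTW'' hg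
    V e e2 e3 heU hsep hnilU hsurj (fun y hy => hsplit _ (ht₁W y hy))
    (fun y hy => hsplit _ (ht₂W y hy)) hsa
  obtain ⟨hC, hinj, hsur⟩ := main
  refine ⟨?_, hinj, hsur⟩
  intro y hy
  obtain ⟨u, hu, rfl⟩ := hC y hy
  have := t₂_sOld (degRel 𝒪 𝒪 hqN) hp hu
  rw [t₂L_apply] at this
  rw [this]
  exact V'.sub_mem hu (hp.a_mem _ (hp.a_mem _ hu))

end

end Fermat.Agent.S59.H105
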