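import Fermat.Agent.S59.H105.NatLoc

/-!
# Row S59, cell TW, leaf CTRL (helper105): auxiliary lemmas for the one-prime step
-/

set_option autoImplicit false

namespace Fermat.Agent.S59.H105

open IsLocalRing CongruenceSubgroup
open Fermat.Agent.S59.TW.H653 Fermat.Agent.S59.TW.Aut
open scoped MatrixGroups

section Abs

variable {𝒪 : Type*} [CommRing 𝒪] {X : Type*} [AddCommGroup X] [Module 𝒪 X]

theorem pow_mem_divSub (ϖ : 𝒪) (n : X →ₗ[𝒪] X) (j : ℕ) {x : X} (hx : x ∈ divSub X ϖ) :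
    (n ^ j) x ∈ divSub X ϖ :=
  map_mem_divSub (n ^ j) hx

/-- If `n x ≡ u x` and `n^m x ≡ 0` modulo `ϖ`, `u` a unit, then `x ≡ 0`. -/
theorem mem_divSub_of_unit_nilp (ϖ : 𝒪) (n : X →ₗ[𝒪] X) {u : 𝒪} (hu : IsUnit u) {x : X} (m : ℕ)
    (hm : (n ^ m) x ∈ divSub X ϖ) (h : n x - u • x ∈ divSub X ϖ) : x ∈ divSub X ϖ := by
  have key : ∀ j : ℕ, (n ^ j) x - u ^ j • x ∈ divSub X ϖ := by
    intro j
    induction j with
    | zero => simp
    | succ j ih =>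
      have e : (n ^ (j + 1)) x - u ^ (j + 1) • x =
          (n ^ j) (n x - u • x) + u • ((n ^ j) x - u ^ j • x) := by
        rw [pow_succ, Module.End.mul_apply, map_sub, map_smul, smul_sub, smul_smul,
          ← pow_succ']
        abel
      rw [e]
      exact (divSub X ϖ).add_mem (pow_mem_divSub ϖ n j h) ((divSub X ϖ).smul_mem u ih)
  have h1 : u ^ m • x ∈ divSub X ϖ := by
    have := (divSub X ϖ).sub_mem hm (key m)
    rwa [sub_sub_cancel] at this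
  obtain ⟨v, hv⟩ := (hu.pow m)
  have h2 : x = (↑v⁻¹ : 𝒪) • (u ^ m • x) := by
    rw [smul_smul, ← hv, Units.inv_mul, one_smul]
  rw [h2]
  exact (divSub X ϖ).smul_mem _ h1

theorem coe_restrict_pow (f : X →ₗ[𝒪] X) (V : Submodule 𝒪 X) (h : ∀ x ∈ V, f x ∈ V) (m : ℕ)
    (y : V) : (((f.restrict h) ^ m) y : X) = (f ^ m) (y : X) := by
  induction m generalizing y with
  | zero => simp
  | succ m ih =>
    rw [pow_succ, Module.End.mul_apply, ih, pow_succ, Module.End.mul_apply]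
    rfl

end Abs

end Fermat.Agent.S59.H105

namespace Fermat.Agent.S59.H105

open IsLocalRing CongruenceSubgroup
open Fermat.Agent.S59.TW.H653 Fermat.Agent.S59.TW.Aut
open scoped MatrixGroups

section Compl

variable {𝒪 : Type} [CommRing 𝒪] [IsDomain 𝒪] [IsDiscreteValuationRing 𝒪]
  [IsAdicComplete (maximalIdeal 𝒪) 𝒪] [Finite (ResidueField 𝒪)]

/-- Saturation of a localisation. -/
theorem isLocPart_sat {M : ℕ} {K : Subgroup SL(2, ℤ)} (hK : IsMid M K)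
    {Tset Uset : Set (ℕ × 𝒪)} {V : Submodule 𝒪 (Additive K →+ 𝒪)}
    (hV : IsLocPart hK Tset Uset V) {ϖ : 𝒪} (hϖ0 : ϖ ≠ 0) (x : Additive K →+ 𝒪)
    (hx : ϖ • x ∈ V) : x ∈ V := by
  obtain ⟨e, _, e2, e3, _⟩ := hV.exists_proj
  have h1 : ϖ • (e x - x) = 0 := by
    rw [smul_sub, ← map_smul, e3 _ hx, sub_self]
  have h2 := xk_torsionFree hϖ0 _ h1
  rw [← sub_eq_zero.mp h2]
  exact e2 x

/-- On the complement of `V'` (localisation at `Tset, Uset`) inside `W` (localisation at the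
generators of `Tset` other than `T_q`, and `Uset`), `u (T_q - c) + d` is bijective
(`u` a unit, `d ≡ 0`). -/
theorem bij_compl {N q : ℕ} (hq : q.Prime) (hN : N ≠ 0) (hqN : ¬ q ∣ N)
    {Tset Uset : Set (ℕ × 𝒪)} (hT : ∀ x ∈ Tset, x.1.Prime ∧ ¬ x.1 ∣ N)
    (hU : ∀ x ∈ Uset, x.1.Prime ∧ x.1 ∣ N) {c : 𝒪}
    (hcq : ∀ c', (q, c') ∈ Tset → c' - c ∈ maximalIdeal 𝒪)
    {ϖ : 𝒪} (hϖ0 : ϖ ≠ 0) (hϖ : maximalIdeal 𝒪 = Ideal.span {ϖ})
    {W : Submodule 𝒪 (Additive (Gamma0 N) →+ 𝒪)}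
    (hW : IsLocPart (isMid_Gamma0 N) {x | x ∈ Tset ∧ x.1 ≠ q} Uset W)
    (e' : (Additive (Gamma0 N) →+ 𝒪) →ₗ[𝒪] (Additive (Gamma0 N) →+ 𝒪))
    (e'4 : ∀ (ℓ : ℕ) (hℓ : ℓ.Prime) (hℓM : ¬ ℓ ∣ N) (c : 𝒪) (x : Additive (Gamma0 N) →+ 𝒪),
        e' (tOpL (isMid_Gamma0 N) 𝒪 ℓ hℓ hℓM c x) = tOpL (isMid_Gamma0 N) 𝒪 ℓ hℓ hℓM c (e' x))
    (e'5 : ∀ (q : ℕ) (hq : q.Prime) (hqM : q ∣ N) (α : 𝒪) (x : Additive (Gamma0 N) →+ 𝒪),
        e' (uOpL (isMid_Gamma0 N) 𝒪 q hq hqM α x) = uOpL (isMid_Gamma0 N) 𝒪 q hq hqM α (e' x))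
    (e'6 : ∀ x, e' x = 0 →
        (∀ (y : ℕ × 𝒪) (hy : y ∈ Tset), ∃ z : Additive (Gamma0 N) →+ 𝒪,
          tOpL (isMid_Gamma0 N) 𝒪 y.1 (hT y hy).1 (hT y hy).2 y.2 x = ϖ • z) →
        (∀ (y : ℕ × 𝒪) (hy : y ∈ Uset), ∃ z : Additive (Gamma0 N) →+ 𝒪,
          uOpL (isMid_Gamma0 N) 𝒪 y.1 (hU y hy).1 (hU y hy).2 y.2 x = ϖ • z) →
        ∃ z : Additive (Gamma0 N) →+ 𝒪, x = ϖ • z)
    {u d : 𝒪} (hu : IsUnit u) (hd : d ∈ maximalIdeal 𝒪) :
    BijOnSub (u • tOpL (isMid_Gamma0 N) 𝒪 q hq hqN c + d • LinearMap.id)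
      (W ⊓ LinearMap.ker e') := by
  classical
  set Ts : Set (ℕ × 𝒪) := {x | x ∈ Tset ∧ x.1 ≠ q} with hTs
  have hTsN : ∀ x ∈ Ts, x.1.Prime ∧ ¬ x.1 ∣ N := fun x hx => hT x hx.1
  obtain ⟨eW, eW1, eW2, eW3, eW4, eW5, _⟩ := isLocPart_proj _ hW hϖ hTsN hU
  set Tq := tOpL (isMid_Gamma0 N) 𝒪 q hq hqN c with hTq
  set g := u • Tq + d • LinearMap.id with hg
  have hgapp : ∀ x, g x = u • Tq x + d • x := fun x => rfl
  obtain ⟨d', rfl⟩ : ∃ d', d = ϖ * d' := by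
    rw [hϖ, Ideal.mem_span_singleton] at hd
    exact hd
  haveI : Module.Finite 𝒪 ↥(W ⊓ LinearMap.ker e') :=
    (xk_finite_free hN (isMid_Gamma0 N) _).1
  haveI := xk_isNoetherian_end (𝒪 := 𝒪) hN (isMid_Gamma0 N)
  have hTqW : ∀ x ∈ W, Tq x ∈ W := mem_of_proj_comm eW Tq eW2 eW3 (fun x => eW4 q hq hqN c x)
  have hTqK : ∀ x, e' x = 0 → e' (Tq x) = 0 := by
    intro x hx
    rw [e'4, hx, map_zero]
  apply bijOnSub_of_injective_mod ϖ hϖ
  · -- saturation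
    intro x hx
    refine ⟨isLocPart_sat _ hW hϖ0 x hx.1, ?_⟩
    have h1 : ϖ • e' x = 0 := by
      rw [← map_smul]
      exact hx.2
    exact xk_torsionFree hϖ0 _ h1
  · -- stability
    intro x hx
    refine ⟨?_, ?_⟩
    · rw [hgapp]
      exact W.add_mem (W.smul_mem u (hTqW x hx.1)) (W.smul_mem _ hx.1)
    · have hx2 : e' x = 0 := hx.2
      show e' (g x) = 0
      rw [hgapp, map_add, map_smul, map_smul, hTqK x hx2, hx2]
      simp
  · -- injectivity modulo `ϖ`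
    intro x hx hgx
    rw [← mem_divSub]
    by_contra hxB
    -- `(T_q - c) x ≡ 0`
    have hTx : Tq x ∈ divSub _ ϖ := by
      obtain ⟨z, hz⟩ := hgx
      obtain ⟨v, rfl⟩ := hu
      have : Tq x = ϖ • ((↑v⁻¹ : 𝒪) • (z - d' • x)) := by
        have e1 : (v : 𝒪) • Tq x = ϖ • (z - d' • x) := by
          rw [smul_sub, ← hz, hgapp, smul_smul]
          abel
        rw [smul_comm, ← e1, smul_smul, Units.inv_mul, one_smul]
      exact mem_divSub.mpr ⟨_, this⟩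
    let S : Submodule 𝒪 (Additive (Gamma0 N) →+ 𝒪) :=
      (W ⊓ LinearMap.ker e') ⊓ (divSub _ ϖ).comap Tq
    have hxS : x ∈ S := ⟨hx, hTx⟩
    have hfamTq : ∀ (i : Idx Ts Uset) (y : Additive (Gamma0 N) →+ 𝒪),
        Tq (fam (isMid_Gamma0 N) hTsN hU i y) = fam (isMid_Gamma0 N) hTsN hU i (Tq y) := by
      intro i y
      rcases i with i | i
      · exact tOpL_tOpL _ q i.1.1 hq (hTsN i.1 i.2).1 hqN (hTsN i.1 i.2).2 c i.1.2 y
      · exact (uOpL_tOpL _ i.1.1 q (hU i.1 i.2).1 hq (hU i.1 i.2).2 hqN i.1.2 c y).symm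
    obtain ⟨z, hzS, hzB, hker⟩ := exists_common_ker (fam (isMid_Gamma0 N) hTsN hU)
      (fam_comm (isMid_Gamma0 N) hTsN hU) S (divSub _ ϖ)
      (by
        intro i y hy
        refine ⟨⟨?_, ?_⟩, ?_⟩
        · exact mem_of_proj_comm eW _ eW2 eW3
            (fam_proj_comm (isMid_Gamma0 N) hTsN hU eW eW4 eW5 i) y hy.1.1
        · have hy2 : e' y = 0 := hy.1.2
          show e' (fam (isMid_Gamma0 N) hTsN hU i y) = 0
          rw [fam_proj_comm (isMid_Gamma0 N) hTsN hU e' e'4 e'5 i, hy2, map_zero]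
        · have hy3 : Tq y ∈ divSub _ ϖ := hy.2
          show Tq (fam (isMid_Gamma0 N) hTsN hU i y) ∈ divSub _ ϖ
          rw [hfamTq]
          exact map_mem_divSub _ hy3)
      (fun i y hy => map_mem_divSub _ hy)
      (by
        intro i
        obtain ⟨m, hm⟩ := fam_nilp (isMid_Gamma0 N) hW hϖ hTsN hU subset_rfl subset_rfl i
        refine ⟨m, fun y hy => ?_⟩
        obtain ⟨z, _, hz⟩ := hm y hy.1.1
        exact mem_divSub.mpr ⟨z, hz⟩)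
      hxS hxB
    apply hzB
    rw [mem_divSub]
    have hz2 : e' z = 0 := hzS.1.2
    refine e'6 z hz2 ?_ ?_
    · intro y hy
      by_cases hyq : y.1 = q
      · -- the generator at `q`
        obtain ⟨ℓ, c'⟩ := y
        simp only at hyq
        subst hyq
        have hc' := hcq c' hy
        rw [hϖ, Ideal.mem_span_singleton] at hc'
        obtain ⟨w, hw⟩ := hc'
        have hz3 : Tq z ∈ divSub _ ϖ := hzS.2
        obtain ⟨z', hz'⟩ := mem_divSub.mp hz3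
        refine ⟨z' - w • z, ?_⟩
        have e1 : tOpL (isMid_Gamma0 N) 𝒪 ℓ (hT (ℓ, c') hy).1 (hT (ℓ, c') hy).2 c' z =
            Tq z - (c' - c) • z := by
          haveI : Fact ℓ.Prime := ⟨hq⟩
          show shiftE 𝒪 _ c' z = shiftE 𝒪 _ c z - (c' - c) • z
          simp only [shiftE_apply, sub_smul]
          abel
        rw [e1, hz', hw, smul_sub, mul_smul]
      · exact mem_divSub.mp (hker (Sum.inl ⟨y, hy, hyq⟩))
    · intro y hy
      exact mem_divSub.mp (hker (Sum.inr ⟨y, hy⟩))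

end Compl

end Fermat.Agent.S59.H105
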